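/-
T1B / TORIC50 MODEL FACTS (helper37): the ABSTRACT SUPERSINGULAR POLYNOMIAL.

Setting: `B` an `R`-algebra (a chart), `t : B` the coordinate, `B` integral over `R[t]`
(`(eval₂RingHom (algebraMap R B) t).IsIntegralElem x` for all `x`), `π : R` generating the maximal
ideal of the local ring `R`, `P Q : Ideal B` two primes containing `π` (the two components of the
special fibre), incomparable, not comaximal (a node exists), and all maximal ideals containing
`P ⊔ Q` (the nodes) avoid `t`.

Output (`exists_poly`): a MONIC `S : R[X]` with `S(0)` a unit, `S(t) ∈ P ⊔ Q` (so `S` vanishes at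
all nodes; `meet` with exponent `1`), `S(t) ∉ P`, `S(t) ∉ Q` (regular on both components).
No rationality of the nodes is needed.

Also: `aeval_notMem_of_map_ne_zero` (`t mod P` is transcendental over `R/π`), and
`finite_quotient_span_aeval` (`B ⧸ (S(t))` is a finite `R`-module when `B` is finite over `R[t]`).
Mathlib only.
-/
import Mathlib

set_option autoImplicit false
set_option linter.style.haveILetI false

namespace Fermat.Agent.T1B.NodeNF37.SSPoly

open Polynomial

variable {R B : Type*} [CommRing R] [CommRing B] [Algebra R B]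

/-! ### units modulo an ideal -/

theorem mem_of_mul_mem_of_sup_eq_top {I : Ideal B} {t y : B}
    (h : I ⊔ Ideal.span {t} = ⊤) (hy : t * y ∈ I) : y ∈ I := by
  have h1 : (1 : B) ∈ I ⊔ Ideal.span {t} := by rw [h]; exact Submodule.mem_top
  obtain ⟨i, hi, z, hz, hiz⟩ := Submodule.mem_sup.1 h1
  obtain ⟨b, rfl⟩ := Ideal.mem_span_singleton'.1 hz
  have : y = i * y + b * (t * y) := by linear_combination (-y) * hiz
  rw [this]
  exact I.add_mem (I.mul_mem_right _ hi) (I.mul_mem_left _ hy)

theorem mem_of_pow_mul_mem_of_sup_eq_top {I : Ideal B} {t y : B}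
    (h : I ⊔ Ideal.span {t} = ⊤) (k : ℕ) (hy : t ^ k * y ∈ I) : y ∈ I := by
  induction k with
  | zero => simpa using hy
  | succ k ih =>
    apply ih
    apply mem_of_mul_mem_of_sup_eq_top h
    rw [← mul_assoc, ← pow_succ']
    exact hy

/-- if no maximal ideal over `I` contains `t` then `t` is a unit modulo `I`. -/
theorem sup_span_eq_top_of_forall_maximal {I : Ideal B} {t : B}
    (h : ∀ m : Ideal B, m.IsMaximal → I ≤ m → t ∉ m) : I ⊔ Ideal.span {t} = ⊤ := by
  by_contra hne
  obtain ⟨m, hm, hle⟩ := Ideal.exists_le_maximal _ hne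
  exact h m hm (le_trans le_sup_left hle)
    (hle (Ideal.mem_sup_right (Ideal.subset_span rfl)))

/-! ### the constant term of a minimal equation -/

/-- From an integral element `c ∉ P` (`P` prime): some `a` in the base ring with
`f a ∈ P ⊔ (c)` and `f a ∉ P` (the constant term of an equation of minimal degree mod `P`). -/
theorem exists_const_of_isIntegralElem {A : Type*} [CommRing A] (f : A →+* B) (P : Ideal B)
    [hP : P.IsPrime] {c : B} (hc : c ∉ P) (hint : f.IsIntegralElem c) :
    ∃ a : A, f a ∈ P ⊔ Ideal.span {c} ∧ f a ∉ P := by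
  obtain ⟨p, hp, hpc⟩ := hint
  have key : ∀ n : ℕ, ∀ p : A[X], p.natDegree = n → p.Monic → eval₂ f c p ∈ P →
      ∃ a : A, f a ∈ P ⊔ Ideal.span {c} ∧ f a ∉ P := by
    intro n
    induction n with
    | zero =>
      intro p hn hp hpc
      exfalso
      have h1 : p = 1 := eq_one_of_monic_natDegree_zero hp hn
      rw [h1, eval₂_one] at hpc
      exact hP.ne_top ((Ideal.eq_top_iff_one _).2 hpc)
    | succ n ih =>
      intro p hn hp hpc
      have hdec : eval₂ f c p = eval₂ f c (divX p) * c + f (p.coeff 0) := by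
        conv_lhs => rw [← divX_mul_X_add p]
        rw [eval₂_add, eval₂_mul, eval₂_X, eval₂_C]
      by_cases h0 : f (p.coeff 0) ∈ P
      · -- divide by `X`
        have h1 : eval₂ f c (divX p) * c ∈ P := by
          have : eval₂ f c (divX p) * c = eval₂ f c p - f (p.coeff 0) := by
            rw [hdec]; ring
          rw [this]
          exact P.sub_mem hpc h0
        have h2 : eval₂ f c (divX p) ∈ P := (hP.mem_or_mem h1).resolve_right hc
        have hdeg : (divX p).natDegree = n := by
          rw [natDegree_divX_eq_natDegree_tsub_one, hn]; rfl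
        have hmon : (divX p).Monic := by
          show (divX p).leadingCoeff = 1
          rw [leadingCoeff, hdeg, coeff_divX, ← hn]
          exact hp
        exact ih (divX p) hdeg hmon h2
      · refine ⟨p.coeff 0, ?_, h0⟩
        have : f (p.coeff 0) = eval₂ f c p + (-eval₂ f c (divX p)) * c := by
          rw [hdec]; ring
        rw [this]
        exact Ideal.add_mem _ (Ideal.mem_sup_left hpc)
          (Ideal.mem_sup_right (Ideal.mul_mem_left _ _ (Ideal.subset_span rfl)))
  exact key p.natDegree p rfl hp (by rw [hpc]; exact P.zero_mem)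

/-! ### reduction modulo `π` and modulo a vertical prime -/

section Reduction

variable (π : R) (t : B) (P : Ideal B)

/-- `R/π → B/P` for `π ∈ P`. -/
noncomputable def redHom (hπP : algebraMap R B π ∈ P) : R ⧸ Ideal.span {π} →+* B ⧸ P :=
  Ideal.Quotient.lift (Ideal.span {π}) ((Ideal.Quotient.mk P).comp (algebraMap R B)) (by
    intro a ha
    obtain ⟨b, rfl⟩ := Ideal.mem_span_singleton'.1 ha
    rw [RingHom.comp_apply, Ideal.Quotient.eq_zero_iff_mem, map_mul]
    exact P.mul_mem_left _ hπP)

theorem redHom_comp_mk (hπP : algebraMap R B π ∈ P) :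
    (redHom π P hπP).comp (Ideal.Quotient.mk (Ideal.span {π})) =
      (Ideal.Quotient.mk P).comp (algebraMap R B) := by
  ext a
  rfl

/-- evaluation at `t mod P` of the reduction mod `π` of a polynomial. -/
theorem eval₂_redHom_map (hπP : algebraMap R B π ∈ P) (h : R[X]) :
    eval₂ (redHom π P hπP) (Ideal.Quotient.mk P t) (h.map (Ideal.Quotient.mk (Ideal.span {π}))) =
      Ideal.Quotient.mk P (aeval t h) := by
  rw [eval₂_map, redHom_comp_mk, aeval_def, hom_eval₂]

/-- a polynomial vanishing mod `π` takes its values in `P`. -/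
theorem aeval_mem_of_map_eq_zero (hπP : algebraMap R B π ∈ P) {h : R[X]}
    (h0 : h.map (Ideal.Quotient.mk (Ideal.span {π})) = 0) : aeval t h ∈ P := by
  rw [← Ideal.Quotient.eq_zero_iff_mem, ← eval₂_redHom_map π t P hπP, h0, eval₂_zero]

/-- **`t mod P` is transcendental over `R/π`** as soon as `P` is not maximal, in the form:
there is a proper ideal `m ⊇ P` and a polynomial value `a(t) ∈ m ∖ P`. -/
theorem aeval_notMem_of_map_ne_zero [hP : P.IsPrime] (hmax : (Ideal.span {π}).IsMaximal)
    (hπP : algebraMap R B π ∈ P) {m : Ideal B} (hm : m ≠ ⊤) (hPm : P ≤ m) {a : R[X]}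
    (ham : aeval t a ∈ m) (haP : aeval t a ∉ P) {S : R[X]}
    (hS : S.map (Ideal.Quotient.mk (Ideal.span {π})) ≠ 0) : aeval t S ∉ P := by
  intro hSP
  letI : Field (R ⧸ Ideal.span {π}) := Ideal.Quotient.field _
  set mkκ := Ideal.Quotient.mk (Ideal.span {π}) with hmkκ
  set ψ : (R ⧸ Ideal.span {π})[X] →+* B ⧸ P :=
    eval₂RingHom (redHom π P hπP) (Ideal.Quotient.mk P t) with hψ
  have hψmap : ∀ h : R[X], ψ (h.map mkκ) = Ideal.Quotient.mk P (aeval t h) := fun h => by
    rw [hψ, coe_eval₂RingHom]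
    exact eval₂_redHom_map π t P hπP h
  have hker_ne : RingHom.ker ψ ≠ ⊥ := by
    intro hbot
    apply hS
    have : S.map mkκ ∈ RingHom.ker ψ := by
      rw [RingHom.mem_ker, hψmap, Ideal.Quotient.eq_zero_iff_mem]
      exact hSP
    rw [hbot] at this
    exact this
  haveI : (RingHom.ker ψ).IsPrime := RingHom.ker_isPrime ψ
  have hkmax : (RingHom.ker ψ).IsMaximal := IsPrime.to_maximal_ideal hker_ne
  have hanot : a.map mkκ ∉ RingHom.ker ψ := by
    rw [RingHom.mem_ker, hψmap, Ideal.Quotient.eq_zero_iff_mem]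
    exact haP
  obtain ⟨y, i, hi, hyi⟩ := hkmax.exists_inv hanot
  have h1 : ψ y * Ideal.Quotient.mk P (aeval t a) = 1 := by
    have := congrArg ψ hyi
    rw [map_add, map_mul, hψmap, RingHom.mem_ker.1 hi, add_zero, map_one] at this
    exact this
  obtain ⟨b, hb⟩ := Ideal.Quotient.mk_surjective (ψ y)
  rw [← hb, ← map_mul, ← map_one (Ideal.Quotient.mk P), Ideal.Quotient.eq] at h1
  apply hm
  rw [Ideal.eq_top_iff_one]
  have : (1 : B) = b * aeval t a - (b * aeval t a - 1) := by ring
  rw [this]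
  exact m.sub_mem (m.mul_mem_left _ ham) (hPm h1)

end Reduction

/-! ### the supersingular polynomial -/

/-- **The abstract supersingular polynomial.** -/
theorem exists_poly (π : R) (t : B) (P Q : Ideal B) [hP : P.IsPrime] [hQ : Q.IsPrime]
    (hmax : (Ideal.span {π}).IsMaximal) (hloc : ∀ r : R, r ∉ Ideal.span {π} → IsUnit r)
    (hπP : algebraMap R B π ∈ P) (hπQ : algebraMap R B π ∈ Q)
    (hint : ∀ x : B, (eval₂RingHom (algebraMap R B) t).IsIntegralElem x)
    (hQP : ∃ c ∈ Q, c ∉ P) (hPQ : ∃ c ∈ P, c ∉ Q) (hnode : P ⊔ Q ≠ ⊤)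
    (hU : ∀ m : Ideal B, m.IsMaximal → P ≤ m → Q ≤ m → t ∉ m) :
    ∃ S : R[X], S.Monic ∧ IsUnit (S.coeff 0) ∧ aeval t S ∈ P ⊔ Q ∧ aeval t S ∉ P ∧
      aeval t S ∉ Q ∧ ∀ S' : R[X], S'.map (Ideal.Quotient.mk (Ideal.span {π})) ≠ 0 →
        aeval t S' ∉ P ∧ aeval t S' ∉ Q := by
  letI : Field (R ⧸ Ideal.span {π}) := Ideal.Quotient.field _
  set mkκ := Ideal.Quotient.mk (Ideal.span {π}) with hmkκ
  have hfa : ∀ a : R[X], eval₂RingHom (algebraMap R B) t a = aeval t a := fun a => by
    rw [coe_eval₂RingHom, aeval_def]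
  -- the two constant terms
  obtain ⟨c, hcQ, hcP⟩ := hQP
  obtain ⟨a, ha1, ha2⟩ := exists_const_of_isIntegralElem _ P hcP (hint c)
  rw [hfa] at ha1 ha2
  have ha1' : aeval t a ∈ P ⊔ Q :=
    (sup_le_sup_left ((Ideal.span_singleton_le_iff_mem _).2 hcQ) P) ha1
  obtain ⟨c', hcP', hcQ'⟩ := hPQ
  obtain ⟨a', hb1, ha2'⟩ := exists_const_of_isIntegralElem _ Q hcQ' (hint c')
  rw [hfa] at hb1 ha2'
  have ha1'' : aeval t a' ∈ P ⊔ Q := by
    have := (sup_le_sup_left ((Ideal.span_singleton_le_iff_mem _).2 hcP') Q) hb1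
    rwa [sup_comm] at this
  -- a node
  obtain ⟨m, hm, hle⟩ := Ideal.exists_le_maximal _ hnode
  have hPm : P ≤ m := le_trans le_sup_left hle
  have hQm : Q ≤ m := le_trans le_sup_right hle
  -- transcendence
  have htr : ∀ S' : R[X], S'.map mkκ ≠ 0 → aeval t S' ∉ P ∧ aeval t S' ∉ Q := fun S' hS' =>
    ⟨aeval_notMem_of_map_ne_zero π t P hmax hπP hm.ne_top hPm (hle ha1') ha2 hS',
      aeval_notMem_of_map_ne_zero π t Q hmax hπQ hm.ne_top hQm (hle ha1'') ha2' hS'⟩
  -- the reduction of `a` is nonzero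
  have hane : a.map mkκ ≠ 0 := fun h0 => ha2 (aeval_mem_of_map_eq_zero π t P hπP h0)
  -- strip the power of `X` and the leading coefficient
  obtain ⟨g, hg, hXg⟩ := exists_eq_pow_rootMultiplicity_mul_and_not_dvd (a.map mkκ) hane 0
  set j := rootMultiplicity 0 (a.map mkκ) with hj
  rw [C_0, sub_zero] at hg hXg
  have hg0 : g ≠ 0 := by
    rintro rfl
    rw [mul_zero] at hg
    exact hane hg
  have hgc0 : g.coeff 0 ≠ 0 := fun h => hXg (X_dvd_iff.2 h)
  have hlc : g.leadingCoeff ≠ 0 := leadingCoeff_ne_zero.2 hg0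
  have hmon : (g * C g.leadingCoeff⁻¹).Monic := monic_mul_leadingCoeff_inv hg0
  have hl : g * C g.leadingCoeff⁻¹ ∈ lifts mkκ := by
    rw [lifts_iff_coeff_lifts]
    intro n
    exact Ideal.Quotient.mk_surjective _
  obtain ⟨S, hSmap, -, hSmon⟩ := lifts_and_natDegree_eq_and_monic hl hmon
  have hSne : S.map mkκ ≠ 0 := by
    rw [hSmap]
    exact hmon.ne_zero
  have hS0 : IsUnit (S.coeff 0) := by
    apply hloc
    intro hmem
    have h1 : (S.map mkκ).coeff 0 = 0 := by
      rw [coeff_map]
      exact Ideal.Quotient.eq_zero_iff_mem.2 hmem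
    rw [hSmap, coeff_mul_C] at h1
    rcases mul_eq_zero.1 h1 with h | h
    · exact hgc0 h
    · exact inv_ne_zero hlc h
  obtain ⟨u, hu⟩ := Ideal.Quotient.mk_surjective (g.leadingCoeff⁻¹)
  -- the difference vanishes mod `π`
  have hD : (a * C u - X ^ j * S).map mkκ = 0 := by
    rw [Polynomial.map_sub, Polynomial.map_mul, Polynomial.map_mul, Polynomial.map_pow, map_X,
      map_C, hSmap, hu, hg]
    ring
  have hDP : aeval t (a * C u - X ^ j * S) ∈ P := aeval_mem_of_map_eq_zero π t P hπP hD
  have htj : t ^ j * aeval t S ∈ P ⊔ Q := by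
    have : t ^ j * aeval t S = aeval t a * algebraMap R B u - aeval t (a * C u - X ^ j * S) := by
      simp only [map_sub, map_mul, map_pow, aeval_X, aeval_C]
      ring
    rw [this]
    exact Ideal.sub_mem _ (Ideal.mul_mem_right _ _ ha1') (Ideal.mem_sup_left hDP)
  have hunit : (P ⊔ Q) ⊔ Ideal.span {t} = ⊤ :=
    sup_span_eq_top_of_forall_maximal fun m hm hle =>
      hU m hm (le_trans le_sup_left hle) (le_trans le_sup_right hle)
  exact ⟨S, hSmon, hS0, mem_of_pow_mul_mem_of_sup_eq_top hunit j htj, (htr S hSne).1,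
    (htr S hSne).2, htr⟩

/-! ### finiteness of `B ⧸ (T(t))` -/

/-- If `B` is a finite `R[t]`-module (explicit generators) and `T` is monic then `B ⧸ (T(t))` is a
finite `R`-module. -/
theorem finite_quotient_span_aeval (t : B) {r : ℕ} (e : Fin r → B)
    (hfin : ∀ x : B, ∃ P : Fin r → R[X], x = ∑ i, aeval t (P i) * e i)
    {T : R[X]} (hT : T.Monic) : Module.Finite R (B ⧸ Ideal.span {aeval t T}) := by
  set I : Ideal B := Ideal.span {aeval t T} with hI
  set d := T.natDegree with hd
  let gens : Fin r × Fin (d + 1) → B ⧸ I := fun ij =>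
    Ideal.Quotient.mk I (t ^ (ij.2 : ℕ) * e ij.1)
  have htop : (⊤ : Submodule R (B ⧸ I)) = Submodule.span R (Set.range gens) := by
    symm
    rw [eq_top_iff]
    rintro y -
    obtain ⟨x, rfl⟩ := Ideal.Quotient.mk_surjective y
    obtain ⟨P, hx⟩ := hfin x
    have hmk : Ideal.Quotient.mk I x =
        ∑ i, Ideal.Quotient.mk I (aeval t (P i %ₘ T) * e i) := by
      rw [← map_sum, Ideal.Quotient.eq, hx, ← Finset.sum_sub_distrib]
      apply Ideal.sum_mem
      intro i _
      have : aeval t (P i) * e i - aeval t (P i %ₘ T) * e i =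
          aeval t T * (aeval t (P i /ₘ T) * e i) := by
        have h := congrArg (aeval t) (modByMonic_add_div (P i) T)
        rw [map_add, map_mul] at h
        linear_combination (-(e i)) * h
      rw [this]
      exact Ideal.mul_mem_right _ _ (Ideal.subset_span rfl)
    rw [hmk]
    apply Submodule.sum_mem
    intro i _
    have hdeg : (P i %ₘ T).natDegree < d + 1 :=
      Nat.lt_succ_of_le (natDegree_modByMonic_le (P i) hT)
    rw [aeval_eq_sum_range' hdeg, Finset.sum_mul, map_sum]
    apply Submodule.sum_mem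
    intro j hj
    have hj' : j < d + 1 := Finset.mem_range.1 hj
    have : Ideal.Quotient.mk I ((P i %ₘ T).coeff j • t ^ j * e i) =
        (P i %ₘ T).coeff j • gens (i, ⟨j, hj'⟩) := by
      show _ = (P i %ₘ T).coeff j • Ideal.Quotient.mk I (t ^ j * e i)
      rw [smul_mul_assoc]
      rfl
    rw [this]
    exact Submodule.smul_mem _ _ (Submodule.subset_span ⟨(i, ⟨j, hj'⟩), rfl⟩)
  rw [Module.finite_def, htop]
  exact Submodule.fg_span (Set.finite_range gens)

end Fermat.Agent.T1B.NodeNF37.SSPoly
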