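/-
T1B / TORIC50 MODEL FACTS (helper37): the `Toric98.ToricBase` instance on the NODAL two-chart model
`ES.N34.NodalCore13.NodalTwoChartModel` (argument `H` of `Toric50.Master.towerInput_of_base`).

Input (`Hyp`): the nodal model `N`, `R` a DVR with uniformiser `π` (`dvrR` form), a node exists on
chart `0` (`Meet`), the two components are incomparable on chart `0` (witnesses), and all nodes lie
in the overlap `U01` (`t ∉ 𝔪` on chart `0`, `t⁻¹ ∉ 𝔪` on chart `1`, in the literal shape of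
`CuspOff30.nodes_in_U01_*`).  NO rationality of the nodes is needed.

Output: `ssPoly H : R[X]`, MONIC, `S(0)` a unit, `S(t) ∈ P0 ⊔ Q0`, `S(t) ∉ P0`, `S(t) ∉ Q0`
(`SSPoly.exists_poly`), and
`toricBase H D hρ0 hρ1 : Toric98.ToricBase D π` for every Čech datum `D` on `(B0, B1, B0 ⊔ B1)` whose
restriction maps are the inclusions (`nodalCechData`, `cechDataOf`, ...), with
`t0 = t`, `t1 = t⁻¹`, `P = (B0 ⊔ B1) ∩ π O1`, `Q = (B0 ⊔ B1) ∩ π O2`,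
`s0 = S(t)`, `s1 = t⁻ᵈ S(t) = S.reverse(t⁻¹)`, `s01 = S(t)`; all `meet` exponents are `1`.
-/
import Mathlib
import Fermat.Agent.T1B.NodeNF37.SSPoly
import Fermat.Agent.T1B.NodalCoh30.Nodal
import Fermat.Agent.T1B.NodalFacts23.Good
import Fermat.Agent.T1B.Toric98.GlueModel

set_option autoImplicit false
set_option linter.unusedSectionVars false
set_option linter.style.haveILetI false

universe u

namespace Fermat.Agent.T1B.NodeNF37.ToricBaseInst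

open Polynomial Fermat.Agent.ES.N34.NodalCore13 Fermat.Agent.T1.CechFormal70
open Fermat.Agent.T1.ModelCoh30 (ρ0 ρ1 isIntegralElem_eval₂_of_isIntegral_adjoin)
open Fermat.Agent.T1B.NodalFacts23 (vertIdeal mem_vertIdeal algebraMap_mem_vertIdeal
  vertIdeal_isPrime)
open Fermat.Agent.T1B

variable {R F : Type u} [CommRing R] [Field F] [Algebra R F]
variable {π : R} {t : F} {B0 B1 : Subalgebra R F} {O1 O2 : ValuationSubring F}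

/-- The hypotheses on the nodal model used by the toric gluing (all `W`-level). -/
structure Hyp (π : R) (t : F) (B0 B1 : Subalgebra R F) (O1 O2 : ValuationSubring F) : Prop where
  model : NodalTwoChartModel R F π t B0 B1 O1 O2
  dvrR : ∀ r : R, r ≠ 0 → ∃ (k : ℕ) (v : Rˣ), r = π ^ k * v
  /-- a node exists on chart `0` -/
  meet : NodalCoh30.Meet π B0 O1 O2
  /-- the components are incomparable on chart `0` -/
  w21 : ∃ c ∈ B0, (∃ o ∈ O2, c = algebraMap R F π * o) ∧ ¬ ∃ o ∈ O1, c = algebraMap R F π * o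
  w12 : ∃ c ∈ B0, (∃ o ∈ O1, c = algebraMap R F π * o) ∧ ¬ ∃ o ∈ O2, c = algebraMap R F π * o
  /-- all nodes lie in `U01` -/
  u0 : ∀ x1 : Ideal ↥B0, x1.IsMaximal → ¬ OffBranch π B0 O1 x1 → ¬ OffBranch π B0 O2 x1 →
    (⟨t, model.t_mem⟩ : ↥B0) ∉ x1
  u1 : ∀ x1 : Ideal ↥B1, x1.IsMaximal → ¬ OffBranch π B1 O1 x1 → ¬ OffBranch π B1 O2 x1 →
    (⟨t⁻¹, model.tinv_mem⟩ : ↥B1) ∉ x1

namespace Hyp


/-! ### the base ring -/

theorem pi_not_isUnit (H : Hyp π t B0 B1 O1 O2) : ¬ IsUnit π := (NodalCoh30.valDatum1 H.model).pi_not_isUnit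

theorem isUnit_of_notMem (H : Hyp π t B0 B1 O1 O2) {r : R} (hr : r ∉ Ideal.span {π}) : IsUnit r := by
  have hr0 : r ≠ 0 := fun h => hr (h ▸ zero_mem _)
  obtain ⟨k, v, rfl⟩ := H.dvrR r hr0
  cases k with
  | zero => simp
  | succ k => exact absurd (Ideal.mem_span_singleton'.2 ⟨π ^ k * v, by ring⟩) hr

theorem isMaximal_span (H : Hyp π t B0 B1 O1 O2) : (Ideal.span {π}).IsMaximal := by
  rw [Ideal.isMaximal_iff]
  refine ⟨fun h => ?_, fun J x _ hx hxJ => ?_⟩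
  · obtain ⟨a, ha⟩ := Ideal.mem_span_singleton'.1 h
    exact H.pi_not_isUnit (IsUnit.of_mul_eq_one a (by rw [mul_comm]; exact ha))
  · obtain ⟨v, rfl⟩ := H.isUnit_of_notMem hx
    have : (1 : R) = ((v⁻¹ : Rˣ) : R) * (v : R) := (Units.inv_mul v).symm
    rw [this]
    exact J.mul_mem_left _ hxJ

/-! ### the coordinates and the vertical primes -/

/-- `t` as an element of chart `0`. -/
def t0 (H : Hyp π t B0 B1 O1 O2) : ↥B0 := ⟨t, H.model.t_mem⟩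

/-- `t⁻¹` as an element of chart `1`. -/
def t1 (H : Hyp π t B0 B1 O1 O2) : ↥B1 := ⟨t⁻¹, H.model.tinv_mem⟩

theorem le01_1 (H : Hyp π t B0 B1 O1 O2) : ∀ x ∈ B0 ⊔ B1, x ∈ O1 :=
  NodalCoh30.sup_le_of_le (NodalCoh30.valDatum1 H.model).algebraMap_mem H.model.le_O1_0
    H.model.le_O1_1

theorem le01_2 (H : Hyp π t B0 B1 O1 O2) : ∀ x ∈ B0 ⊔ B1, x ∈ O2 :=
  NodalCoh30.sup_le_of_le (NodalCoh30.valDatum2 H.model).algebraMap_mem H.model.le_O2_0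
    H.model.le_O2_1

/-- `B0 ∩ π O1`. -/
def P0 (H : Hyp π t B0 B1 O1 O2) : Ideal ↥B0 := vertIdeal π B0 O1 H.model.le_O1_0
/-- `B0 ∩ π O2`. -/
def Q0 (H : Hyp π t B0 B1 O1 O2) : Ideal ↥B0 := vertIdeal π B0 O2 H.model.le_O2_0
/-- `B1 ∩ π O1`. -/
def P1 (H : Hyp π t B0 B1 O1 O2) : Ideal ↥B1 := vertIdeal π B1 O1 H.model.le_O1_1
/-- `B1 ∩ π O2`. -/
def Q1 (H : Hyp π t B0 B1 O1 O2) : Ideal ↥B1 := vertIdeal π B1 O2 H.model.le_O2_1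
/-- `(B0 ⊔ B1) ∩ π O1`. -/
def P (H : Hyp π t B0 B1 O1 O2) : Ideal ↥(B0 ⊔ B1) := vertIdeal π (B0 ⊔ B1) O1 H.le01_1
/-- `(B0 ⊔ B1) ∩ π O2`. -/
def Q (H : Hyp π t B0 B1 O1 O2) : Ideal ↥(B0 ⊔ B1) := vertIdeal π (B0 ⊔ B1) O2 H.le01_2

instance (H : Hyp π t B0 B1 O1 O2) : H.P0.IsPrime :=
  vertIdeal_isPrime _ H.model.pi_ne H.model.pi_nonunit1 H.model.unif1
instance (H : Hyp π t B0 B1 O1 O2) : H.Q0.IsPrime :=
  vertIdeal_isPrime _ H.model.pi_ne H.model.pi_nonunit2 H.model.unif2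
instance (H : Hyp π t B0 B1 O1 O2) : H.P.IsPrime :=
  vertIdeal_isPrime _ H.model.pi_ne H.model.pi_nonunit1 H.model.unif1
instance (H : Hyp π t B0 B1 O1 O2) : H.Q.IsPrime :=
  vertIdeal_isPrime _ H.model.pi_ne H.model.pi_nonunit2 H.model.unif2

theorem comap_P_ρ0 (H : Hyp π t B0 B1 O1 O2) : H.P.comap (ρ0 B0 B1 : ↥B0 →+* ↥(B0 ⊔ B1)) = H.P0 := by
  ext x; exact Iff.rfl
theorem comap_Q_ρ0 (H : Hyp π t B0 B1 O1 O2) : H.Q.comap (ρ0 B0 B1 : ↥B0 →+* ↥(B0 ⊔ B1)) = H.Q0 := by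
  ext x; exact Iff.rfl
theorem comap_P_ρ1 (H : Hyp π t B0 B1 O1 O2) : H.P.comap (ρ1 B0 B1 : ↥B1 →+* ↥(B0 ⊔ B1)) = H.P1 := by
  ext x; exact Iff.rfl
theorem comap_Q_ρ1 (H : Hyp π t B0 B1 O1 O2) : H.Q.comap (ρ1 B0 B1 : ↥B1 →+* ↥(B0 ⊔ B1)) = H.Q1 := by
  ext x; exact Iff.rfl

theorem coe_aeval_t0 (H : Hyp π t B0 B1 O1 O2) (p : R[X]) : ((aeval H.t0 p : ↥B0) : F) = aeval t p :=
  aeval_subalgebra_coe p B0 H.t0

theorem coe_aeval_t1 (H : Hyp π t B0 B1 O1 O2) (p : R[X]) : ((aeval H.t1 p : ↥B1) : F) = aeval t⁻¹ p :=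
  aeval_subalgebra_coe p B1 H.t1

/-! ### the supersingular polynomial -/

theorem isIntegralElem0 (H : Hyp π t B0 B1 O1 O2) (x : ↥B0) :
    (eval₂RingHom (algebraMap R ↥B0) H.t0).IsIntegralElem x := by
  have h1 := isIntegralElem_eval₂_of_isIntegral_adjoin (H.model.int0 x x.2)
  have hcomp : (B0.val : ↥B0 →+* F).comp (eval₂RingHom (algebraMap R ↥B0) H.t0) =
      eval₂RingHom (algebraMap R F) t := by
    apply Polynomial.ringHom_ext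
    · intro a
      simp
    · simp [t0]
  apply RingHom.IsIntegralElem.of_map (g := (B0.val : ↥B0 →+* F)) Subtype.val_injective
  rw [hcomp]
  exact h1

theorem sup_ne_top (H : Hyp π t B0 B1 O1 O2) : H.P0 ⊔ H.Q0 ≠ ⊤ := by
  intro htop
  have h1 : (1 : ↥B0) ∈ H.P0 ⊔ H.Q0 := by rw [htop]; exact Submodule.mem_top
  obtain ⟨p, hp, q, hq, hpq⟩ := Submodule.mem_sup.1 h1
  exact H.meet p p.2 q q.2 hp hq (congrArg (fun b : ↥B0 => (b : F)) hpq)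

theorem exists_ssPoly (H : Hyp π t B0 B1 O1 O2) : ∃ S : R[X], S.Monic ∧ IsUnit (S.coeff 0) ∧ aeval H.t0 S ∈ H.P0 ⊔ H.Q0 ∧
    aeval H.t0 S ∉ H.P0 ∧ aeval H.t0 S ∉ H.Q0 ∧
    ∀ S' : R[X], S'.map (Ideal.Quotient.mk (Ideal.span {π})) ≠ 0 →
      aeval H.t0 S' ∉ H.P0 ∧ aeval H.t0 S' ∉ H.Q0 := by
  apply SSPoly.exists_poly π H.t0 H.P0 H.Q0 H.isMaximal_span (fun r hr => H.isUnit_of_notMem hr)
    algebraMap_mem_vertIdeal algebraMap_mem_vertIdeal H.isIntegralElem0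
  · obtain ⟨c, hc, h2, h1⟩ := H.w21
    exact ⟨⟨c, hc⟩, h2, h1⟩
  · obtain ⟨c, hc, h1, h2⟩ := H.w12
    exact ⟨⟨c, hc⟩, h1, h2⟩
  · exact H.sup_ne_top
  · intro m hm hP hQ
    exact H.u0 m hm (fun ⟨_, hem, hc⟩ => hem (hP hc)) (fun ⟨_, hem, hc⟩ => hem (hQ hc))

/-- **The supersingular polynomial** of the nodal model. -/
noncomputable def ssPoly (H : Hyp π t B0 B1 O1 O2) : R[X] := Classical.choose H.exists_ssPoly

theorem ssPoly_monic (H : Hyp π t B0 B1 O1 O2) : H.ssPoly.Monic := (Classical.choose_spec H.exists_ssPoly).1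
theorem isUnit_ssPoly_coeff_zero (H : Hyp π t B0 B1 O1 O2) : IsUnit (H.ssPoly.coeff 0) :=
  (Classical.choose_spec H.exists_ssPoly).2.1
theorem ssPoly_mem (H : Hyp π t B0 B1 O1 O2) : aeval H.t0 H.ssPoly ∈ H.P0 ⊔ H.Q0 :=
  (Classical.choose_spec H.exists_ssPoly).2.2.1
theorem ssPoly_notMem_P0 (H : Hyp π t B0 B1 O1 O2) : aeval H.t0 H.ssPoly ∉ H.P0 :=
  (Classical.choose_spec H.exists_ssPoly).2.2.2.1
theorem ssPoly_notMem_Q0 (H : Hyp π t B0 B1 O1 O2) : aeval H.t0 H.ssPoly ∉ H.Q0 :=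
  (Classical.choose_spec H.exists_ssPoly).2.2.2.2.1
/-- `t` is transcendental over `R/π` on both components. -/
theorem aeval_notMem_of_map_ne_zero (H : Hyp π t B0 B1 O1 O2) {S' : R[X]}
    (h : S'.map (Ideal.Quotient.mk (Ideal.span {π})) ≠ 0) :
    aeval H.t0 S' ∉ H.P0 ∧ aeval H.t0 S' ∉ H.Q0 :=
  (Classical.choose_spec H.exists_ssPoly).2.2.2.2.2 S' h

/-- `s0 = S(t)` on chart `0`. -/
noncomputable def s0 (H : Hyp π t B0 B1 O1 O2) : ↥B0 := aeval H.t0 H.ssPoly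
/-- `s1 = S.reverse(t⁻¹) = t⁻ᵈ S(t)` on chart `1`. -/
noncomputable def s1 (H : Hyp π t B0 B1 O1 O2) : ↥B1 := aeval H.t1 H.ssPoly.reverse
/-- `s01 = S(t)` on the overlap. -/
noncomputable def s01 (H : Hyp π t B0 B1 O1 O2) : ↥(B0 ⊔ B1) := ρ0 B0 B1 H.s0

theorem coe_s0 (H : Hyp π t B0 B1 O1 O2) : ((H.s0 : ↥B0) : F) = aeval t H.ssPoly := H.coe_aeval_t0 _

theorem coe_s01 (H : Hyp π t B0 B1 O1 O2) : ((H.s01 : ↥(B0 ⊔ B1)) : F) = aeval t H.ssPoly := H.coe_aeval_t0 _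

theorem coe_s1 (H : Hyp π t B0 B1 O1 O2) : ((H.s1 : ↥B1) : F) = t⁻¹ ^ H.ssPoly.natDegree * aeval t H.ssPoly := by
  rw [s1, H.coe_aeval_t1]
  letI : Invertible t := invertibleOfNonzero H.model.t_ne
  have h := eval₂_reverse_mul_pow (algebraMap R F) t H.ssPoly
  rw [invOf_eq_inv] at h
  rw [aeval_def, aeval_def, ← h, inv_pow]
  field_simp [H.model.t_ne]

/-! ### `V(s_j) ⊂ U01` -/

theorem com0 (H : Hyp π t B0 B1 O1 O2) : ∃ a b : ↥B0, a * H.s0 + b * H.t0 = 1 := by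
  obtain ⟨u, hu⟩ := H.isUnit_ssPoly_coeff_zero
  have hdec : H.s0 = aeval H.t0 (divX H.ssPoly) * H.t0 + algebraMap R ↥B0 (u : R) := by
    conv_lhs => rw [s0, ← divX_mul_X_add H.ssPoly]
    rw [map_add, map_mul, aeval_X, aeval_C, hu]
  refine ⟨algebraMap R ↥B0 ((u⁻¹ : Rˣ) : R),
    -(algebraMap R ↥B0 ((u⁻¹ : Rˣ) : R) * aeval H.t0 (divX H.ssPoly)), ?_⟩
  have h1 : algebraMap R ↥B0 ((u⁻¹ : Rˣ) : R) * algebraMap R ↥B0 (u : R) = 1 := by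
    rw [← map_mul, Units.inv_mul, map_one]
  rw [hdec]
  linear_combination h1

theorem com1 (H : Hyp π t B0 B1 O1 O2) : ∃ a b : ↥B1, a * H.s1 + b * H.t1 = 1 := by
  have hdec : H.s1 = aeval H.t1 (divX H.ssPoly.reverse) * H.t1 + 1 := by
    conv_lhs => rw [s1, ← divX_mul_X_add H.ssPoly.reverse]
    rw [map_add, map_mul, aeval_X, aeval_C, coeff_zero_reverse, H.ssPoly_monic.leadingCoeff,
      map_one]
  refine ⟨1, -aeval H.t1 (divX H.ssPoly.reverse), ?_⟩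
  rw [hdec]
  ring

/-! ### the components meet only inside `V(s_j)` -/

theorem s01_mem (H : Hyp π t B0 B1 O1 O2) : H.s01 ∈ H.P ⊔ H.Q := by
  obtain ⟨p, hp, q, hq, hpq⟩ := Submodule.mem_sup.1 H.ssPoly_mem
  have : H.s01 = ρ0 B0 B1 p + ρ0 B0 B1 q := by
    rw [s01, s0, ← hpq, map_add]
  rw [this]
  exact Ideal.add_mem _ (Ideal.mem_sup_left hp) (Ideal.mem_sup_right hq)

theorem sup_span_t1 (H : Hyp π t B0 B1 O1 O2) : (H.P1 ⊔ H.Q1) ⊔ Ideal.span {H.t1} = ⊤ :=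
  SSPoly.sup_span_eq_top_of_forall_maximal fun m hm hle =>
    H.u1 m hm (fun ⟨_, hem, hc⟩ => hem (hle (Ideal.mem_sup_left hc)))
      (fun ⟨_, hem, hc⟩ => hem (hle (Ideal.mem_sup_right hc)))

theorem s1_mem (H : Hyp π t B0 B1 O1 O2) : H.s1 ∈ H.P1 ⊔ H.Q1 := by
  obtain ⟨p, hp, q, hq, hpq⟩ := Submodule.mem_sup.1 H.ssPoly_mem
  obtain ⟨k1, hk1⟩ := H.model.ov1 p p.2
  obtain ⟨k2, hk2⟩ := H.model.ov1 q q.2
  set d := H.ssPoly.natDegree with hd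
  have hti : ∀ n : ℕ, t⁻¹ ^ n ∈ B1 := fun n => B1.pow_mem H.model.tinv_mem n
  have hp1 : t⁻¹ ^ (k1 + k2 + d) * (p : F) ∈ B1 := by
    have : t⁻¹ ^ (k1 + k2 + d) * (p : F) = t⁻¹ ^ (k2 + d) * (t⁻¹ ^ k1 * (p : F)) := by
      rw [← mul_assoc, ← pow_add]; congr 2; omega
    rw [this]
    exact B1.mul_mem (hti _) hk1
  have hq1 : t⁻¹ ^ (k1 + k2 + d) * (q : F) ∈ B1 := by
    have : t⁻¹ ^ (k1 + k2 + d) * (q : F) = t⁻¹ ^ (k1 + d) * (t⁻¹ ^ k2 * (q : F)) := by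
      rw [← mul_assoc, ← pow_add]; congr 2; omega
    rw [this]
    exact B1.mul_mem (hti _) hk2
  have hpP : (⟨_, hp1⟩ : ↥B1) ∈ H.P1 := by
    obtain ⟨c, hc, hpc⟩ := hp
    exact ⟨t⁻¹ ^ (k1 + k2 + d) * c, O1.mul_mem _ _ (O1.pow_mem H.model.tinv_mem_O1 _) hc, by
      show t⁻¹ ^ (k1 + k2 + d) * (p : F) = _
      rw [hpc]; ring⟩
  have hqQ : (⟨_, hq1⟩ : ↥B1) ∈ H.Q1 := by
    obtain ⟨c, hc, hqc⟩ := hq
    exact ⟨t⁻¹ ^ (k1 + k2 + d) * c, O2.mul_mem _ _ (O2.pow_mem H.model.tinv_mem_O2 _) hc, by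
      show t⁻¹ ^ (k1 + k2 + d) * (q : F) = _
      rw [hqc]; ring⟩
  have hsum : H.t1 ^ (k1 + k2) * H.s1 = (⟨_, hp1⟩ : ↥B1) + ⟨_, hq1⟩ := by
    apply Subtype.ext
    have hpqF : (p : F) + (q : F) = aeval t H.ssPoly := by
      rw [← H.coe_aeval_t0, ← hpq]; rfl
    show t⁻¹ ^ (k1 + k2) * ((H.s1 : ↥B1) : F) =
      t⁻¹ ^ (k1 + k2 + d) * (p : F) + t⁻¹ ^ (k1 + k2 + d) * (q : F)
    rw [H.coe_s1, ← mul_add, hpqF, ← mul_assoc, ← pow_add]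
  apply SSPoly.mem_of_pow_mul_mem_of_sup_eq_top H.sup_span_t1 (k1 + k2)
  rw [hsum]
  exact Ideal.add_mem _ (Ideal.mem_sup_left hpP) (Ideal.mem_sup_right hqQ)

/-! ### reducedness -/

theorem red0 (H : Hyp π t B0 B1 O1 O2) (b : ↥B0) (h1 : b ∈ H.P0) (h2 : b ∈ H.Q0) :
    ∃ b' : ↥B0, b = π • b' := by
  obtain ⟨c, hc1, hbc⟩ := h1
  obtain ⟨d, hd2, hbd⟩ := h2
  have hcd : c = d := mul_left_cancel₀ H.model.pi_ne (hbc.symm.trans hbd)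
  subst hcd
  refine ⟨⟨c, H.model.sat0 b b.2 c hc1 hd2 hbc⟩, Subtype.ext ?_⟩
  rw [Subalgebra.coe_smul, Algebra.smul_def]
  exact hbc

theorem red1 (H : Hyp π t B0 B1 O1 O2) (b : ↥B1) (h1 : b ∈ H.P1) (h2 : b ∈ H.Q1) :
    ∃ b' : ↥B1, b = π • b' := by
  obtain ⟨c, hc1, hbc⟩ := h1
  obtain ⟨d, hd2, hbd⟩ := h2
  have hcd : c = d := mul_left_cancel₀ H.model.pi_ne (hbc.symm.trans hbd)
  subst hcd
  refine ⟨⟨c, H.model.sat1 b b.2 c hc1 hd2 hbc⟩, Subtype.ext ?_⟩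
  rw [Subalgebra.coe_smul, Algebra.smul_def]
  exact hbc

theorem red01 (H : Hyp π t B0 B1 O1 O2) (b : ↥(B0 ⊔ B1)) (h1 : b ∈ H.P) (h2 : b ∈ H.Q) :
    ∃ b' : ↥(B0 ⊔ B1), b = π • b' := by
  obtain ⟨c, hc1, hbc⟩ := h1
  obtain ⟨d, hd2, hbd⟩ := h2
  have hcd : c = d := mul_left_cancel₀ H.model.pi_ne (hbc.symm.trans hbd)
  subst hcd
  refine ⟨⟨c, NodalFacts23.sat01 H.model b b.2 c hc1 hd2 hbc⟩, Subtype.ext ?_⟩
  rw [Subalgebra.coe_smul, Algebra.smul_def]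
  exact hbc

/-! ### `s01` is regular modulo `π` -/

theorem s01_notMem_P (H : Hyp π t B0 B1 O1 O2) : H.s01 ∉ H.P := fun h => H.ssPoly_notMem_P0 h

theorem s01_notMem_Q (H : Hyp π t B0 B1 O1 O2) : H.s01 ∉ H.Q := fun h => H.ssPoly_notMem_Q0 h

theorem reg01 (H : Hyp π t B0 B1 O1 O2) (x : ↥(B0 ⊔ B1))
    (hx : H.s01 * x ∈ Ideal.span {algebraMap R ↥(B0 ⊔ B1) π}) :
    x ∈ Ideal.span {algebraMap R ↥(B0 ⊔ B1) π} := by
  obtain ⟨a, ha⟩ := Ideal.mem_span_singleton'.1 hx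
  have hπP : algebraMap R ↥(B0 ⊔ B1) π ∈ H.P := algebraMap_mem_vertIdeal
  have hπQ : algebraMap R ↥(B0 ⊔ B1) π ∈ H.Q := algebraMap_mem_vertIdeal
  have hxP : x ∈ H.P := by
    have : H.s01 * x ∈ H.P := by rw [← ha]; exact Ideal.mul_mem_left _ _ hπP
    exact (Ideal.IsPrime.mem_or_mem inferInstance this).resolve_left H.s01_notMem_P
  have hxQ : x ∈ H.Q := by
    have : H.s01 * x ∈ H.Q := by rw [← ha]; exact Ideal.mul_mem_left _ _ hπQ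
    exact (Ideal.IsPrime.mem_or_mem inferInstance this).resolve_left H.s01_notMem_Q
  obtain ⟨b', hb'⟩ := H.red01 x hxP hxQ
  rw [Ideal.mem_span_singleton']
  exact ⟨b', by rw [hb', Algebra.smul_def, mul_comm]⟩

/-! ### finiteness of `V(s_j)` -/

theorem finite0 (H : Hyp π t B0 B1 O1 O2) : Module.Finite R (↥B0 ⧸ Ideal.span {H.s0}) := by
  obtain ⟨r, e, he, hfin⟩ := H.model.fin0
  refine SSPoly.finite_quotient_span_aeval H.t0 (fun i => (⟨e i, he i⟩ : ↥B0)) ?_ H.ssPoly_monic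
  intro x
  obtain ⟨Pf, hPf⟩ := hfin x x.2
  refine ⟨Pf, Subtype.ext ?_⟩
  rw [hPf]
  have : ((∑ i, aeval H.t0 (Pf i) * (⟨e i, he i⟩ : ↥B0) : ↥B0) : F) =
      B0.val (∑ i, aeval H.t0 (Pf i) * (⟨e i, he i⟩ : ↥B0)) := rfl
  rw [this, map_sum]
  refine Finset.sum_congr rfl fun i _ => ?_
  rw [map_mul, ← aeval_algHom_apply]
  rfl

/-- `t` is a unit modulo `s0`, in the overlap. -/
theorem exists_sub_mem_span (H : Hyp π t B0 B1 O1 O2) (y : ↥(B0 ⊔ B1)) :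
    ∃ x : ↥B0, ρ0 B0 B1 x - y ∈ Ideal.span {H.s01} := by
  obtain ⟨a, b, hab⟩ := H.com0
  obtain ⟨k, hk⟩ := (NodalFacts23.mem_sup_iff0 H.model).1 y.2
  refine ⟨b ^ k * ⟨t ^ k * (y : F), hk⟩, ?_⟩
  have hdvd : H.s0 ∣ (b * H.t0) ^ k - 1 := by
    have h1 : b * H.t0 - 1 ∣ (b * H.t0) ^ k - 1 ^ k := sub_dvd_pow_sub_pow _ _ k
    rw [one_pow] at h1
    refine dvd_trans ⟨-a, ?_⟩ h1
    linear_combination hab
  obtain ⟨z, hz⟩ := hdvd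
  rw [Ideal.mem_span_singleton']
  refine ⟨ρ0 B0 B1 z * y, ?_⟩
  have h2 : ρ0 B0 B1 (b ^ k * ⟨t ^ k * (y : F), hk⟩) = ρ0 B0 B1 ((b * H.t0) ^ k) * y := by
    apply Subtype.ext
    show ((b : F)) ^ k * (t ^ k * (y : F)) = ((b : F) * t) ^ k * (y : F)
    ring
  rw [h2, s01]
  have h3 : ρ0 B0 B1 ((b * H.t0) ^ k) = ρ0 B0 B1 H.s0 * ρ0 B0 B1 z + 1 := by
    rw [← map_mul, ← hz]
    simp
  rw [h3]
  ring

theorem finite01 (H : Hyp π t B0 B1 O1 O2) :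
    Module.Finite R (↥(B0 ⊔ B1) ⧸ Ideal.span {H.s01}) := by
  haveI := H.finite0
  have hle : Ideal.span {H.s0} ≤ (Ideal.span {H.s01}).comap (ρ0 B0 B1) := by
    rw [Ideal.span_singleton_le_iff_mem, Ideal.mem_comap]
    exact Ideal.subset_span rfl
  let L : (↥B0 ⧸ Ideal.span {H.s0}) →ₐ[R] (↥(B0 ⊔ B1) ⧸ Ideal.span {H.s01}) :=
    Ideal.quotientMapₐ (Ideal.span {H.s01}) (ρ0 B0 B1) hle
  refine Module.Finite.of_surjective L.toLinearMap ?_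
  intro y
  obtain ⟨y, rfl⟩ := Ideal.Quotient.mk_surjective y
  obtain ⟨x, hx⟩ := H.exists_sub_mem_span y
  refine ⟨Ideal.Quotient.mk _ x, ?_⟩
  show Ideal.Quotient.mk _ (ρ0 B0 B1 x) = Ideal.Quotient.mk _ y
  rw [Ideal.Quotient.eq]
  exact hx

theorem ρ1_s1 (H : Hyp π t B0 B1 O1 O2) :
    ((ρ1 B0 B1 H.s1 : ↥(B0 ⊔ B1)) : F) =
      t⁻¹ ^ H.ssPoly.natDegree * ((H.s01 : ↥(B0 ⊔ B1)) : F) := by
  rw [H.coe_s01]
  exact H.coe_s1

theorem finite1 (H : Hyp π t B0 B1 O1 O2) : Module.Finite R (↥B1 ⧸ Ideal.span {H.s1}) := by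
  haveI := H.finite01
  haveI : IsNoetherianRing R := H.model.noethR
  haveI : IsNoetherian R (↥(B0 ⊔ B1) ⧸ Ideal.span {H.s01}) :=
    isNoetherian_of_isNoetherianRing_of_finite R _
  set d := H.ssPoly.natDegree with hd
  have hti01 : ∀ n : ℕ, t⁻¹ ^ n ∈ B0 ⊔ B1 := fun n =>
    (B0 ⊔ B1).pow_mem ((le_sup_right : B1 ≤ B0 ⊔ B1) H.model.tinv_mem) n
  have hle : Ideal.span {H.s1} ≤ (Ideal.span {H.s01}).comap (ρ1 B0 B1) := by
    rw [Ideal.span_singleton_le_iff_mem, Ideal.mem_comap, Ideal.mem_span_singleton']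
    exact ⟨⟨t⁻¹ ^ d, hti01 d⟩, Subtype.ext (H.ρ1_s1).symm⟩
  let L : (↥B1 ⧸ Ideal.span {H.s1}) →ₐ[R] (↥(B0 ⊔ B1) ⧸ Ideal.span {H.s01}) :=
    Ideal.quotientMapₐ (Ideal.span {H.s01}) (ρ1 B0 B1) hle
  refine Module.Finite.of_injective L.toLinearMap ?_
  rw [← LinearMap.ker_eq_bot, LinearMap.ker_eq_bot']
  intro x hx
  obtain ⟨x, rfl⟩ := Ideal.Quotient.mk_surjective x
  have hx' : Ideal.Quotient.mk (Ideal.span {H.s01}) (ρ1 B0 B1 x) = 0 := hx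
  rw [Ideal.Quotient.eq_zero_iff_mem, Ideal.mem_span_singleton'] at hx'
  obtain ⟨y, hy⟩ := hx'
  obtain ⟨k, hk⟩ := (NodalFacts23.mem_sup_iff1 H.model).1 y.2
  rw [Ideal.Quotient.eq_zero_iff_mem]
  have hunit : Ideal.span {H.s1} ⊔ Ideal.span {H.t1} = ⊤ := by
    obtain ⟨a, b, hab⟩ := H.com1
    rw [Ideal.eq_top_iff_one, ← hab]
    exact Ideal.add_mem _ (Ideal.mem_sup_left (Ideal.mul_mem_left _ _ (Ideal.subset_span rfl)))
      (Ideal.mem_sup_right (Ideal.mul_mem_left _ _ (Ideal.subset_span rfl)))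
  apply SSPoly.mem_of_pow_mul_mem_of_sup_eq_top hunit (k + d)
  rw [Ideal.mem_span_singleton']
  refine ⟨⟨t⁻¹ ^ k * (y : F), hk⟩, Subtype.ext ?_⟩
  have hyF : (x : F) = (y : F) * aeval t H.ssPoly := by
    have := congrArg (fun b : ↥(B0 ⊔ B1) => (b : F)) hy
    simp only [Subalgebra.coe_mul] at this
    rw [H.coe_s01] at this
    exact this.symm
  show t⁻¹ ^ k * (y : F) * ((H.s1 : ↥B1) : F) = t⁻¹ ^ (k + d) * (x : F)
  rw [H.coe_s1, hyF, pow_add]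
  ring

/-! ### the `ToricBase` -/

theorem hs1 (H : Hyp π t B0 B1 O1 O2) : ∃ v : (↥(B0 ⊔ B1))ˣ, ρ1 B0 B1 H.s1 = v * H.s01 := by
  set d := H.ssPoly.natDegree with hd
  have hti01 : t⁻¹ ^ d ∈ B0 ⊔ B1 :=
    (B0 ⊔ B1).pow_mem ((le_sup_right : B1 ≤ B0 ⊔ B1) H.model.tinv_mem) d
  have ht01 : t ^ d ∈ B0 ⊔ B1 :=
    (B0 ⊔ B1).pow_mem ((le_sup_left : B0 ≤ B0 ⊔ B1) H.model.t_mem) d
  refine ⟨⟨⟨t⁻¹ ^ d, hti01⟩, ⟨t ^ d, ht01⟩, Subtype.ext ?_, Subtype.ext ?_⟩,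
    Subtype.ext H.ρ1_s1⟩
  · show t⁻¹ ^ d * t ^ d = 1
    rw [← mul_pow, inv_mul_cancel₀ H.model.t_ne, one_pow]
  · show t ^ d * t⁻¹ ^ d = 1
    rw [← mul_pow, mul_inv_cancel₀ H.model.t_ne, one_pow]

/-- **The `ToricBase` of the nodal two-chart model**, for any Čech datum on `(B0, B1, B0 ⊔ B1)`
whose restriction maps are the inclusions. -/
noncomputable def toricBase (H : Hyp π t B0 B1 O1 O2) {g : ℕ}
    (D : CechData R ↥B0 ↥B1 ↥(B0 ⊔ B1) g) (hρ0 : D.ρ0 = ρ0 B0 B1) (hρ1 : D.ρ1 = ρ1 B0 B1) :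
    Toric98.ToricBase D π where
  t0 := H.t0
  t1 := H.t1
  away0 := by rw [hρ0]; exact NodalFacts23.away0 H.model
  away1 := by rw [hρ1]; exact NodalFacts23.away1 H.model
  P := H.P
  Q := H.Q
  s0 := H.s0
  s1 := H.s1
  s01 := H.s01
  hs0 := by rw [hρ0]; rfl
  hs1 := by rw [hρ1]; exact H.hs1
  com0 := H.com0
  com1 := H.com1
  meet0 := ⟨1, by rw [pow_one, hρ0, H.comap_P_ρ0, H.comap_Q_ρ0]; exact H.ssPoly_mem⟩
  meet1 := ⟨1, by rw [pow_one, hρ1, H.comap_P_ρ1, H.comap_Q_ρ1]; exact H.s1_mem⟩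
  meet01 := ⟨1, by rw [pow_one]; exact H.s01_mem⟩
  red0 := fun b h1 h2 => by rw [hρ0] at h1 h2; exact H.red0 b h1 h2
  red1 := fun b h1 h2 => by rw [hρ1] at h1 h2; exact H.red1 b h1 h2
  red01 := H.red01
  fin0 := H.finite0
  fin1 := H.finite1
  fin01 := H.finite01
  reg01 := H.reg01

section Fields

variable (H : Hyp π t B0 B1 O1 O2) {g : ℕ} (D : CechData R ↥B0 ↥B1 ↥(B0 ⊔ B1) g)
  (hρ0 : D.ρ0 = ρ0 B0 B1) (hρ1 : D.ρ1 = ρ1 B0 B1)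

@[simp] theorem toricBase_t0 : (H.toricBase D hρ0 hρ1).t0 = H.t0 := rfl
@[simp] theorem toricBase_t1 : (H.toricBase D hρ0 hρ1).t1 = H.t1 := rfl
@[simp] theorem toricBase_P : (H.toricBase D hρ0 hρ1).P = H.P := rfl
@[simp] theorem toricBase_Q : (H.toricBase D hρ0 hρ1).Q = H.Q := rfl
@[simp] theorem toricBase_s0 : (H.toricBase D hρ0 hρ1).s0 = H.s0 := rfl
@[simp] theorem toricBase_s1 : (H.toricBase D hρ0 hρ1).s1 = H.s1 := rfl
@[simp] theorem toricBase_s01 : (H.toricBase D hρ0 hρ1).s01 = H.s01 := rfl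

theorem mem_P {x : ↥(B0 ⊔ B1)} : x ∈ H.P ↔ ∃ c ∈ O1, (x : F) = algebraMap R F π * c := Iff.rfl
theorem mem_Q {x : ↥(B0 ⊔ B1)} : x ∈ H.Q ↔ ∃ c ∈ O2, (x : F) = algebraMap R F π * c := Iff.rfl

end Fields

/-- The instance for helper30's `NodalCoh30.nodalCechData`. -/
noncomputable def toricBaseNodal (H : Hyp π t B0 B1 O1 O2)
    (hinj : Function.Injective (algebraMap R F)) (h0 : NodalCoh30.GenericH0 B0 B1)
    (hκ1 : Fermat.Agent.T1.ModelCoh30.ResAlgClosed π O1)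
    (hκ2 : Fermat.Agent.T1.ModelCoh30.ResAlgClosed π O2) :
    Toric98.ToricBase
      (NodalCoh30.nodalCechData H.model hinj H.dvrR h0 hκ1 hκ2 (Or.inl H.meet)) π :=
  H.toricBase _ rfl rfl

end Hyp

end Fermat.Agent.T1B.NodeNF37.ToricBaseInst
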