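/-
Programme T1B (row 38 / S33), brick F1a NODE-NF, abstract part (helper37).

**Node normal form from weak node coordinates.**  `A` = local ring of the normal nodal model at a point lying on
both components, `v₁ v₂` the two vertical valuations (`v_j π = 1`), `P_j = {v_j ≥ 1}`.  WEAK coordinates (what
`ES/N34/NodeCoords29` provides after localisation): `x ∉ P₁`, `y ∉ P₂`, `π ∣ x y`, `𝔪 = (π, x, y)`.
A VERTICAL TEST ELEMENT: `h ∈ A` dividing a power of `π` with `v₁ h = 0 < v₂ h` (e.g. `Δ(z)/Δ(pz)`, with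
`v₂ h = 12 e`).

THEOREM (`exists_nodeData`).  There are `x' ≡ x`, `y' ≡ y` modulo `π` and `1 ≤ K ≤ v₂ h` with
`x' y' = π ^ K · unit`, `𝔪 = (π, x', y')`, i.e. the STRONG normal form `NodeClassGroup.NodeData`.
(Then `NodeClassGroup.NodeData.dvd_sub` gives `K ∣ v₂ h`.)

Proof: if `x y = π ^ n b` with `b = α π + β x + γ y ∈ 𝔪` then
`(x - π ^ n γ)(y - π ^ n β) = π ^ (n+1) (α + π ^ (n-1) β γ)`; the process stops because `v₂ x' ≤ v₂ h` for every
admissible `x'`: otherwise `x' = h g` with `h, g ∈ 𝔪` (divisibility by a vertical element is detected by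
`v₁, v₂`, a consequence of saturation), impossible since `x'` generates `𝔪` modulo `P₁`.
-/
import Mathlib
import Fermat.Agent.T1.Peu37.NodeClassGroup

set_option autoImplicit false
set_option linter.unusedSectionVars false
set_option linter.unusedVariables false

namespace Fermat.Agent.T1B.NodeNF37.Abstract

open IsLocalRing Fermat.Agent.T1.Peu37.NodeClassGroup

/-- The valuation-theoretic frame at a point lying on two components of a reduced special fibre. -/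
structure Frame (A : Type*) [CommRing A] [IsLocalRing A] (v₁ v₂ : A → ℕ) (P₁ P₂ : Ideal A) (π : A) :
    Prop where
  v₁_mul : ∀ f g : A, f ≠ 0 → g ≠ 0 → v₁ (f * g) = v₁ f + v₁ g
  v₂_mul : ∀ f g : A, f ≠ 0 → g ≠ 0 → v₂ (f * g) = v₂ f + v₂ g
  v₁_pi : v₁ π = 1
  v₂_pi : v₂ π = 1
  pi_ne : π ≠ 0
  sat : ∀ f : A, f ≠ 0 → 1 ≤ v₁ f → 1 ≤ v₂ f → π ∣ f
  mem_P₁ : ∀ f : A, f ≠ 0 → (f ∈ P₁ ↔ 1 ≤ v₁ f)
  mem_P₂ : ∀ f : A, f ≠ 0 → (f ∈ P₂ ↔ 1 ≤ v₂ f)
  prime₁ : P₁.IsPrime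
  prime₂ : P₂.IsPrime

variable {A : Type*} [CommRing A] [IsDomain A] [IsLocalRing A]
variable {v₁ v₂ : A → ℕ} {P₁ P₂ : Ideal A} {π : A}

namespace Frame

theorem symm (Fr : Frame A v₁ v₂ P₁ P₂ π) : Frame A v₂ v₁ P₂ P₁ π where
  v₁_mul := Fr.v₂_mul
  v₂_mul := Fr.v₁_mul
  v₁_pi := Fr.v₂_pi
  v₂_pi := Fr.v₁_pi
  pi_ne := Fr.pi_ne
  sat := fun f hf h1 h2 => Fr.sat f hf h2 h1
  mem_P₁ := Fr.mem_P₂
  mem_P₂ := Fr.mem_P₁
  prime₁ := Fr.prime₂
  prime₂ := Fr.prime₁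

section Basic

variable (Fr : Frame A v₁ v₂ P₁ P₂ π)
include Fr

theorem v₁_one : v₁ (1 : A) = 0 := by
  have h := Fr.v₁_mul 1 1 one_ne_zero one_ne_zero
  rw [mul_one] at h
  omega

theorem v₁_pow {f : A} (hf : f ≠ 0) (n : ℕ) : v₁ (f ^ n) = n * v₁ f := by
  induction n with
  | zero => rw [pow_zero, Fr.v₁_one, zero_mul]
  | succ n ih =>
    rw [pow_succ, Fr.v₁_mul _ _ (pow_ne_zero n hf) hf, ih]
    ring

theorem pi_mem_P₁ : π ∈ P₁ := (Fr.mem_P₁ π Fr.pi_ne).2 (by rw [Fr.v₁_pi])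

theorem v₁_eq_zero {f : A} (hf : f ∉ P₁) : v₁ f = 0 := by
  have hf0 : f ≠ 0 := fun h => hf (h ▸ P₁.zero_mem)
  have := (Fr.mem_P₁ f hf0).not.1 hf
  omega

/-- Iterated saturation. -/
theorem pow_dvd_of_le (n : ℕ) : ∀ f : A, f ≠ 0 → n ≤ v₁ f → n ≤ v₂ f → π ^ n ∣ f := by
  induction n with
  | zero => intro f _ _ _; rw [pow_zero]; exact one_dvd f
  | succ n ih =>
    intro f hf h1 h2
    obtain ⟨g, rfl⟩ := Fr.sat f hf (by omega) (by omega)
    have hg : g ≠ 0 := right_ne_zero_of_mul hf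
    have e1 := Fr.v₁_mul π g Fr.pi_ne hg
    have e2 := Fr.v₂_mul π g Fr.pi_ne hg
    rw [Fr.v₁_pi] at e1
    rw [Fr.v₂_pi] at e2
    obtain ⟨w, rfl⟩ := ih g hg (by omega) (by omega)
    exact ⟨w, by ring⟩

end Basic

/-- Divisibility by a vertical element is detected by the two valuations. -/
theorem dvd_of_vertical (Fr : Frame A v₁ v₂ P₁ P₂ π) {h h' : A} {m : ℕ} (hh : h * h' = π ^ m)
    {f : A} (hf : f ≠ 0) (h1 : v₁ h ≤ v₁ f) (h2 : v₂ h ≤ v₂ f) : h ∣ f := by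
  have hpm : π ^ m ≠ 0 := pow_ne_zero m Fr.pi_ne
  have hh0 : h ≠ 0 := by
    rintro rfl
    rw [zero_mul] at hh
    exact hpm hh.symm
  have hh'0 : h' ≠ 0 := by
    rintro rfl
    rw [mul_zero] at hh
    exact hpm hh.symm
  have e1 := Fr.v₁_mul h h' hh0 hh'0
  have e2 := Fr.v₂_mul h h' hh0 hh'0
  rw [hh, Fr.v₁_pow Fr.pi_ne, Fr.v₁_pi, mul_one] at e1
  rw [hh, Fr.symm.v₁_pow Fr.pi_ne, Fr.v₂_pi, mul_one] at e2
  have f1 := Fr.v₁_mul f h' hf hh'0
  have f2 := Fr.v₂_mul f h' hf hh'0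
  obtain ⟨t, ht⟩ := Fr.pow_dvd_of_le m (f * h') (mul_ne_zero hf hh'0) (by omega) (by omega)
  refine ⟨t, ?_⟩
  have : h' * f = h' * (h * t) := by
    calc h' * f = f * h' := mul_comm _ _
      _ = π ^ m * t := ht
      _ = h * h' * t := by rw [hh]
      _ = h' * (h * t) := by ring
  exact mul_left_cancel₀ hh'0 this

end Frame

/-- Weak node coordinates `x, y` with `x y = π ^ n · b`. -/
structure Coords (P₁ P₂ : Ideal A) (π x y : A) : Prop where
  max_eq : maximalIdeal A = Ideal.span {π, x, y}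
  x_not_mem : x ∉ P₁
  y_not_mem : y ∉ P₂

namespace Frame

section Main

variable (Fr : Frame A v₁ v₂ P₁ P₂ π)
include Fr

/-- **The bound.**  For admissible coordinates, `v₂ x ≤ v₂ h` for every vertical `h` with `v₁ h = 0 < v₂ h`. -/
theorem v₂_le_of_vertical {x y : A} (C : Coords P₁ P₂ π x y) (hy : y ∈ P₁)
    {h h' : A} {m : ℕ} (hh : h * h' = π ^ m) (h1 : h ∉ P₁) (h2 : 1 ≤ v₂ h) : v₂ x ≤ v₂ h := by
  by_contra hlt
  push Not at hlt
  have hx0 : x ≠ 0 := fun h0 => C.x_not_mem (h0 ▸ P₁.zero_mem)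
  have hpm : π ^ m ≠ 0 := pow_ne_zero m Fr.pi_ne
  have hh0 : h ≠ 0 := by
    rintro rfl
    rw [zero_mul] at hh
    exact hpm hh.symm
  obtain ⟨g, hg⟩ := Fr.dvd_of_vertical hh hx0 (by rw [Fr.v₁_eq_zero h1]; exact Nat.zero_le _) hlt.le
  have hg0 : g ≠ 0 := by
    rintro rfl
    rw [mul_zero] at hg
    exact hx0 hg
  have e2 := Fr.v₂_mul h g hh0 hg0
  rw [← hg] at e2
  have hP1top : P₁ ≠ ⊤ := Fr.prime₁.ne_top
  have hP2top : P₂ ≠ ⊤ := Fr.prime₂.ne_top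
  have hgm : g ∈ maximalIdeal A :=
    IsLocalRing.le_maximalIdeal hP2top ((Fr.mem_P₂ g hg0).2 (by omega))
  have hhm : h ∈ maximalIdeal A :=
    IsLocalRing.le_maximalIdeal hP2top ((Fr.mem_P₂ h hh0).2 h2)
  -- expand `h, g` in the generators
  rw [C.max_eq] at hgm hhm
  obtain ⟨a₁, z₁, hz₁, rfl⟩ := Ideal.mem_span_insert.1 hhm
  obtain ⟨b₁, z₁', hz₁', rfl⟩ := Ideal.mem_span_insert.1 hz₁
  obtain ⟨c₁, rfl⟩ := Ideal.mem_span_singleton.1 hz₁'
  obtain ⟨a₂, z₂, hz₂, rfl⟩ := Ideal.mem_span_insert.1 hgm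
  obtain ⟨b₂, z₂', hz₂', rfl⟩ := Ideal.mem_span_insert.1 hz₂
  obtain ⟨c₂, rfl⟩ := Ideal.mem_span_singleton.1 hz₂'
  have hpi := Fr.pi_mem_P₁
  -- `x (1 - b₁ b₂ x) ∈ P₁`
  have hmem : x * (1 - b₁ * b₂ * x) ∈ P₁ := by
    have : x * (1 - b₁ * b₂ * x) =
        π * (a₁ * (a₂ * π + (b₂ * x + y * c₂)) + (b₁ * x + y * c₁) * a₂)
        + y * (c₁ * (b₂ * x + y * c₂) + b₁ * x * c₂) := by
      have hx : x = (a₁ * π + (b₁ * x + y * c₁)) * (a₂ * π + (b₂ * x + y * c₂)) := hg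
      linear_combination (1 : A) * hx
    rw [this]
    exact P₁.add_mem (P₁.mul_mem_right _ hpi) (P₁.mul_mem_right _ hy)
  rcases Fr.prime₁.mem_or_mem hmem with hx | hx
  · exact C.x_not_mem hx
  · have hxm : x ∈ maximalIdeal A := by
      rw [C.max_eq]
      exact Ideal.subset_span (by simp)
    have h5 : 1 - b₁ * b₂ * x ∈ maximalIdeal A := IsLocalRing.le_maximalIdeal hP1top hx
    have h6 : b₁ * b₂ * x ∈ maximalIdeal A := Ideal.mul_mem_left _ _ hxm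
    have h7 : (1 : A) ∈ maximalIdeal A := by
      have := Ideal.add_mem _ h5 h6
      rwa [sub_add_cancel] at this
    exact (Ideal.ne_top_iff_one _).1 (maximalIdeal.isMaximal A).ne_top h7

/-- `y ∈ P₁` and `x ∈ P₂` as soon as `π ∣ x y`. -/
theorem y_mem_of_rel {x y b : A} {n : ℕ} (C : Coords P₁ P₂ π x y) (hn : 1 ≤ n)
    (hrel : x * y = π ^ n * b) : y ∈ P₁ := by
  have : x * y ∈ P₁ := by
    rw [hrel]
    obtain ⟨k, rfl⟩ : ∃ k, n = k + 1 := ⟨n - 1, by omega⟩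
    rw [pow_succ, mul_assoc]
    exact P₁.mul_mem_left _ (P₁.mul_mem_right _ Fr.pi_mem_P₁)
  rcases Fr.prime₁.mem_or_mem this with h | h
  · exact absurd h C.x_not_mem
  · exact h

/-- **One step of the normalisation.** -/
theorem step {x y b : A} {n : ℕ} (C : Coords P₁ P₂ π x y) (hn : 1 ≤ n)
    (hrel : x * y = π ^ n * b) (hb : b ∈ maximalIdeal A) :
    ∃ x' y' b' : A, Coords P₁ P₂ π x' y' ∧ x' * y' = π ^ (n + 1) * b' ∧
      π ∣ x' - x ∧ π ∣ y' - y := by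
  rw [C.max_eq] at hb
  obtain ⟨α, z, hz, rfl⟩ := Ideal.mem_span_insert.1 hb
  obtain ⟨β, z', hz', rfl⟩ := Ideal.mem_span_insert.1 hz
  obtain ⟨γ, rfl⟩ := Ideal.mem_span_singleton.1 hz'
  obtain ⟨k, rfl⟩ : ∃ k, n = k + 1 := ⟨n - 1, by omega⟩
  have hpi1 := Fr.pi_mem_P₁
  have hpi2 := Fr.symm.pi_mem_P₁
  refine ⟨x - π ^ (k + 1) * γ, y - π ^ (k + 1) * β, α + π ^ k * β * γ, ⟨?_, ?_, ?_⟩, ?_, ?_, ?_⟩
  · -- the maximal ideal
    rw [C.max_eq]
    have hπ' : π ∈ Ideal.span {π, x - π ^ (k + 1) * γ, y - π ^ (k + 1) * β} :=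
      Ideal.subset_span (by simp)
    have hx' : x - π ^ (k + 1) * γ ∈ Ideal.span {π, x - π ^ (k + 1) * γ, y - π ^ (k + 1) * β} :=
      Ideal.subset_span (by simp)
    have hy' : y - π ^ (k + 1) * β ∈ Ideal.span {π, x - π ^ (k + 1) * γ, y - π ^ (k + 1) * β} :=
      Ideal.subset_span (by simp)
    have hπ0 : π ∈ Ideal.span {π, x, y} := Ideal.subset_span (by simp)
    have hx0 : x ∈ Ideal.span {π, x, y} := Ideal.subset_span (by simp)
    have hy0 : y ∈ Ideal.span {π, x, y} := Ideal.subset_span (by simp)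
    have hx1 : x ∈ Ideal.span {π, x - π ^ (k + 1) * γ, y - π ^ (k + 1) * β} := by
      have h := Ideal.add_mem _ hx' (Ideal.mul_mem_right (π ^ k * γ) _ hπ')
      convert h using 1
      ring
    have hy1 : y ∈ Ideal.span {π, x - π ^ (k + 1) * γ, y - π ^ (k + 1) * β} := by
      have h := Ideal.add_mem _ hy' (Ideal.mul_mem_right (π ^ k * β) _ hπ')
      convert h using 1
      ring
    have hx2 : x - π ^ (k + 1) * γ ∈ Ideal.span {π, x, y} := by
      have h := Ideal.sub_mem _ hx0 (Ideal.mul_mem_right (π ^ k * γ) _ hπ0)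
      convert h using 1
      ring
    have hy2 : y - π ^ (k + 1) * β ∈ Ideal.span {π, x, y} := by
      have h := Ideal.sub_mem _ hy0 (Ideal.mul_mem_right (π ^ k * β) _ hπ0)
      convert h using 1
      ring
    apply le_antisymm
    · rw [Ideal.span_le, Set.insert_subset_iff, Set.insert_subset_iff, Set.singleton_subset_iff]
      exact ⟨hπ', hx1, hy1⟩
    · rw [Ideal.span_le, Set.insert_subset_iff, Set.insert_subset_iff, Set.singleton_subset_iff]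
      exact ⟨hπ0, hx2, hy2⟩
  · intro hmem
    have h2 : π ^ (k + 1) * γ ∈ P₁ := by
      rw [pow_succ, mul_assoc]
      exact P₁.mul_mem_left _ (P₁.mul_mem_right _ hpi1)
    have := P₁.add_mem hmem h2
    rw [sub_add_cancel] at this
    exact C.x_not_mem this
  · intro hmem
    have h2 : π ^ (k + 1) * β ∈ P₂ := by
      rw [pow_succ, mul_assoc]
      exact P₂.mul_mem_left _ (P₂.mul_mem_right _ hpi2)
    have := P₂.add_mem hmem h2
    rw [sub_add_cancel] at this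
    exact C.y_not_mem this
  · linear_combination hrel
  · exact ⟨-(π ^ k * γ), by ring⟩
  · exact ⟨-(π ^ k * β), by ring⟩

/-- **(F1a) NODE-NF.**  Weak coordinates + a vertical test element give the strong normal form. -/
theorem exists_nodeData {x y : A} (C : Coords P₁ P₂ π x y) (hrel : π ∣ x * y)
    {h h' : A} {m : ℕ} (hh : h * h' = π ^ m) (h1 : h ∉ P₁) (h2 : 1 ≤ v₂ h) :
    ∃ (x' y' : A) (K : ℕ), NodeData A v₁ v₂ P₁ P₂ π x' y' K ∧ π ∣ x' - x ∧ π ∣ y' - y ∧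
      K ≤ v₂ h := by
  -- strong induction on `v₂ h + 1 - n`
  have key : ∀ (d n : ℕ) (x₁ y₁ b : A), v₂ h + 1 - n ≤ d → 1 ≤ n → Coords P₁ P₂ π x₁ y₁ →
      x₁ * y₁ = π ^ n * b → π ∣ x₁ - x → π ∣ y₁ - y →
      ∃ (x' y' : A) (K : ℕ), NodeData A v₁ v₂ P₁ P₂ π x' y' K ∧ π ∣ x' - x ∧ π ∣ y' - y ∧
        K ≤ v₂ h := by
    intro d
    induction d with
    | zero =>
      intro n x₁ y₁ b hd hn C₁ hrel₁ _ _
      exfalso
      -- `n ≤ v₂ x₁ ≤ v₂ h`
      have hx0 : x₁ ≠ 0 := fun h0 => C₁.x_not_mem (h0 ▸ P₁.zero_mem)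
      have hy0 : y₁ ≠ 0 := fun h0 => C₁.y_not_mem (h0 ▸ P₂.zero_mem)
      have hb0 : b ≠ 0 := by
        rintro rfl
        rw [mul_zero] at hrel₁
        exact mul_ne_zero hx0 hy0 hrel₁
      have hpn0 : π ^ n ≠ 0 := pow_ne_zero n Fr.pi_ne
      have e := Fr.v₂_mul x₁ y₁ hx0 hy0
      rw [hrel₁, Fr.v₂_mul _ _ hpn0 hb0, Fr.symm.v₁_pow Fr.pi_ne, Fr.v₂_pi, mul_one,
        Fr.symm.v₁_eq_zero C₁.y_not_mem] at e
      have hbd := Fr.v₂_le_of_vertical C₁ (Fr.y_mem_of_rel C₁ hn hrel₁) hh h1 h2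
      omega
    | succ d ih =>
      intro n x₁ y₁ b hd hn C₁ hrel₁ hx₁ hy₁
      have hx0 : x₁ ≠ 0 := fun h0 => C₁.x_not_mem (h0 ▸ P₁.zero_mem)
      have hy0 : y₁ ≠ 0 := fun h0 => C₁.y_not_mem (h0 ▸ P₂.zero_mem)
      have hb0 : b ≠ 0 := by
        rintro rfl
        rw [mul_zero] at hrel₁
        exact mul_ne_zero hx0 hy0 hrel₁
      have hpn0 : π ^ n ≠ 0 := pow_ne_zero n Fr.pi_ne
      have e := Fr.v₂_mul x₁ y₁ hx0 hy0
      rw [hrel₁, Fr.v₂_mul _ _ hpn0 hb0, Fr.symm.v₁_pow Fr.pi_ne, Fr.v₂_pi, mul_one,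
        Fr.symm.v₁_eq_zero C₁.y_not_mem] at e
      have hbd := Fr.v₂_le_of_vertical C₁ (Fr.y_mem_of_rel C₁ hn hrel₁) hh h1 h2
      by_cases hbu : IsUnit b
      · refine ⟨x₁, y₁, n, ?_, hx₁, hy₁, by omega⟩
        exact
          { v₁_mul := Fr.v₁_mul
            v₂_mul := Fr.v₂_mul
            v₁_pi := Fr.v₁_pi
            v₂_pi := Fr.v₂_pi
            v₁_x := Fr.v₁_eq_zero C₁.x_not_mem
            v₂_y := Fr.symm.v₁_eq_zero C₁.y_not_mem
            pi_ne := Fr.pi_ne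
            rel := ⟨b, hbu, hrel₁⟩
            sat := Fr.sat
            mem_P₁ := Fr.mem_P₁
            mem_P₂ := Fr.mem_P₂
            prime₁ := Fr.prime₁
            prime₂ := Fr.prime₂
            max_eq := C₁.max_eq
            K_pos := hn }
      · have hbm : b ∈ maximalIdeal A := by
          rw [mem_maximalIdeal, mem_nonunits_iff]
          exact hbu
        obtain ⟨x₂, y₂, b₂, C₂, hrel₂, hx₂, hy₂⟩ := Fr.step C₁ hn hrel₁ hbm
        refine ih (n + 1) x₂ y₂ b₂ (by omega) (by omega) C₂ hrel₂ ?_ ?_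
        · have : x₂ - x = (x₂ - x₁) + (x₁ - x) := by ring
          rw [this]
          exact dvd_add hx₂ hx₁
        · have : y₂ - y = (y₂ - y₁) + (y₁ - y) := by ring
          rw [this]
          exact dvd_add hy₂ hy₁
  obtain ⟨b, hb⟩ := hrel
  exact key (v₂ h + 1) 1 x y b (by omega) le_rfl C (by rw [pow_one]; exact hb)
    ⟨0, by ring⟩ ⟨0, by ring⟩

end Main

end Frame

end Fermat.Agent.T1B.NodeNF37.Abstract
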