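/-
Programme T1B, brick F1b (helper37), part 1: the ORDER FUNCTION of a rank-one discrete valuation subring
given in the elementary vocabulary of `ES/N34/NodalCore13.NodalTwoChartModel`
(`ϖ⁻¹ ∉ O`, `unif : x ∈ O → x⁻¹ ∉ O → x ∈ ϖ O`, `arch : ∀ x, ∃ k, ϖ ^ k x ∈ O`).

* `IsUnifFor O ϖ`        : the hypotheses;
* `exists_repr`, `repr_unique` : every nonzero `x ∈ O` is `ϖ ^ n · u`, `u ∈ Oˣ`, `n` unique;
* `ord O ϖ x : ℕ`        : that `n` (junk `0` outside `O ∖ 0`);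
* `ord_mul`, `ord_unif`, `ord_eq_zero_iff`, `one_le_ord_iff`, `ord_pow_mul_unit`.
-/
import Mathlib

set_option autoImplicit false
set_option linter.unusedSectionVars false

namespace Fermat.Agent.T1B.NodeNF37.UnifOrd

variable {F : Type*} [Field F]

/-- `ϖ` is a uniformiser of the rank-one discrete valuation subring `O` (elementary form). -/
structure IsUnifFor (O : ValuationSubring F) (ϖ : F) : Prop where
  ne : ϖ ≠ 0
  nonunit : ϖ⁻¹ ∉ O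
  unif : ∀ x ∈ O, x⁻¹ ∉ O → ∃ c ∈ O, x = ϖ * c
  arch : ∀ x : F, ∃ k : ℕ, ϖ ^ k * x ∈ O

variable {O : ValuationSubring F} {ϖ : F}

namespace IsUnifFor

theorem mem (h : IsUnifFor O ϖ) : ϖ ∈ O := by
  rcases O.mem_or_inv_mem ϖ with h1 | h1
  · exact h1
  · exact absurd h1 h.nonunit

theorem pow_mem (h : IsUnifFor O ϖ) (n : ℕ) : ϖ ^ n ∈ O := O.pow_mem h.mem n

/-- A negative power of `ϖ` is not in `O`. -/
theorem inv_pow_not_mem (h : IsUnifFor O ϖ) {n : ℕ} (hn : 0 < n) : (ϖ ^ n)⁻¹ ∉ O := by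
  intro hmem
  obtain ⟨k, rfl⟩ : ∃ k, n = k + 1 := ⟨n - 1, by omega⟩
  have : ϖ⁻¹ = ϖ ^ k * (ϖ ^ (k + 1))⁻¹ := by
    have hk : ϖ ^ k ≠ 0 := pow_ne_zero k h.ne
    rw [pow_succ, mul_inv, ← mul_assoc, mul_inv_cancel₀ hk, one_mul]
  exact h.nonunit (this ▸ O.mul_mem _ _ (h.pow_mem k) hmem)

/-- Existence of the representation `x = ϖ ^ n u`. -/
theorem exists_repr (h : IsUnifFor O ϖ) {x : F} (hx : x ∈ O) (hx0 : x ≠ 0) :
    ∃ (n : ℕ) (u : F), u ∈ O ∧ u⁻¹ ∈ O ∧ x = ϖ ^ n * u := by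
  obtain ⟨k, hk⟩ := h.arch x⁻¹
  induction k generalizing x with
  | zero =>
    rw [pow_zero, one_mul] at hk
    exact ⟨0, x, hx, hk, by rw [pow_zero, one_mul]⟩
  | succ k ih =>
    by_cases hinv : x⁻¹ ∈ O
    · exact ⟨0, x, hx, hinv, by rw [pow_zero, one_mul]⟩
    · obtain ⟨c, hc, rfl⟩ := h.unif x hx hinv
      have hc0 : c ≠ 0 := right_ne_zero_of_mul hx0
      have hk' : ϖ ^ k * c⁻¹ ∈ O := by
        have : ϖ ^ (k + 1) * (ϖ * c)⁻¹ = ϖ ^ k * c⁻¹ := by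
          rw [pow_succ, mul_inv, mul_assoc, ← mul_assoc ϖ, mul_inv_cancel₀ h.ne, one_mul]
        rwa [this] at hk
      obtain ⟨n, u, hu, hu', hcu⟩ := ih hc hc0 hk'
      exact ⟨n + 1, u, hu, hu', by rw [hcu, pow_succ]; ring⟩

/-- Uniqueness of the exponent. -/
theorem repr_unique (h : IsUnifFor O ϖ) {n m : ℕ} {u u' : F} (hu : u ∈ O) (hu' : u⁻¹ ∈ O)
    (hv : u' ∈ O) (hv' : u'⁻¹ ∈ O) (hu0 : u ≠ 0) (hv0 : u' ≠ 0)
    (he : ϖ ^ n * u = ϖ ^ m * u') : n = m := by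
  have key : ∀ {a b : ℕ} {w w' : F}, w ∈ O → w⁻¹ ∈ O → w' ∈ O → w'⁻¹ ∈ O → w ≠ 0 → w' ≠ 0 →
      ϖ ^ a * w = ϖ ^ b * w' → ¬ a < b := by
    intro a b w w' hw hw' hz hz' hw0 hz0 he hlt
    obtain ⟨d, rfl⟩ : ∃ d, b = a + (d + 1) := ⟨b - a - 1, by omega⟩
    have ha0 : ϖ ^ a ≠ 0 := pow_ne_zero a h.ne
    have h1 : w = ϖ ^ (d + 1) * w' := by
      have : ϖ ^ a * w = ϖ ^ a * (ϖ ^ (d + 1) * w') := by rw [he, pow_add]; ring
      exact mul_left_cancel₀ ha0 this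
    have h2 : (ϖ ^ (d + 1))⁻¹ = w' * w⁻¹ := by
      rw [h1, mul_inv, mul_comm (ϖ ^ (d + 1))⁻¹, ← mul_assoc, mul_inv_cancel₀ hz0, one_mul]
    exact h.inv_pow_not_mem (Nat.succ_pos d) (h2 ▸ O.mul_mem _ _ hz hw')
  rcases Nat.lt_trichotomy n m with hlt | heq | hgt
  · exact absurd hlt (key hu hu' hv hv' hu0 hv0 he)
  · exact heq
  · exact absurd hgt (key hv hv' hu hu' hv0 hu0 he.symm)

end IsUnifFor

open Classical in
/-- The order of `x ∈ O ∖ 0` (junk value `0` otherwise). -/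
noncomputable def ord (O : ValuationSubring F) (ϖ : F) (x : F) : ℕ :=
  if h : ∃ (n : ℕ) (u : F), u ∈ O ∧ u⁻¹ ∈ O ∧ u ≠ 0 ∧ x = ϖ ^ n * u then Classical.choose h else 0

namespace IsUnifFor

variable (h : IsUnifFor O ϖ)
include h

/-- The defining property. -/
theorem ord_pow_mul_unit {n : ℕ} {u : F} (hu : u ∈ O) (hu' : u⁻¹ ∈ O) (hu0 : u ≠ 0) :
    ord O ϖ (ϖ ^ n * u) = n := by
  have hex : ∃ (m : ℕ) (w : F), w ∈ O ∧ w⁻¹ ∈ O ∧ w ≠ 0 ∧ ϖ ^ n * u = ϖ ^ m * w :=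
    ⟨n, u, hu, hu', hu0, rfl⟩
  rw [ord, dif_pos hex]
  obtain ⟨w, hw, hw', hw0, he⟩ := Classical.choose_spec hex
  exact (h.repr_unique hu hu' hw hw' hu0 hw0 he).symm

theorem exists_ord_repr {x : F} (hx : x ∈ O) (hx0 : x ≠ 0) :
    ∃ u : F, u ∈ O ∧ u⁻¹ ∈ O ∧ u ≠ 0 ∧ x = ϖ ^ ord O ϖ x * u := by
  obtain ⟨n, u, hu, hu', hxu⟩ := h.exists_repr hx hx0
  have hu0 : u ≠ 0 := by
    rintro rfl
    rw [mul_zero] at hxu
    exact hx0 hxu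
  refine ⟨u, hu, hu', hu0, ?_⟩
  rw [hxu, h.ord_pow_mul_unit hu hu' hu0]

theorem ord_mul {x y : F} (hx : x ∈ O) (hy : y ∈ O) (hx0 : x ≠ 0) (hy0 : y ≠ 0) :
    ord O ϖ (x * y) = ord O ϖ x + ord O ϖ y := by
  obtain ⟨u, hu, hu', hu0, hxu⟩ := h.exists_ord_repr hx hx0
  obtain ⟨w, hw, hw', hw0, hyw⟩ := h.exists_ord_repr hy hy0
  have : x * y = ϖ ^ (ord O ϖ x + ord O ϖ y) * (u * w) := by
    conv_lhs => rw [hxu, hyw]
    rw [pow_add]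
    ring
  rw [this, h.ord_pow_mul_unit (O.mul_mem _ _ hu hw) (by rw [mul_inv]; exact O.mul_mem _ _ hu' hw')
    (mul_ne_zero hu0 hw0)]

theorem ord_unif : ord O ϖ ϖ = 1 := by
  have := h.ord_pow_mul_unit (n := 1) (u := 1) O.one_mem (by rw [inv_one]; exact O.one_mem) one_ne_zero
  rwa [pow_one, mul_one] at this

theorem ord_eq_zero_iff {x : F} (hx : x ∈ O) (hx0 : x ≠ 0) : ord O ϖ x = 0 ↔ x⁻¹ ∈ O := by
  obtain ⟨u, hu, hu', hu0, hxu⟩ := h.exists_ord_repr hx hx0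
  constructor
  · intro h0
    rw [h0, pow_zero, one_mul] at hxu
    rw [hxu]
    exact hu'
  · intro hinv
    have := h.ord_pow_mul_unit (n := 0) hx hinv hx0
    rwa [pow_zero, one_mul] at this

theorem one_le_ord_iff {x : F} (hx : x ∈ O) (hx0 : x ≠ 0) :
    1 ≤ ord O ϖ x ↔ ∃ c ∈ O, x = ϖ * c := by
  constructor
  · intro h1
    by_contra hcon
    have hinv : x⁻¹ ∈ O := by
      by_contra hni
      exact hcon (h.unif x hx hni)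
    have := (h.ord_eq_zero_iff hx hx0).2 hinv
    omega
  · rintro ⟨c, hc, rfl⟩
    have hc0 : c ≠ 0 := right_ne_zero_of_mul hx0
    rw [h.ord_mul h.mem hc h.ne hc0, h.ord_unif]
    omega

end IsUnifFor

end Fermat.Agent.T1B.NodeNF37.UnifOrd
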