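/-
Programme T1B, brick F1b (helper37), part 2: from the WEAK node coordinates of `ES/N34` (`x, y ∈ 𝔪`,
`π ∣ x y`, `𝔪 = (π, x, y)`) to `Abstract.Coords` (`x ∉ P₁`, `y ∉ P₂`), up to exchanging `x` and `y`.

Input on the two vertical primes: they are INCOMPARABLE (`¬ P₁ ≤ P₂`, `¬ P₂ ≤ P₁`).
The degenerate case `π ∣ x` (or `π ∣ y`), i.e. `𝔪 = (π, z)`, is excluded by Krull's intersection theorem:
an element of `P₁ ∖ P₂` would lie in `(π) + 𝔪 ^ n` for all `n`, hence in `(π) ⊆ P₂`.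
-/
import Mathlib
import Fermat.Agent.T1B.NodeNF37.Abstract

set_option autoImplicit false
set_option linter.unusedSectionVars false
set_option linter.unusedVariables false

namespace Fermat.Agent.T1B.NodeNF37.WeakCoords

open IsLocalRing Fermat.Agent.T1B.NodeNF37.Abstract

variable {A : Type*} [CommRing A] [IsDomain A] [IsLocalRing A] [IsNoetherianRing A]
variable {v₁ v₂ : A → ℕ} {P₁ P₂ : Ideal A} {π : A}

/-- **Krull step.**  If `𝔪 = (π, z)` then no element of `P₁` lies outside `P₂`, provided `z ∉ P₁`. -/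
theorem mem_of_two_generators (Fr : Frame A v₁ v₂ P₁ P₂ π) {z : A}
    (hmax : maximalIdeal A = Ideal.span {π, z}) (hz1 : z ∉ P₁) {f : A} (hf1 : f ∈ P₁) : f ∈ P₂ := by
  by_contra hf2
  have hP1top : P₁ ≠ ⊤ := Fr.prime₁.ne_top
  have hpi1 : π ∈ P₁ := Fr.pi_mem_P₁
  have hpi2 : π ∈ P₂ := Fr.symm.pi_mem_P₁
  have hzm : z ∈ maximalIdeal A := by
    rw [hmax]
    exact Ideal.subset_span (by simp)
  -- descent
  have desc : ∀ n : ℕ, ∃ b : A, b ∈ P₁ ∧ b ∉ P₂ ∧ f - b * z ^ n ∈ Ideal.span {π} := by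
    intro n
    induction n with
    | zero => exact ⟨f, hf1, hf2, by simp⟩
    | succ n ih =>
      obtain ⟨b, hb1, hb2, hfb⟩ := ih
      have hbm : b ∈ maximalIdeal A := IsLocalRing.le_maximalIdeal hP1top hb1
      rw [hmax] at hbm
      obtain ⟨a, w, hw, rfl⟩ := Ideal.mem_span_insert.1 hbm
      obtain ⟨b', rfl⟩ := Ideal.mem_span_singleton.1 hw
      have hb'z : z * b' ∈ P₁ := by
        have := P₁.sub_mem hb1 (P₁.mul_mem_left a hpi1)
        rwa [add_sub_cancel_left] at this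
      have hb'1 : b' ∈ P₁ := by
        rcases Fr.prime₁.mem_or_mem hb'z with h | h
        · exact absurd h hz1
        · exact h
      have hb'2 : b' ∉ P₂ := by
        intro h
        exact hb2 (P₂.add_mem (P₂.mul_mem_left a hpi2) (P₂.mul_mem_left z h))
      refine ⟨b', hb'1, hb'2, ?_⟩
      have : f - b' * z ^ (n + 1) = (f - (a * π + z * b') * z ^ n) + π * (a * z ^ n) := by ring
      rw [this]
      exact Ideal.add_mem _ hfb (Ideal.mul_mem_right _ _ (Ideal.mem_span_singleton_self π))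
  -- Krull in the module `A ⧸ (π)`
  let I : Ideal A := Ideal.span {π}
  have hK := Ideal.iInf_pow_smul_eq_bot_of_isLocalRing (R := A) (M := A ⧸ I) (maximalIdeal A)
    (maximalIdeal.isMaximal A).ne_top
  have hmem : (Ideal.Quotient.mk I f : A ⧸ I) ∈
      (⨅ i : ℕ, maximalIdeal A ^ i • ⊤ : Submodule A (A ⧸ I)) := by
    rw [Submodule.mem_iInf]
    intro n
    obtain ⟨b, _, _, hfb⟩ := desc n
    have h1 : (Ideal.Quotient.mk I f : A ⧸ I) = (z ^ n) • (Ideal.Quotient.mk I b : A ⧸ I) := by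
      rw [Algebra.smul_def, Ideal.Quotient.algebraMap_eq, ← map_mul]
      rw [Ideal.Quotient.eq]
      have : f - z ^ n * b = f - b * z ^ n := by ring
      rw [this]
      exact hfb
    rw [h1]
    exact Submodule.smul_mem_smul (Ideal.pow_mem_pow hzm n) Submodule.mem_top
  rw [hK, Submodule.mem_bot, Ideal.Quotient.eq_zero_iff_mem] at hmem
  obtain ⟨c, rfl⟩ := Ideal.mem_span_singleton.1 hmem
  exact hf2 (P₂.mul_mem_right c hpi2)

/-- **(F1b, abstract).**  Weak coordinates give `Coords`, up to exchanging `x` and `y`. -/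
theorem exists_coords (Fr : Frame A v₁ v₂ P₁ P₂ π) {x y : A}
    (hmax : maximalIdeal A = Ideal.span {π, x, y}) (hrel : π ∣ x * y)
    (h12 : ¬ P₁ ≤ P₂) (h21 : ¬ P₂ ≤ P₁) :
    Coords P₁ P₂ π x y ∨ Coords P₁ P₂ π y x := by
  have hP1top : P₁ ≠ ⊤ := Fr.prime₁.ne_top
  have hP2top : P₂ ≠ ⊤ := Fr.prime₂.ne_top
  have hpi1 : π ∈ P₁ := Fr.pi_mem_P₁
  have hpi2 : π ∈ P₂ := Fr.symm.pi_mem_P₁
  have hmax' : maximalIdeal A = Ideal.span {π, y, x} := by
    rw [hmax]
    congr 1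
    ext z
    simp only [Set.mem_insert_iff, Set.mem_singleton_iff]
    tauto
  -- `P_j ≠ 𝔪`
  have hP1m : ¬ maximalIdeal A ≤ P₁ := fun h => h21 ((IsLocalRing.le_maximalIdeal hP2top).trans h)
  have hP2m : ¬ maximalIdeal A ≤ P₂ := fun h => h12 ((IsLocalRing.le_maximalIdeal hP1top).trans h)
  have hnot1 : ¬ (x ∈ P₁ ∧ y ∈ P₁) := by
    rintro ⟨hx, hy⟩
    apply hP1m
    rw [hmax, Ideal.span_le, Set.insert_subset_iff, Set.insert_subset_iff, Set.singleton_subset_iff]
    exact ⟨hpi1, hx, hy⟩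
  have hnot2 : ¬ (x ∈ P₂ ∧ y ∈ P₂) := by
    rintro ⟨hx, hy⟩
    apply hP2m
    rw [hmax, Ideal.span_le, Set.insert_subset_iff, Set.insert_subset_iff, Set.singleton_subset_iff]
    exact ⟨hpi2, hx, hy⟩
  have hxy1 : x * y ∈ P₁ := by
    obtain ⟨c, hc⟩ := hrel
    rw [hc]
    exact P₁.mul_mem_right c hpi1
  have hxy2 : x * y ∈ P₂ := by
    obtain ⟨c, hc⟩ := hrel
    rw [hc]
    exact P₂.mul_mem_right c hpi2
  -- `π ∣ z` for `z ∈ P₁ ∩ P₂`
  have hdvd : ∀ z : A, z ∈ P₁ → z ∈ P₂ → π ∣ z := by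
    intro z hz1 hz2
    by_cases hz0 : z = 0
    · rw [hz0]; exact dvd_zero π
    · exact Fr.sat z hz0 ((Fr.mem_P₁ z hz0).1 hz1) ((Fr.mem_P₂ z hz0).1 hz2)
  -- the degenerate case is impossible
  have hdeg : ∀ z w : A, maximalIdeal A = Ideal.span {π, z, w} → π ∣ w → z ∉ P₁ → False := by
    intro z w hm hw hz1
    have hm2 : maximalIdeal A = Ideal.span {π, z} := by
      rw [hm]
      apply le_antisymm
      · rw [Ideal.span_le, Set.insert_subset_iff, Set.insert_subset_iff, Set.singleton_subset_iff]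
        refine ⟨Ideal.subset_span (by simp), Ideal.subset_span (by simp), ?_⟩
        obtain ⟨c, rfl⟩ := hw
        exact Ideal.mul_mem_right _ _ (Ideal.subset_span (by simp))
      · apply Ideal.span_mono
        intro t ht
        simp only [Set.mem_insert_iff, Set.mem_singleton_iff] at ht ⊢
        tauto
    exact h12 fun f hf => mem_of_two_generators Fr hm2 hz1 hf
  by_cases hx1 : x ∈ P₁
  · -- then `y ∉ P₁`
    have hy1 : y ∉ P₁ := fun hy => hnot1 ⟨hx1, hy⟩
    by_cases hx2 : x ∈ P₂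
    · exact (hdeg y x hmax' (hdvd x hx1 hx2) hy1).elim
    · exact Or.inr ⟨hmax', hy1, hx2⟩
  · have hy1 : y ∈ P₁ := by
      rcases Fr.prime₁.mem_or_mem hxy1 with h | h
      · exact absurd h hx1
      · exact h
    by_cases hy2 : y ∈ P₂
    · exact (hdeg x y hmax (hdvd y hy1 hy2) hx1).elim
    · exact Or.inl ⟨hmax, hx1, hy2⟩

end Fermat.Agent.T1B.NodeNF37.WeakCoords
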