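/-
Programme T1B, brick F1b (helper37), part 3: INSTANTIATION of the node frame on the localisation
`A = B_𝔪` of a chart `B ↪ F` of a nodal model, in the elementary vocabulary of `ES/N34`
(`O₁ O₂ : ValuationSubring F`, uniformiser `ϖ = g π`, saturation, "both branches pass through `𝔪`").

* `iota`            : `B_𝔪 →+* F`;
* `vv O a`, `PP O`  : the order function and the vertical prime of `A` attached to `O`;
* `frame`           : `Abstract.Frame A (vv O₁) (vv O₂) (PP O₁) (PP O₂) π`;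
* `exists_nodeData` : weak node coordinates in the chart (`NodeCoords` form, with denominators) + incomparability of
  the two vertical primes + a vertical test element ⇒ the STRONG node normal form
  `NodeClassGroup.NodeData` on `A`, with thickness `K ∣ v₂ h - v₁ h` for every vertical `h`.
-/
import Mathlib
import Fermat.Agent.T1B.NodeNF37.Abstract
import Fermat.Agent.T1B.NodeNF37.UnifOrd
import Fermat.Agent.T1B.NodeNF37.WeakCoords

set_option autoImplicit false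
set_option linter.unusedSectionVars false
set_option linter.unusedVariables false

namespace Fermat.Agent.T1B.NodeNF37.Local

open IsLocalRing Fermat.Agent.T1B.NodeNF37.Abstract Fermat.Agent.T1B.NodeNF37.UnifOrd
  Fermat.Agent.T1.Peu37.NodeClassGroup

variable {B F : Type*} [CommRing B] [IsDomain B] [Field F]
variable (g : B →+* F) (hg : Function.Injective g) (𝔪 : Ideal B) [h𝔪 : 𝔪.IsPrime]

theorem isUnit_algebraMap {d : B} (hd : d ∉ 𝔪) :
    IsUnit (algebraMap B (Localization.AtPrime 𝔪) d) :=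
  IsLocalization.map_units (Localization.AtPrime 𝔪) (⟨d, hd⟩ : 𝔪.primeCompl)

include hg

theorem isUnit_g (y : 𝔪.primeCompl) : IsUnit (g (y : B)) := by
  apply IsUnit.mk0
  intro h
  have : (y : B) = 0 := hg (by rw [h, map_zero])
  exact y.2 (this ▸ 𝔪.zero_mem)

/-- The embedding of the local ring `B_𝔪` in `F`. -/
noncomputable def iota : Localization.AtPrime 𝔪 →+* F :=
  IsLocalization.lift (M := 𝔪.primeCompl) (g := g) (isUnit_g g hg 𝔪)

theorem iota_algebraMap (b : B) :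
    iota g hg 𝔪 (algebraMap B (Localization.AtPrime 𝔪) b) = g b :=
  IsLocalization.lift_eq _ b

/-- Every element of `B_𝔪` is a fraction `b / d`, `d ∉ 𝔪`. -/
theorem exists_frac (a : Localization.AtPrime 𝔪) :
    ∃ b d : B, d ∉ 𝔪 ∧ a * algebraMap B (Localization.AtPrime 𝔪) d =
      algebraMap B (Localization.AtPrime 𝔪) b ∧ iota g hg 𝔪 a * g d = g b := by
  obtain ⟨⟨b, d⟩, h⟩ := IsLocalization.surj 𝔪.primeCompl a
  refine ⟨b, d, d.2, h, ?_⟩
  have := congrArg (iota g hg 𝔪) h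
  rwa [map_mul, iota_algebraMap, iota_algebraMap] at this

theorem g_ne_zero {d : B} (hd : d ∉ 𝔪) : g d ≠ 0 := (isUnit_g g hg 𝔪 ⟨d, hd⟩).ne_zero

theorem iota_injective : Function.Injective (iota g hg 𝔪) := by
  rw [injective_iff_map_eq_zero]
  intro a ha
  obtain ⟨b, d, hd, hab, hι⟩ := exists_frac g hg 𝔪 a
  rw [ha, zero_mul] at hι
  have hb : b = 0 := hg (by rw [← hι, map_zero])
  rw [hb, map_zero] at hab
  exact (isUnit_algebraMap 𝔪 hd).mul_left_eq_zero.1 hab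

/-! ### One branch -/

section Branch

variable (O : ValuationSubring F) (π : B)

/-- The hypotheses on one branch `O` through `𝔪`. -/
structure BranchHyp : Prop where
  le : ∀ b : B, g b ∈ O
  unif : IsUnifFor O (g π)
  on : ∀ e : B, e ∉ 𝔪 → ¬ ∃ c ∈ O, g e = g π * c

variable {O π}

theorem inv_g_mem (H : BranchHyp g 𝔪 O π) {d : B} (hd : d ∉ 𝔪) : (g d)⁻¹ ∈ O := by
  by_contra hcon
  exact H.on d hd (H.unif.unif (g d) (H.le d) hcon)

theorem iota_mem (H : BranchHyp g 𝔪 O π) (a : Localization.AtPrime 𝔪) : iota g hg 𝔪 a ∈ O := by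
  obtain ⟨b, d, hd, -, hι⟩ := exists_frac g hg 𝔪 a
  have hd0 := g_ne_zero g hg 𝔪 hd
  have : iota g hg 𝔪 a = g b * (g d)⁻¹ := by
    rw [← hι, mul_assoc, mul_inv_cancel₀ hd0, mul_one]
  rw [this]
  exact O.mul_mem _ _ (H.le b) (inv_g_mem g hg 𝔪 H hd)

variable (O π) in
/-- The order function of `A = B_𝔪` along the branch `O`. -/
noncomputable def vv (a : Localization.AtPrime 𝔪) : ℕ := ord O (g π) (iota g hg 𝔪 a)

/-- The vertical prime of `A = B_𝔪` attached to the branch `O`. -/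
def PP (H : BranchHyp g 𝔪 O π) : Ideal (Localization.AtPrime 𝔪) where
  carrier := {a | ∃ c ∈ O, iota g hg 𝔪 a = g π * c}
  add_mem' := by
    rintro a b ⟨c, hc, ha⟩ ⟨c', hc', hb⟩
    exact ⟨c + c', O.add_mem _ _ hc hc', by rw [map_add, ha, hb, mul_add]⟩
  zero_mem' := ⟨0, O.zero_mem, by rw [map_zero, mul_zero]⟩
  smul_mem' := by
    rintro r a ⟨c, hc, ha⟩
    exact ⟨iota g hg 𝔪 r * c, O.mul_mem _ _ (iota_mem g hg 𝔪 H r) hc, by
      rw [smul_eq_mul, map_mul, ha]; ring⟩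

theorem mem_PP (H : BranchHyp g 𝔪 O π) (a : Localization.AtPrime 𝔪) :
    a ∈ PP g hg 𝔪 H ↔ ∃ c ∈ O, iota g hg 𝔪 a = g π * c := Iff.rfl

theorem iota_ne_zero {a : Localization.AtPrime 𝔪} (ha : a ≠ 0) : iota g hg 𝔪 a ≠ 0 := fun h =>
  ha (iota_injective g hg 𝔪 (by rw [h, map_zero]))

theorem vv_mul (H : BranchHyp g 𝔪 O π) (a b : Localization.AtPrime 𝔪) (ha : a ≠ 0) (hb : b ≠ 0) :
    vv g hg 𝔪 O π (a * b) = vv g hg 𝔪 O π a + vv g hg 𝔪 O π b := by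
  unfold vv
  rw [map_mul]
  exact H.unif.ord_mul (iota_mem g hg 𝔪 H a) (iota_mem g hg 𝔪 H b) (iota_ne_zero g hg 𝔪 ha)
    (iota_ne_zero g hg 𝔪 hb)

theorem vv_pi (H : BranchHyp g 𝔪 O π) :
    vv g hg 𝔪 O π (algebraMap B (Localization.AtPrime 𝔪) π) = 1 := by
  unfold vv
  rw [iota_algebraMap]
  exact H.unif.ord_unif

theorem mem_PP_iff (H : BranchHyp g 𝔪 O π) (a : Localization.AtPrime 𝔪) (ha : a ≠ 0) :
    a ∈ PP g hg 𝔪 H ↔ 1 ≤ vv g hg 𝔪 O π a :=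
  (H.unif.one_le_ord_iff (iota_mem g hg 𝔪 H a) (iota_ne_zero g hg 𝔪 ha)).symm

theorem PP_isPrime (H : BranchHyp g 𝔪 O π) : (PP g hg 𝔪 H).IsPrime := by
  refine ⟨?_, ?_⟩
  · rw [Ideal.ne_top_iff_one]
    rintro ⟨c, hc, h1⟩
    rw [map_one] at h1
    have : (g π)⁻¹ = c := by
      rw [eq_comm, ← mul_right_inj' H.unif.ne, ← h1, mul_inv_cancel₀ H.unif.ne]
    exact H.unif.nonunit (this ▸ hc)
  · intro a b hab
    by_cases ha : a = 0
    · exact Or.inl (ha ▸ (PP g hg 𝔪 H).zero_mem)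
    by_cases hb : b = 0
    · exact Or.inr (hb ▸ (PP g hg 𝔪 H).zero_mem)
    rw [mem_PP_iff g hg 𝔪 H _ (mul_ne_zero ha hb), vv_mul g hg 𝔪 H a b ha hb] at hab
    rw [mem_PP_iff g hg 𝔪 H a ha, mem_PP_iff g hg 𝔪 H b hb]
    omega

end Branch

/-! ### The frame -/

section FrameSec

variable {O₁ O₂ : ValuationSubring F} {π : B}

/-- **The frame on `B_𝔪`.** -/
theorem frame (H₁ : BranchHyp g 𝔪 O₁ π) (H₂ : BranchHyp g 𝔪 O₂ π)
    (sat : ∀ (b : B) (c : F), c ∈ O₁ → c ∈ O₂ → g b = g π * c → ∃ b' : B, g b' = c) :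
    Frame (Localization.AtPrime 𝔪) (vv g hg 𝔪 O₁ π) (vv g hg 𝔪 O₂ π) (PP g hg 𝔪 H₁) (PP g hg 𝔪 H₂)
      (algebraMap B (Localization.AtPrime 𝔪) π) where
  v₁_mul := vv_mul g hg 𝔪 H₁
  v₂_mul := vv_mul g hg 𝔪 H₂
  v₁_pi := vv_pi g hg 𝔪 H₁
  v₂_pi := vv_pi g hg 𝔪 H₂
  pi_ne := by
    intro h
    have := congrArg (iota g hg 𝔪) h
    rw [iota_algebraMap, map_zero] at this
    exact H₁.unif.ne this
  sat := by
    intro f hf h1 h2
    obtain ⟨c₁, hc₁, e₁⟩ := (mem_PP_iff g hg 𝔪 H₁ f hf).2 h1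
    obtain ⟨c₂, hc₂, e₂⟩ := (mem_PP_iff g hg 𝔪 H₂ f hf).2 h2
    have hc : c₁ = c₂ := mul_left_cancel₀ H₁.unif.ne (e₁.symm.trans e₂)
    subst hc
    obtain ⟨b, d, hd, hab, hι⟩ := exists_frac g hg 𝔪 f
    -- `g b = g π * (c₁ * g d)`
    have hb : g b = g π * (c₁ * g d) := by rw [← hι, e₁]; ring
    obtain ⟨b', hb'⟩ := sat b (c₁ * g d) (O₁.mul_mem _ _ hc₁ (H₁.le d)) (O₂.mul_mem _ _ hc₂ (H₂.le d)) hb
    have hbb : b = π * b' := hg (by rw [map_mul, hb', hb])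
    obtain ⟨u, hu⟩ := (isUnit_algebraMap 𝔪 hd).exists_right_inv
    refine ⟨algebraMap B _ b' * u, ?_⟩
    have : f = f * algebraMap B (Localization.AtPrime 𝔪) d * u := by rw [mul_assoc, hu, mul_one]
    rw [this, hab, hbb, map_mul]
    ring
  mem_P₁ := mem_PP_iff g hg 𝔪 H₁
  mem_P₂ := mem_PP_iff g hg 𝔪 H₂
  prime₁ := PP_isPrime g hg 𝔪 H₁
  prime₂ := PP_isPrime g hg 𝔪 H₂

/-- **(F1b) NODE-NF on the localisation of a chart.**  `x y` weak node coordinates of the chart `B` at `𝔪`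
(`NumData13.NodeCoords` form), the two vertical primes incomparable, `a` a vertical test element
(`a a' = π ^ m`, `a ∉ ϖ O₁`, `a ∈ ϖ O₂`).  Then `B_𝔪` carries the strong node normal form, of thickness
`K ≤ v₂ a`. -/
theorem exists_nodeData [IsNoetherianRing B] (H₁ : BranchHyp g 𝔪 O₁ π) (H₂ : BranchHyp g 𝔪 O₂ π)
    (sat : ∀ (b : B) (c : F), c ∈ O₁ → c ∈ O₂ → g b = g π * c → ∃ b' : B, g b' = c)
    (hπ𝔪 : π ∈ 𝔪) {x y : B} (hx : x ∈ 𝔪) (hy : y ∈ 𝔪)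
    (hxy : ∃ d : B, d ∉ 𝔪 ∧ ∃ e : B, d * (x * y) = π * e)
    (hgen : ∀ b ∈ 𝔪, ∃ d : B, d ∉ 𝔪 ∧ d * b ∈ Ideal.span {π, x, y})
    (h12 : ∃ f : B, (∃ c ∈ O₁, g f = g π * c) ∧ ¬ ∃ c ∈ O₂, g f = g π * c)
    (h21 : ∃ f : B, (∃ c ∈ O₂, g f = g π * c) ∧ ¬ ∃ c ∈ O₁, g f = g π * c)
    {a a' : B} {m : ℕ} (haa : a * a' = π ^ m) (ha1 : ¬ ∃ c ∈ O₁, g a = g π * c)
    (ha2 : ∃ c ∈ O₂, g a = g π * c) :
    ∃ (x' y' : Localization.AtPrime 𝔪) (K : ℕ),
      NodeData (Localization.AtPrime 𝔪) (vv g hg 𝔪 O₁ π) (vv g hg 𝔪 O₂ π) (PP g hg 𝔪 H₁)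
        (PP g hg 𝔪 H₂) (algebraMap B (Localization.AtPrime 𝔪) π) x' y' K ∧
      K ≤ vv g hg 𝔪 O₂ π (algebraMap B (Localization.AtPrime 𝔪) a) := by
  set A := Localization.AtPrime 𝔪 with hA
  set φ : B →+* A := algebraMap B A with hφ
  have Fr := frame g hg 𝔪 H₁ H₂ sat
  -- the maximal ideal
  have hmax : maximalIdeal A = Ideal.span {φ π, φ x, φ y} := by
    rw [← Localization.AtPrime.map_eq_maximalIdeal]
    apply le_antisymm
    · rw [Ideal.map_le_iff_le_comap]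
      intro b hb
      obtain ⟨d, hd, hdb⟩ := hgen b hb
      rw [Ideal.mem_comap]
      have h1 : φ (d * b) ∈ Ideal.map φ (Ideal.span {π, x, y}) := Ideal.mem_map_of_mem φ hdb
      rw [Ideal.map_span] at h1
      have himg : (φ '' {π, x, y} : Set A) = {φ π, φ x, φ y} := by
        simp [Set.image_insert_eq]
      rw [himg, map_mul] at h1
      obtain ⟨u, hu⟩ := (isUnit_algebraMap 𝔪 hd).exists_left_inv
      have : φ b = u * (φ d * φ b) := by rw [← mul_assoc, hu, one_mul]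
      rw [this]
      exact Ideal.mul_mem_left _ _ h1
    · rw [Ideal.span_le, Set.insert_subset_iff, Set.insert_subset_iff, Set.singleton_subset_iff]
      exact ⟨Ideal.mem_map_of_mem φ hπ𝔪, Ideal.mem_map_of_mem φ hx, Ideal.mem_map_of_mem φ hy⟩
  -- the relation
  have hrel : φ π ∣ φ x * φ y := by
    obtain ⟨d, hd, e, hde⟩ := hxy
    obtain ⟨u, hu⟩ := (isUnit_algebraMap 𝔪 hd).exists_left_inv
    refine ⟨u * φ e, ?_⟩
    have h1 : φ d * (φ x * φ y) = φ π * φ e := by rw [← map_mul, ← map_mul, hde, map_mul]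
    calc φ x * φ y = u * (φ d * (φ x * φ y)) := by rw [← mul_assoc, hu, one_mul]
      _ = φ π * (u * φ e) := by rw [h1]; ring
  -- incomparability
  have hmemφ : ∀ (O : ValuationSubring F) (H : BranchHyp g 𝔪 O π) (f : B),
      φ f ∈ PP g hg 𝔪 H ↔ ∃ c ∈ O, g f = g π * c := by
    intro O H f
    rw [mem_PP, iota_algebraMap]
  have hinc12 : ¬ PP g hg 𝔪 H₁ ≤ PP g hg 𝔪 H₂ := by
    obtain ⟨f, hf1, hf2⟩ := h12
    intro hle
    exact hf2 ((hmemφ O₂ H₂ f).1 (hle ((hmemφ O₁ H₁ f).2 hf1)))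
  have hinc21 : ¬ PP g hg 𝔪 H₂ ≤ PP g hg 𝔪 H₁ := by
    obtain ⟨f, hf2, hf1⟩ := h21
    intro hle
    exact hf1 ((hmemφ O₁ H₁ f).1 (hle ((hmemφ O₂ H₂ f).2 hf2)))
  -- the test element
  have hh : φ a * φ a' = φ π ^ m := by rw [← map_mul, haa, map_pow]
  have hh1 : φ a ∉ PP g hg 𝔪 H₁ := fun h => ha1 ((hmemφ O₁ H₁ a).1 h)
  have hφa0 : φ a ≠ 0 := fun h0 => hh1 (h0 ▸ (PP g hg 𝔪 H₁).zero_mem)
  have hh2 : 1 ≤ vv g hg 𝔪 O₂ π (φ a) :=
    (mem_PP_iff g hg 𝔪 H₂ (φ a) hφa0).1 ((hmemφ O₂ H₂ a).2 ha2)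
  rcases WeakCoords.exists_coords Fr hmax hrel hinc12 hinc21 with C | C
  · obtain ⟨x', y', K, hD, -, -, hK⟩ := Fr.exists_nodeData C hrel hh hh1 hh2
    exact ⟨x', y', K, hD, hK⟩
  · have hrel' : φ π ∣ φ y * φ x := by rwa [mul_comm]
    obtain ⟨x', y', K, hD, -, -, hK⟩ := Fr.exists_nodeData C hrel' hh hh1 hh2
    exact ⟨x', y', K, hD, hK⟩

end FrameSec

end Fermat.Agent.T1B.NodeNF37.Local
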