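/-
Programme T1B, brick F1c (helper37), part 1: a vertical test element makes the two vertical primes
INCOMPARABLE, so the incomparability hypotheses of `WeakCoords.exists_coords` / `Local.exists_nodeData` are
consequences of the test element.

* `Frame.not_le_of_vertical` : `h h' = π ^ m`, `h ∉ P₁`, `1 ≤ v₂ h` ⇒ `¬ P₁ ≤ P₂ ∧ ¬ P₂ ≤ P₁`
  (`h ∈ P₂ ∖ P₁`; `h' / π ^ (v₂ h')` lies in `P₁ ∖ P₂`);
* `Frame.exists_nodeData_of_vertical` : the frame + `𝔪 = (π, x, y)` + `π ∣ x y` + the test element ⇒ strong node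
  normal form (no incomparability hypothesis), together with the thickness divisibility
  `K ∣ v₂ f - v₁ f` for every vertical `f`.
-/
import Mathlib
import Fermat.Agent.T1B.NodeNF37.Abstract
import Fermat.Agent.T1B.NodeNF37.WeakCoords

set_option autoImplicit false
set_option linter.unusedSectionVars false
set_option linter.unusedVariables false

namespace Fermat.Agent.T1B.NodeNF37.Incomp

open IsLocalRing Fermat.Agent.T1B.NodeNF37.Abstract Fermat.Agent.T1.Peu37.NodeClassGroup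

variable {A : Type*} [CommRing A] [IsDomain A] [IsLocalRing A]
variable {v₁ v₂ : A → ℕ} {P₁ P₂ : Ideal A} {π : A}

/-- A vertical test element separates the two vertical primes in both directions. -/
theorem not_le_of_vertical (Fr : Frame A v₁ v₂ P₁ P₂ π) {h h' : A} {m : ℕ} (hh : h * h' = π ^ m)
    (h1 : h ∉ P₁) (h2 : 1 ≤ v₂ h) : ¬ P₁ ≤ P₂ ∧ ¬ P₂ ≤ P₁ := by
  have hpm : π ^ m ≠ 0 := pow_ne_zero m Fr.pi_ne
  have hh0 : h ≠ 0 := by
    rintro rfl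
    rw [zero_mul] at hh
    exact hpm hh.symm
  have hh'0 : h' ≠ 0 := by
    rintro rfl
    rw [mul_zero] at hh
    exact hpm hh.symm
  have e1 := Fr.v₁_mul h h' hh0 hh'0
  have e2 := Fr.v₂_mul h h' hh0 hh'0
  rw [hh, Fr.v₁_pow Fr.pi_ne, Fr.v₁_pi, mul_one] at e1
  rw [hh, Fr.symm.v₁_pow Fr.pi_ne, Fr.v₂_pi, mul_one] at e2
  have hv1 : v₁ h = 0 := Fr.v₁_eq_zero h1
  refine ⟨?_, fun hle => h1 (hle ((Fr.mem_P₂ h hh0).2 h2))⟩
  -- `h' = π ^ r * f`, `r = v₂ h'`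
  obtain ⟨f, hf⟩ := Fr.pow_dvd_of_le (v₂ h') h' hh'0 (by omega) le_rfl
  have hf0 : f ≠ 0 := by
    rintro rfl
    rw [mul_zero] at hf
    exact hh'0 hf
  have hpr : π ^ v₂ h' ≠ 0 := pow_ne_zero _ Fr.pi_ne
  have f1 := Fr.v₁_mul (π ^ v₂ h') f hpr hf0
  have f2 := Fr.v₂_mul (π ^ v₂ h') f hpr hf0
  rw [← hf, Fr.v₁_pow Fr.pi_ne, Fr.v₁_pi, mul_one] at f1
  rw [← hf, Fr.symm.v₁_pow Fr.pi_ne, Fr.v₂_pi, mul_one] at f2
  intro hle
  have hfP1 : f ∈ P₁ := (Fr.mem_P₁ f hf0).2 (by omega)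
  have := (Fr.mem_P₂ f hf0).1 (hle hfP1)
  omega

/-- **NODE-NF, frame form without incomparability hypotheses.** -/
theorem exists_nodeData_of_vertical [IsNoetherianRing A] (Fr : Frame A v₁ v₂ P₁ P₂ π) {x y : A}
    (hmax : maximalIdeal A = Ideal.span {π, x, y}) (hrel : π ∣ x * y)
    {h h' : A} {m : ℕ} (hh : h * h' = π ^ m) (h1 : h ∉ P₁) (h2 : 1 ≤ v₂ h) :
    ∃ (x' y' : A) (K : ℕ), NodeData A v₁ v₂ P₁ P₂ π x' y' K ∧ K ≤ v₂ h ∧
      ∀ {f f' : A} {n : ℕ}, f * f' = π ^ n → (K : ℤ) ∣ (v₂ f : ℤ) - v₁ f := by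
  obtain ⟨hinc12, hinc21⟩ := not_le_of_vertical Fr hh h1 h2
  rcases WeakCoords.exists_coords Fr hmax hrel hinc12 hinc21 with C | C
  · obtain ⟨x', y', K, hD, -, -, hK⟩ := Fr.exists_nodeData C hrel hh h1 h2
    exact ⟨x', y', K, hD, hK, fun hff => hD.dvd_sub hff⟩
  · have hrel' : π ∣ y * x := by rwa [mul_comm]
    obtain ⟨x', y', K, hD, -, -, hK⟩ := Fr.exists_nodeData C hrel' hh h1 h2
    exact ⟨x', y', K, hD, hK, fun hff => hD.dvd_sub hff⟩

end Fermat.Agent.T1B.NodeNF37.Incomp
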