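/-
Programme T1B, brick F1c (helper37), part 2: NODE-NF on the localisation `A = B_𝔪` of a chart `g : B ↪ F`, with the
vertical test element given IN THE FUNCTION FIELD `F` (regular at `𝔪`, not necessarily in the chart), and with NO
incomparability hypotheses (they follow from the test element, `Incomp.not_le_of_vertical`).

* `exists_lift`              : `h ∈ F` with `g d * h = g a`, `d ∉ 𝔪` is `iota ĥ` for some `ĥ ∈ B_𝔪`;
* `exists_nodeData_of_test`  : **(F1c)** `BranchHyp` on both branches + saturation + weak node coordinates of the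
  chart at `𝔪` (`NumData13.NodeCoords` form) + a vertical `h ∈ F` regular at `𝔪` (`h h' = ϖ ^ m`, `h ∉ ϖ O₁`,
  `h ∈ ϖ O₂`) ⇒ the strong node normal form `NodeData` on `B_𝔪`, of thickness `K ≤ ord₂ h`,
  `K ∣ ord₂ h - ord₁ h`, and `K ∣ v₂ f - v₁ f` for every vertical `f ∈ B_𝔪`.
-/
import Mathlib
import Fermat.Agent.T1B.NodeNF37.Local
import Fermat.Agent.T1B.NodeNF37.Incomp

set_option autoImplicit false
set_option linter.unusedSectionVars false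
set_option linter.unusedVariables false

namespace Fermat.Agent.T1B.NodeNF37.LocalF

open IsLocalRing Fermat.Agent.T1B.NodeNF37.Abstract Fermat.Agent.T1B.NodeNF37.UnifOrd
  Fermat.Agent.T1.Peu37.NodeClassGroup Fermat.Agent.T1B.NodeNF37.Local

variable {B F : Type*} [CommRing B] [IsDomain B] [Field F]
variable (g : B →+* F) (hg : Function.Injective g) (𝔪 : Ideal B) [h𝔪 : 𝔪.IsPrime]

/-- An element of `F` which is a fraction with denominator outside `𝔪` lies in (the image of) `B_𝔪`. -/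
theorem exists_lift {h : F} (hloc : ∃ d : B, d ∉ 𝔪 ∧ ∃ a : B, g d * h = g a) :
    ∃ ĥ : Localization.AtPrime 𝔪, iota g hg 𝔪 ĥ = h := by
  obtain ⟨d, hd, a, hda⟩ := hloc
  obtain ⟨u, hu⟩ := (isUnit_algebraMap 𝔪 hd).exists_left_inv
  refine ⟨algebraMap B _ a * u, ?_⟩
  have h1 : iota g hg 𝔪 u * g d = 1 := by
    have := congrArg (iota g hg 𝔪) hu
    rwa [map_mul, iota_algebraMap, map_one] at this
  rw [map_mul, iota_algebraMap, ← hda]
  calc g d * h * iota g hg 𝔪 u = (iota g hg 𝔪 u * g d) * h := by ring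
    _ = h := by rw [h1, one_mul]

variable {O₁ O₂ : ValuationSubring F} {π : B}

/-- **(F1c) NODE-NF on the localisation of a chart, test element in the function field.** -/
theorem exists_nodeData_of_test [IsNoetherianRing B] (H₁ : BranchHyp g 𝔪 O₁ π)
    (H₂ : BranchHyp g 𝔪 O₂ π)
    (sat : ∀ (b : B) (c : F), c ∈ O₁ → c ∈ O₂ → g b = g π * c → ∃ b' : B, g b' = c)
    (hπ𝔪 : π ∈ 𝔪) {x y : B} (hx : x ∈ 𝔪) (hy : y ∈ 𝔪)
    (hxy : ∃ d : B, d ∉ 𝔪 ∧ ∃ e : B, d * (x * y) = π * e)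
    (hgen : ∀ b ∈ 𝔪, ∃ d : B, d ∉ 𝔪 ∧ d * b ∈ Ideal.span {π, x, y})
    {h h' : F} {m : ℕ} (hh : h * h' = g π ^ m)
    (hloc : ∃ d : B, d ∉ 𝔪 ∧ ∃ a : B, g d * h = g a)
    (hloc' : ∃ d : B, d ∉ 𝔪 ∧ ∃ a : B, g d * h' = g a)
    (ha1 : ¬ ∃ c ∈ O₁, h = g π * c) (ha2 : ∃ c ∈ O₂, h = g π * c) :
    ∃ (x' y' : Localization.AtPrime 𝔪) (K : ℕ),
      NodeData (Localization.AtPrime 𝔪) (vv g hg 𝔪 O₁ π) (vv g hg 𝔪 O₂ π) (PP g hg 𝔪 H₁)
        (PP g hg 𝔪 H₂) (algebraMap B (Localization.AtPrime 𝔪) π) x' y' K ∧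
      K ≤ ord O₂ (g π) h ∧ (K : ℤ) ∣ (ord O₂ (g π) h : ℤ) - ord O₁ (g π) h ∧
      ∀ {f f' : Localization.AtPrime 𝔪} {n : ℕ},
        f * f' = algebraMap B (Localization.AtPrime 𝔪) π ^ n →
          (K : ℤ) ∣ (vv g hg 𝔪 O₂ π f : ℤ) - vv g hg 𝔪 O₁ π f := by
  set A := Localization.AtPrime 𝔪 with hA
  set φ : B →+* A := algebraMap B A with hφ
  have Fr := frame g hg 𝔪 H₁ H₂ sat
  -- the maximal ideal
  have hmax : maximalIdeal A = Ideal.span {φ π, φ x, φ y} := by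
    rw [← Localization.AtPrime.map_eq_maximalIdeal]
    apply le_antisymm
    · rw [Ideal.map_le_iff_le_comap]
      intro b hb
      obtain ⟨d, hd, hdb⟩ := hgen b hb
      rw [Ideal.mem_comap]
      have h1 : φ (d * b) ∈ Ideal.map φ (Ideal.span {π, x, y}) := Ideal.mem_map_of_mem φ hdb
      rw [Ideal.map_span] at h1
      have himg : (φ '' {π, x, y} : Set A) = {φ π, φ x, φ y} := by
        simp [Set.image_insert_eq]
      rw [himg, map_mul] at h1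
      obtain ⟨u, hu⟩ := (isUnit_algebraMap 𝔪 hd).exists_left_inv
      have : φ b = u * (φ d * φ b) := by rw [← mul_assoc, hu, one_mul]
      rw [this]
      exact Ideal.mul_mem_left _ _ h1
    · rw [Ideal.span_le, Set.insert_subset_iff, Set.insert_subset_iff, Set.singleton_subset_iff]
      exact ⟨Ideal.mem_map_of_mem φ hπ𝔪, Ideal.mem_map_of_mem φ hx, Ideal.mem_map_of_mem φ hy⟩
  -- the relation
  have hrel : φ π ∣ φ x * φ y := by
    obtain ⟨d, hd, e, hde⟩ := hxy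
    obtain ⟨u, hu⟩ := (isUnit_algebraMap 𝔪 hd).exists_left_inv
    refine ⟨u * φ e, ?_⟩
    have h1 : φ d * (φ x * φ y) = φ π * φ e := by rw [← map_mul, ← map_mul, hde, map_mul]
    calc φ x * φ y = u * (φ d * (φ x * φ y)) := by rw [← mul_assoc, hu, one_mul]
      _ = φ π * (u * φ e) := by rw [h1]; ring
  -- the test element
  obtain ⟨ĥ, hĥ⟩ := exists_lift g hg 𝔪 hloc
  obtain ⟨ĥ', hĥ'⟩ := exists_lift g hg 𝔪 hloc'
  have hhA : ĥ * ĥ' = φ π ^ m := by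
    apply iota_injective g hg 𝔪
    rw [map_mul, hĥ, hĥ', map_pow, iota_algebraMap, hh]
  have hh1 : ĥ ∉ PP g hg 𝔪 H₁ := by
    intro hmem
    obtain ⟨c, hc, hcc⟩ := (mem_PP g hg 𝔪 H₁ ĥ).1 hmem
    exact ha1 ⟨c, hc, hĥ ▸ hcc⟩
  have hĥ0 : ĥ ≠ 0 := fun h0 => hh1 (h0 ▸ (PP g hg 𝔪 H₁).zero_mem)
  have hh2 : 1 ≤ vv g hg 𝔪 O₂ π ĥ := by
    refine (mem_PP_iff g hg 𝔪 H₂ ĥ hĥ0).1 ((mem_PP g hg 𝔪 H₂ ĥ).2 ?_)
    obtain ⟨c, hc, hcc⟩ := ha2
    exact ⟨c, hc, hĥ.trans hcc⟩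
  obtain ⟨x', y', K, hD, hK, hdiv⟩ := Incomp.exists_nodeData_of_vertical Fr hmax hrel hhA hh1 hh2
  have e2 : vv g hg 𝔪 O₂ π ĥ = ord O₂ (g π) h := by unfold vv; rw [hĥ]
  have e1 : vv g hg 𝔪 O₁ π ĥ = ord O₁ (g π) h := by unfold vv; rw [hĥ]
  refine ⟨x', y', K, hD, e2 ▸ hK, ?_, fun hff => hdiv hff⟩
  have := hdiv hhA
  rwa [e1, e2] at this

end Fermat.Agent.T1B.NodeNF37.LocalF
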