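/-
Programme T1B, brick F1c (helper37), part 3: NODE-NF for the nodal two-chart model of `ES/N34`
(`NodalCore13.NodalTwoChartModel`, `NumData13.NodalNumData`, `NumData13.NodeCoords`, `NodalCore13.OffBranch`).

For a chart `B : Subalgebra R F` (`B0` or `B1`) and a maximal ideal `𝔪 ∋ π` through which BOTH branches pass
(`¬ OffBranch π B O1 𝔪`, `¬ OffBranch π B O2 𝔪`), and a vertical test element `h ∈ F` regular at `𝔪`
(`h h' = π ^ m`, `h ∉ π O1`, `h ∈ π O2`; e.g. `h = Δ(z)/Δ(pz)`), the local ring `B_𝔪` carries the STRONG node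
normal form `NodeClassGroup.NodeData`:  `𝔪 B_𝔪 = (π, x', y')`, `x' y' = π ^ K · unit`, with
`K ≤ ord₂ h`, `K ∣ ord₂ h - ord₁ h`.

* `gB B`                  : the inclusion `B →+* F`;
* `branchHyp`             : `Local.BranchHyp` from the elementary fields of the model;
* `chart_exists_nodeData` : one chart, elementary hypotheses;
* `NodalNumData.exists_nodeData0/1` : the two charts of a `NodalNumData`.
-/
import Mathlib
import Fermat.Agent.ES.N34.NumData13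
import Fermat.Agent.T1B.NodeNF37.LocalF

set_option autoImplicit false
set_option linter.unusedSectionVars false
set_option linter.unusedVariables false

namespace Fermat.Agent.T1B.NodeNF37.N34Inst

open IsLocalRing Fermat.Agent.T1B.NodeNF37.Abstract Fermat.Agent.T1B.NodeNF37.UnifOrd
  Fermat.Agent.T1.Peu37.NodeClassGroup Fermat.Agent.T1B.NodeNF37.Local
  Fermat.Agent.ES.N34.NodalCore13 Fermat.Agent.ES.N34.NumData13

variable {R F : Type*} [CommRing R] [Field F] [Algebra R F]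

/-- The inclusion of a chart in the function field. -/
def gB (B : Subalgebra R F) : B →+* F := algebraMap B F

theorem gB_apply (B : Subalgebra R F) (b : B) : gB B b = (b : F) := rfl

theorem gB_pi (B : Subalgebra R F) (π : R) : gB B (algebraMap R B π) = algebraMap R F π := rfl

theorem gB_injective (B : Subalgebra R F) : Function.Injective (gB B) := fun a b h =>
  Subtype.ext h

/-- One branch of the model passing through `𝔪` gives a `BranchHyp`. -/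
theorem branchHyp (π : R) (B : Subalgebra R F) (O : ValuationSubring F)
    (le : ∀ x ∈ B, x ∈ O) (pi_ne : algebraMap R F π ≠ 0) (pi_nonunit : (algebraMap R F π)⁻¹ ∉ O)
    (unif : ∀ x ∈ O, x⁻¹ ∉ O → ∃ c ∈ O, x = algebraMap R F π * c)
    (arch : ∀ x : F, ∃ k : ℕ, algebraMap R F π ^ k * x ∈ O)
    (𝔪 : Ideal B) (hon : ¬ OffBranch π B O 𝔪) :
    BranchHyp (gB B) 𝔪 O (algebraMap R B π) where
  le := fun b => le _ b.2
  unif := ⟨pi_ne, pi_nonunit, unif, arch⟩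
  on := fun e he hc => hon ⟨e, he, hc⟩

/-- **(F1c) NODE-NF on one chart of a nodal model (elementary hypotheses).** -/
theorem chart_exists_nodeData (π : R) (B : Subalgebra R F) (O1 O2 : ValuationSubring F)
    [IsNoetherianRing B]
    (le1 : ∀ x ∈ B, x ∈ O1) (le2 : ∀ x ∈ B, x ∈ O2) (pi_ne : algebraMap R F π ≠ 0)
    (pi_nonunit1 : (algebraMap R F π)⁻¹ ∉ O1) (pi_nonunit2 : (algebraMap R F π)⁻¹ ∉ O2)
    (unif1 : ∀ x ∈ O1, x⁻¹ ∉ O1 → ∃ c ∈ O1, x = algebraMap R F π * c)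
    (unif2 : ∀ x ∈ O2, x⁻¹ ∉ O2 → ∃ c ∈ O2, x = algebraMap R F π * c)
    (arch1 : ∀ x : F, ∃ k : ℕ, algebraMap R F π ^ k * x ∈ O1)
    (arch2 : ∀ x : F, ∃ k : ℕ, algebraMap R F π ^ k * x ∈ O2)
    (sat : ∀ b ∈ B, ∀ c : F, c ∈ O1 → c ∈ O2 → b = algebraMap R F π * c → c ∈ B)
    (𝔪 : Ideal B) [h𝔪 : 𝔪.IsPrime] (hπ𝔪 : algebraMap R B π ∈ 𝔪)
    (hon1 : ¬ OffBranch π B O1 𝔪) (hon2 : ¬ OffBranch π B O2 𝔪) (hN : NodeCoords π B 𝔪)
    {h h' : F} {m : ℕ} (hh : h * h' = algebraMap R F π ^ m)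
    (hloc : ∃ d : B, d ∉ 𝔪 ∧ ∃ a : B, (d : F) * h = (a : F))
    (hloc' : ∃ d : B, d ∉ 𝔪 ∧ ∃ a : B, (d : F) * h' = (a : F))
    (ha1 : ¬ ∃ c ∈ O1, h = algebraMap R F π * c) (ha2 : ∃ c ∈ O2, h = algebraMap R F π * c) :
    ∃ (H₁ : BranchHyp (gB B) 𝔪 O1 (algebraMap R B π))
      (H₂ : BranchHyp (gB B) 𝔪 O2 (algebraMap R B π))
      (x' y' : Localization.AtPrime 𝔪) (K : ℕ),
      NodeData (Localization.AtPrime 𝔪) (vv (gB B) (gB_injective B) 𝔪 O1 (algebraMap R B π))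
        (vv (gB B) (gB_injective B) 𝔪 O2 (algebraMap R B π)) (PP (gB B) (gB_injective B) 𝔪 H₁)
        (PP (gB B) (gB_injective B) 𝔪 H₂)
        (algebraMap B (Localization.AtPrime 𝔪) (algebraMap R B π)) x' y' K ∧
      K ≤ ord O2 (algebraMap R F π) h ∧
      (K : ℤ) ∣ (ord O2 (algebraMap R F π) h : ℤ) - ord O1 (algebraMap R F π) h := by
  have H₁ := branchHyp π B O1 le1 pi_ne pi_nonunit1 unif1 arch1 𝔪 hon1
  have H₂ := branchHyp π B O2 le2 pi_ne pi_nonunit2 unif2 arch2 𝔪 hon2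
  obtain ⟨x, y, hx, hy, hxy, hgen⟩ := hN
  have sat' : ∀ (b : B) (c : F), c ∈ O1 → c ∈ O2 →
      gB B b = gB B (algebraMap R B π) * c → ∃ b' : B, gB B b' = c :=
    fun b c hc1 hc2 hbc => ⟨⟨c, sat b b.2 c hc1 hc2 hbc⟩, rfl⟩
  obtain ⟨x', y', K, hD, hK, hdiv, -⟩ :=
    LocalF.exists_nodeData_of_test (gB B) (gB_injective B) 𝔪 H₁ H₂ sat' hπ𝔪 hx hy hxy hgen
      (h := h) (h' := h') (m := m) hh hloc hloc' ha1 ha2
  exact ⟨H₁, H₂, x', y', K, hD, hK, hdiv⟩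

section NumData

variable {K : Type*} [Field K] [Algebra R K] [Algebra K F] [IsScalarTower R K F]

/-- **(F1c) NODE-NF at the nodes of chart `B0` of a `NodalNumData`.** -/
theorem exists_nodeData0 {π : R} {t : F} {B0 B1 : Subalgebra R F} {O1 O2 : ValuationSubring F}
    (D : NodalNumData R K F π t B0 B1 O1 O2)
    (𝔪 : Ideal B0) [h𝔪 : 𝔪.IsMaximal] (hπ𝔪 : algebraMap R B0 π ∈ 𝔪)
    (hon1 : ¬ OffBranch π B0 O1 𝔪) (hon2 : ¬ OffBranch π B0 O2 𝔪)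
    {h h' : F} {m : ℕ} (hh : h * h' = algebraMap R F π ^ m)
    (hloc : ∃ d : B0, d ∉ 𝔪 ∧ ∃ a : B0, (d : F) * h = (a : F))
    (hloc' : ∃ d : B0, d ∉ 𝔪 ∧ ∃ a : B0, (d : F) * h' = (a : F))
    (ha1 : ¬ ∃ c ∈ O1, h = algebraMap R F π * c) (ha2 : ∃ c ∈ O2, h = algebraMap R F π * c) :
    ∃ (H₁ : BranchHyp (gB B0) 𝔪 O1 (algebraMap R B0 π))
      (H₂ : BranchHyp (gB B0) 𝔪 O2 (algebraMap R B0 π))
      (x' y' : Localization.AtPrime 𝔪) (k : ℕ),
      NodeData (Localization.AtPrime 𝔪) (vv (gB B0) (gB_injective B0) 𝔪 O1 (algebraMap R B0 π))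
        (vv (gB B0) (gB_injective B0) 𝔪 O2 (algebraMap R B0 π))
        (PP (gB B0) (gB_injective B0) 𝔪 H₁) (PP (gB B0) (gB_injective B0) 𝔪 H₂)
        (algebraMap B0 (Localization.AtPrime 𝔪) (algebraMap R B0 π)) x' y' k ∧
      k ≤ ord O2 (algebraMap R F π) h ∧
      (k : ℤ) ∣ (ord O2 (algebraMap R F π) h : ℤ) - ord O1 (algebraMap R F π) h := by
  have := D.noeth0
  exact chart_exists_nodeData π B0 O1 O2 D.model.le_O1_0 D.model.le_O2_0 D.model.pi_ne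
    D.model.pi_nonunit1 D.model.pi_nonunit2 D.model.unif1 D.model.unif2 D.model.arch1
    D.model.arch2 D.model.sat0 𝔪 hπ𝔪 hon1 hon2 (D.node0 𝔪 h𝔪 hπ𝔪 hon1 hon2) hh hloc hloc' ha1 ha2

/-- **(F1c) NODE-NF at the nodes of chart `B1` of a `NodalNumData`.** -/
theorem exists_nodeData1 {π : R} {t : F} {B0 B1 : Subalgebra R F} {O1 O2 : ValuationSubring F}
    (D : NodalNumData R K F π t B0 B1 O1 O2)
    (𝔪 : Ideal B1) [h𝔪 : 𝔪.IsMaximal] (hπ𝔪 : algebraMap R B1 π ∈ 𝔪)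
    (hon1 : ¬ OffBranch π B1 O1 𝔪) (hon2 : ¬ OffBranch π B1 O2 𝔪)
    {h h' : F} {m : ℕ} (hh : h * h' = algebraMap R F π ^ m)
    (hloc : ∃ d : B1, d ∉ 𝔪 ∧ ∃ a : B1, (d : F) * h = (a : F))
    (hloc' : ∃ d : B1, d ∉ 𝔪 ∧ ∃ a : B1, (d : F) * h' = (a : F))
    (ha1 : ¬ ∃ c ∈ O1, h = algebraMap R F π * c) (ha2 : ∃ c ∈ O2, h = algebraMap R F π * c) :
    ∃ (H₁ : BranchHyp (gB B1) 𝔪 O1 (algebraMap R B1 π))
      (H₂ : BranchHyp (gB B1) 𝔪 O2 (algebraMap R B1 π))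
      (x' y' : Localization.AtPrime 𝔪) (k : ℕ),
      NodeData (Localization.AtPrime 𝔪) (vv (gB B1) (gB_injective B1) 𝔪 O1 (algebraMap R B1 π))
        (vv (gB B1) (gB_injective B1) 𝔪 O2 (algebraMap R B1 π))
        (PP (gB B1) (gB_injective B1) 𝔪 H₁) (PP (gB B1) (gB_injective B1) 𝔪 H₂)
        (algebraMap B1 (Localization.AtPrime 𝔪) (algebraMap R B1 π)) x' y' k ∧
      k ≤ ord O2 (algebraMap R F π) h ∧
      (k : ℤ) ∣ (ord O2 (algebraMap R F π) h : ℤ) - ord O1 (algebraMap R F π) h := by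
  have := D.noeth1
  exact chart_exists_nodeData π B1 O1 O2 D.model.le_O1_1 D.model.le_O2_1 D.model.pi_ne
    D.model.pi_nonunit1 D.model.pi_nonunit2 D.model.unif1 D.model.unif2 D.model.arch1
    D.model.arch2 D.model.sat1 𝔪 hπ𝔪 hon1 hon2 (D.node1 𝔪 h𝔪 hπ𝔪 hon1 hon2) hh hloc hloc' ha1 ha2

end NumData

end Fermat.Agent.T1B.NodeNF37.N34Inst
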