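/-
T1B (helper37): EQUAL RESIDUE FIELDS over the inertia field.

`A : ValuationSubring ℚ̄` over `ℓ`, `L` a finite normal subfield of `ℚ̄`, `K` a finite subfield
containing every element of `L` fixed by the inertia group `I_A` (e.g.
`K = ES.P36.InertField27.inertiaPart A L`).  Then every `x ∈ A ∩ L` is congruent modulo the maximal
ideal of `A` to some `r ∈ A ∩ K` (`exists_sub_mem_nonunits`).

Proof: `f = ∏_{g ∈ I_A|_L} (T - g x)` has coefficients in `A ∩ L^{I} ⊆ A ∩ K` and reduces to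
`(T - x̄)^n` because inertia acts trivially on the residue field; the residue field `κ_K` of `A ∩ K` is
finite, hence perfect, so the minimal polynomial of `x̄` over `κ_K` is separable and divides
`(T - x̄)^n`: it is `T - x̄`.

This is the hypothesis `hres` of `TransferBC.nodeData_baseChange` for the pair
(inertia field of `L`, `L`).
-/
import Mathlib
import Fermat.Agent.ES.RED.GaloisRed21
import Fermat.Agent.RED.DESC.NumberFieldDVR27
import Fermat.Agent.T1.HubInst98.Incl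
import Fermat.Agent.ES.P36.InertField27

set_option autoImplicit false
set_option linter.unusedSectionVars false
set_option linter.style.haveILetI false

noncomputable section

namespace Fermat.Agent.T1B.NodeNF37.ResEq

open Polynomial IsLocalRing Fermat.Agent.RED.Interface4 Fermat.Agent.ES.RED.GaloisRed21
  Fermat.Agent.RED.DESC.NumberFieldDVR27

variable (A : ValuationSubring Qbar)

/-! ### inertia acts trivially on the residue field -/

theorem inertia_mem {τ : Qbar ≃ₐ[ℚ] Qbar} (hτ : τ ∈ A.inertiaSubgroupIn ℚ) {a : Qbar}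
    (ha : a ∈ A) : τ a ∈ A := by
  obtain ⟨h, -⟩ := psiRes_eq_one_of_mem_inertia A hτ
  exact (sigmaA A ⟨τ, h⟩ ⟨a, ha⟩).2

theorem inertia_residue {τ : Qbar ≃ₐ[ℚ] Qbar} (hτ : τ ∈ A.inertiaSubgroupIn ℚ) {a : Qbar}
    (ha : a ∈ A) :
    residue ↥A ⟨τ a, inertia_mem A hτ ha⟩ = residue ↥A ⟨a, ha⟩ := by
  obtain ⟨h, hpsi⟩ := psiRes_eq_one_of_mem_inertia A hτ
  have h1 := psiRes_residue A ⟨τ, h⟩ ⟨a, ha⟩
  rw [hpsi] at h1
  exact h1.symm

/-! ### the image of inertia in `Gal(L/ℚ)` -/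

variable (L : IntermediateField ℚ Qbar) [Normal ℚ ↥L]

/-- the image of the inertia group of `A` in `Gal(L/ℚ)`. -/
def inertiaL : Subgroup (↥L ≃ₐ[ℚ] ↥L) :=
  (A.inertiaSubgroupIn ℚ).map (AlgEquiv.restrictNormalHom ↥L)

theorem restrict_mem_inertiaL {τ : Qbar ≃ₐ[ℚ] Qbar} (hτ : τ ∈ A.inertiaSubgroupIn ℚ) :
    AlgEquiv.restrictNormalHom ↥L τ ∈ inertiaL A L :=
  Subgroup.mem_map_of_mem _ hτ

theorem coe_restrict (τ : Qbar ≃ₐ[ℚ] Qbar) (y : ↥L) :
    ((AlgEquiv.restrictNormalHom ↥L τ y : ↥L) : Qbar) = τ (y : Qbar) :=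
  AlgEquiv.restrictNormal_commutes τ ↥L y

theorem exists_inertia_of_mem {g : ↥L ≃ₐ[ℚ] ↥L} (hg : g ∈ inertiaL A L) (y : ↥L) :
    ∃ τ ∈ A.inertiaSubgroupIn ℚ, ((g y : ↥L) : Qbar) = τ (y : Qbar) := by
  obtain ⟨τ, hτ, rfl⟩ := hg
  exact ⟨τ, hτ, coe_restrict L τ y⟩

theorem inertiaL_mem {g : ↥L ≃ₐ[ℚ] ↥L} (hg : g ∈ inertiaL A L) {y : ↥L} (hy : (y : Qbar) ∈ A) :
    ((g y : ↥L) : Qbar) ∈ A := by
  obtain ⟨τ, hτ, h⟩ := exists_inertia_of_mem A L hg y
  rw [h]
  exact inertia_mem A hτ hy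

theorem inertiaL_residue {g : ↥L ≃ₐ[ℚ] ↥L} (hg : g ∈ inertiaL A L) {y : ↥L}
    (hy : (y : Qbar) ∈ A) :
    residue ↥A ⟨((g y : ↥L) : Qbar), inertiaL_mem A L hg hy⟩ = residue ↥A ⟨(y : Qbar), hy⟩ := by
  obtain ⟨τ, hτ, h⟩ := exists_inertia_of_mem A L hg y
  have h1 := inertia_residue A hτ hy
  rw [← h1]
  congr 1
  exact Subtype.ext h

/-! ### the inertia-orbit polynomial -/

variable [FiniteDimensional ℚ ↥L]

instance : Finite (↥L ≃ₐ[ℚ] ↥L) := inferInstance

instance : Fintype ↥(inertiaL A L) := Fintype.ofFinite _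

/-- `∏_{g ∈ I|_L} (T - g y)` over `L`. -/
def orbitPolyL (y : ↥L) : (↥L)[X] := ∏ g : ↥(inertiaL A L), (X - C ((g : ↥L ≃ₐ[ℚ] ↥L) y))

/-- `∏_{g ∈ I|_L} (T - g y)` over `A`. -/
def orbitPolyA (y : ↥L) (hy : (y : Qbar) ∈ A) : (↥A)[X] :=
  ∏ g : ↥(inertiaL A L), (X - C (⟨(((g : ↥L ≃ₐ[ℚ] ↥L) y : ↥L) : Qbar),
    inertiaL_mem A L g.2 hy⟩ : ↥A))

theorem orbitPolyA_monic (y : ↥L) (hy : (y : Qbar) ∈ A) : (orbitPolyA A L y hy).Monic :=
  monic_prod_of_monic _ _ (fun _ _ => monic_X_sub_C _)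

theorem orbitPolyL_map (y : ↥L) {h : ↥L ≃ₐ[ℚ] ↥L} (hh : h ∈ inertiaL A L) :
    (orbitPolyL A L y).map (h : ↥L →+* ↥L) = orbitPolyL A L y := by
  unfold orbitPolyL
  rw [Polynomial.map_prod]
  refine Fintype.prod_equiv (Equiv.mulLeft (⟨h, hh⟩ : ↥(inertiaL A L))) _ _ (fun g => ?_)
  rw [Polynomial.map_sub, Polynomial.map_X, Polynomial.map_C]
  rfl

theorem orbitPolyL_coeff_fixed (y : ↥L) {h : ↥L ≃ₐ[ℚ] ↥L} (hh : h ∈ inertiaL A L) (i : ℕ) :
    h ((orbitPolyL A L y).coeff i) = (orbitPolyL A L y).coeff i := by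
  conv_rhs => rw [← orbitPolyL_map A L y hh]
  rw [Polynomial.coeff_map]
  rfl

theorem orbitPolyA_map_subtype (y : ↥L) (hy : (y : Qbar) ∈ A) :
    (orbitPolyA A L y hy).map A.subtype = (orbitPolyL A L y).map (algebraMap ↥L Qbar) := by
  unfold orbitPolyA orbitPolyL
  rw [Polynomial.map_prod, Polynomial.map_prod]
  refine Finset.prod_congr rfl (fun g _ => ?_)
  rw [Polynomial.map_sub, Polynomial.map_X, Polynomial.map_C, Polynomial.map_sub, Polynomial.map_X,
    Polynomial.map_C]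
  rfl

theorem coe_orbitPolyA_coeff (y : ↥L) (hy : (y : Qbar) ∈ A) (i : ℕ) :
    (((orbitPolyA A L y hy).coeff i : ↥A) : Qbar) = (((orbitPolyL A L y).coeff i : ↥L) : Qbar) := by
  have h := congrArg (fun p => Polynomial.coeff p i) (orbitPolyA_map_subtype A L y hy)
  simp only [Polynomial.coeff_map] at h
  exact h

theorem orbitPolyA_map_residue (y : ↥L) (hy : (y : Qbar) ∈ A) :
    (orbitPolyA A L y hy).map (residue ↥A) =
      (X - C (residue ↥A ⟨(y : Qbar), hy⟩)) ^ Fintype.card ↥(inertiaL A L) := by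
  unfold orbitPolyA
  rw [Polynomial.map_prod]
  rw [← Finset.card_univ, ← Finset.prod_const]
  refine Finset.prod_congr rfl (fun g _ => ?_)
  rw [Polynomial.map_sub, Polynomial.map_X, Polynomial.map_C, inertiaL_residue A L g.2 hy]

/-- the coefficients of the orbit polynomial are fixed by inertia. -/
theorem inertia_fixes_coeff (y : ↥L) (i : ℕ) {τ : Qbar ≃ₐ[ℚ] Qbar}
    (hτ : τ ∈ A.inertiaSubgroupIn ℚ) :
    τ (((orbitPolyL A L y).coeff i : ↥L) : Qbar) = (((orbitPolyL A L y).coeff i : ↥L) : Qbar) := by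
  rw [← coe_restrict L τ, orbitPolyL_coeff_fixed A L y (restrict_mem_inertiaL A L hτ)]

/-! ### main theorem -/

variable {ℓ : ℕ} (K : IntermediateField ℚ Qbar) [FiniteDimensional ℚ ↥K]

/-- **Equal residue fields.**  If `K` contains the inertia-fixed elements of the finite normal `L`,
then every element of `A ∩ L` is congruent mod `𝔪_A` to an element of `A ∩ K`. -/
theorem exists_sub_mem_nonunits (hℓ : ℓ ≠ 0) (hA : A.LiesOverPrime ℓ)
    (hKfix : ∀ y ∈ L, (∀ τ ∈ A.inertiaSubgroupIn ℚ, τ y = y) → y ∈ K)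
    {x : Qbar} (hxL : x ∈ L) (hxA : x ∈ A) :
    ∃ r : ↥(AK A K), (⟨x, hxA⟩ : ↥A) - incl A K r ∈ IsLocalRing.maximalIdeal ↥A := by
  classical
  set y : ↥L := ⟨x, hxL⟩ with hy
  have hyA : (y : Qbar) ∈ A := hxA
  set fA := orbitPolyA A L y hyA with hfA
  -- the coefficients lie in `A ∩ K`
  have hlift : fA ∈ Polynomial.lifts (incl A K) := by
    rw [Polynomial.lifts_iff_coeff_lifts]
    intro i
    have hK : (((orbitPolyL A L y).coeff i : ↥L) : Qbar) ∈ K :=
      hKfix _ ((orbitPolyL A L y).coeff i).2 (fun τ hτ => inertia_fixes_coeff A L y i hτ)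
    have hAm : (((orbitPolyL A L y).coeff i : ↥L) : Qbar) ∈ A := by
      rw [← coe_orbitPolyA_coeff A L y hyA i]
      exact ((orbitPolyA A L y hyA).coeff i).2
    refine ⟨⟨⟨_, hK⟩, (mem_AK_iff A K _).2 hAm⟩, ?_⟩
    apply Subtype.ext
    rw [coe_incl]
    exact (coe_orbitPolyA_coeff A L y hyA i).symm
  obtain ⟨fK, hfK, -, hfKm⟩ :=
    Polynomial.lifts_and_degree_eq_and_monic hlift (orbitPolyA_monic A L y hyA)
  -- residue level
  haveI : Finite (ResidueField ↥(AK A K)) := finite_residueField_AK A K hℓ hA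
  letI : Algebra (ResidueField ↥(AK A K)) (ResidueField ↥A) := (resMap A K).toAlgebra
  have halg : algebraMap (ResidueField ↥(AK A K)) (ResidueField ↥A) = resMap A K := rfl
  set xb : ResidueField ↥A := residue ↥A ⟨x, hxA⟩ with hxb
  set n := Fintype.card ↥(inertiaL A L) with hn
  have hn0 : n ≠ 0 := Fintype.card_ne_zero
  set gK : (ResidueField ↥(AK A K))[X] := fK.map (residue ↥(AK A K)) with hgK
  have hgKm : gK.Monic := hfKm.map _
  have hmap : gK.map (algebraMap (ResidueField ↥(AK A K)) (ResidueField ↥A)) = (X - C xb) ^ n := by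
    rw [halg, hgK, Polynomial.map_map]
    have hcomp : (resMap A K).comp (residue ↥(AK A K)) = (residue ↥A).comp (incl A K) :=
      IsLocalRing.ResidueField.map_comp_residue (incl A K)
    rw [hcomp, ← Polynomial.map_map, hfK]
    exact orbitPolyA_map_residue A L y hyA
  have hroot : Polynomial.aeval xb gK = 0 := by
    rw [Polynomial.aeval_def, Polynomial.eval₂_eq_eval_map, hmap, Polynomial.eval_pow,
      Polynomial.eval_sub, Polynomial.eval_X, Polynomial.eval_C, sub_self, zero_pow hn0]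
  have hint : IsIntegral (ResidueField ↥(AK A K)) xb := ⟨gK, hgKm, hroot⟩
  have hdvd : minpoly (ResidueField ↥(AK A K)) xb ∣ gK := minpoly.dvd _ _ hroot
  have hsep : (minpoly (ResidueField ↥(AK A K)) xb).Separable :=
    PerfectField.separable_of_irreducible (minpoly.irreducible hint)
  set μ := (minpoly (ResidueField ↥(AK A K)) xb).map
    (algebraMap (ResidueField ↥(AK A K)) (ResidueField ↥A)) with hμ
  have hμsq : Squarefree μ := (hsep.map).squarefree
  have hμdvd : μ ∣ (X - C xb) ^ n := by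
    rw [← hmap]
    exact Polynomial.map_dvd _ hdvd
  have hμdvd1 : μ ∣ X - C xb :=
    (hμsq.dvd_pow_iff_dvd hn0).1 hμdvd
  have hdeg : (minpoly (ResidueField ↥(AK A K)) xb).degree = 1 := by
    have h1 : μ.degree ≤ 1 := by
      have := Polynomial.degree_le_of_dvd hμdvd1 (Polynomial.X_sub_C_ne_zero xb)
      rwa [Polynomial.degree_X_sub_C] at this
    have h2 : μ.degree = (minpoly (ResidueField ↥(AK A K)) xb).degree := Polynomial.degree_map _ _
    have h3 : 0 < (minpoly (ResidueField ↥(AK A K)) xb).degree := minpoly.degree_pos hint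
    rw [h2] at h1
    have hne : minpoly (ResidueField ↥(AK A K)) xb ≠ 0 := minpoly.ne_zero hint
    have h5 : (minpoly (ResidueField ↥(AK A K)) xb).natDegree = 1 :=
      le_antisymm (Polynomial.natDegree_le_of_degree_le h1)
        (Polynomial.natDegree_pos_iff_degree_pos.2 h3)
    rw [Polynomial.degree_eq_natDegree hne, h5]; rfl
  obtain ⟨rb, hrb⟩ := minpoly.mem_range_of_degree_eq_one _ _ hdeg
  obtain ⟨r, rfl⟩ := residue_surjective rb
  refine ⟨r, ?_⟩
  rw [← IsLocalRing.residue_eq_zero_iff, map_sub, sub_eq_zero, ← resMap_residue, ← halg]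
  exact hrb.symm

/-- **`hres` of `TransferBC.nodeData_baseChange`**: `A ∩ L = (A ∩ K) + π' (A ∩ L)`. -/
theorem exists_eq_inclAK_add (hℓ : ℓ ≠ 0) (hA : A.LiesOverPrime ℓ) (h : K ≤ L)
    (hKfix : ∀ y ∈ L, (∀ τ ∈ A.inertiaSubgroupIn ℚ, τ y = y) → y ∈ K)
    {π' : ↥(AK A L)} (hmax : IsLocalRing.maximalIdeal ↥(AK A L) = Ideal.span {π'})
    (r' : ↥(AK A L)) :
    ∃ r : ↥(AK A K), ∃ s : ↥(AK A L), r' = Fermat.Agent.T1.HubInst98.inclAK A h r + π' * s := by
  have hxA : (((r' : ↥L) : Qbar)) ∈ A := (mem_AK_iff A L _).1 r'.2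
  obtain ⟨r, hr⟩ := exists_sub_mem_nonunits A L K hℓ hA hKfix (r' : ↥L).2 hxA
  have hmem : r' - Fermat.Agent.T1.HubInst98.inclAK A h r ∈ IsLocalRing.maximalIdeal ↥(AK A L) := by
    rw [mem_maximalIdeal_iff A L]
    have : incl A L (r' - Fermat.Agent.T1.HubInst98.inclAK A h r) =
        (⟨((r' : ↥L) : Qbar), hxA⟩ : ↥A) - incl A K r := by
      apply Subtype.ext
      rfl
    rw [this]
    exact hr
  rw [hmax, Ideal.mem_span_singleton'] at hmem
  obtain ⟨s, hs⟩ := hmem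
  refine ⟨r, s, ?_⟩
  rw [mul_comm, hs]
  ring

/-- the same for `K = inertiaPart A L`. -/
theorem exists_eq_inclAK_add_inertiaPart (hℓ : ℓ ≠ 0) (hA : A.LiesOverPrime ℓ)
    {π' : ↥(AK A L)} (hmax : IsLocalRing.maximalIdeal ↥(AK A L) = Ideal.span {π'})
    (r' : ↥(AK A L)) :
    haveI : FiniteDimensional ℚ ↥(Fermat.Agent.ES.P36.InertField27.inertiaPart A L) :=
      Fermat.Agent.ES.P36.InertField27.finiteDimensional_of_le
        (Fermat.Agent.ES.P36.InertField27.inertiaPart_le L)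
    ∃ r : ↥(AK A (Fermat.Agent.ES.P36.InertField27.inertiaPart A L)), ∃ s : ↥(AK A L),
      r' = Fermat.Agent.T1.HubInst98.inclAK A
        (Fermat.Agent.ES.P36.InertField27.inertiaPart_le L) r + π' * s := by
  haveI : FiniteDimensional ℚ ↥(Fermat.Agent.ES.P36.InertField27.inertiaPart A L) :=
    Fermat.Agent.ES.P36.InertField27.finiteDimensional_of_le
      (Fermat.Agent.ES.P36.InertField27.inertiaPart_le L)
  exact exists_eq_inclAK_add A L _ hℓ hA (Fermat.Agent.ES.P36.InertField27.inertiaPart_le L)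
    (fun y hy hfix => Fermat.Agent.ES.P36.InertField27.mem_inertiaPart.2 ⟨hy, hfix⟩) hmax r'

end Fermat.Agent.T1B.NodeNF37.ResEq
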