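/-
T1B / TORIC50 MODEL FACTS (helper37): the hypotheses `ToricBaseInst.Hyp` of the `ToricBase` instance
from the data available on the concrete nodal model:

* `Meet` on chart `0` from `Meet` on EITHER chart (`NodalCoh30.meet_of_numData`) + nodes in `U01`;
* the incomparability witnesses `w21`, `w12` from the REGULAR node coordinates
  `ES.P36.NodeRegAt10.NodeRegAt` at one node (`x ∈ π O2 ∖ π O1`, `y ∈ π O1 ∖ π O2`).

`Hyp.of_nodeRegAt` : `NodalTwoChartModel` + `dvrR` + `Meet` on some chart + `NodeRegAt` on chart `0`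
+ the two `nodes_in_U01` statements (`CuspOff30`) ⟹ `Hyp`, hence `Toric98.ToricBase`.
-/
import Mathlib
import Fermat.Agent.ES.P36.NodeRegAt10
import Fermat.Agent.T1B.NodeNF37.ToricBaseInst

set_option autoImplicit false
set_option linter.unusedSectionVars false
set_option linter.style.haveILetI false

universe u

namespace Fermat.Agent.T1B.NodeNF37.ToricBaseInst

open Polynomial Fermat.Agent.ES.N34.NodalCore13 Fermat.Agent.ES.N34.NodalSmooth13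
  Fermat.Agent.ES.P36.NodeRegAt10
open Fermat.Agent.T1B.NodalFacts23 (vertIdeal mem_vertIdeal algebraMap_mem_vertIdeal
  vertIdeal_isPrime)
open Fermat.Agent.T1B

variable {R F : Type u} [CommRing R] [Field F] [Algebra R F]
variable {π : R} {t : F} {B0 B1 : Subalgebra R F} {O1 O2 : ValuationSubring F}

/-- `Meet` on chart `1` gives `Meet` on chart `0` when the nodes of chart `1` lie in `U01`. -/
theorem meet0_of_meet1 (N : NodalTwoChartModel R F π t B0 B1 O1 O2)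
    (hmeet1 : NodalCoh30.Meet π B1 O1 O2)
    (u1 : ∀ x1 : Ideal ↥B1, x1.IsMaximal → ¬ OffBranch π B1 O1 x1 → ¬ OffBranch π B1 O2 x1 →
      (⟨t⁻¹, N.tinv_mem⟩ : ↥B1) ∉ x1) : NodalCoh30.Meet π B0 O1 O2 := by
  intro b1 hb1 b2 hb2 ⟨c1, hc1, hbc1⟩ ⟨c2, hc2, hbc2⟩ hsum
  set P1 : Ideal ↥B1 := vertIdeal π B1 O1 N.le_O1_1 with hP1
  set Q1 : Ideal ↥B1 := vertIdeal π B1 O2 N.le_O2_1 with hQ1
  set t1 : ↥B1 := ⟨t⁻¹, N.tinv_mem⟩ with ht1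
  have hunit : (P1 ⊔ Q1) ⊔ Ideal.span {t1} = ⊤ :=
    SSPoly.sup_span_eq_top_of_forall_maximal fun m hm hle =>
      u1 m hm (fun ⟨_, hem, hc⟩ => hem (hle (Ideal.mem_sup_left hc)))
        (fun ⟨_, hem, hc⟩ => hem (hle (Ideal.mem_sup_right hc)))
  obtain ⟨k1, hk1⟩ := N.ov1 b1 hb1
  obtain ⟨k2, hk2⟩ := N.ov1 b2 hb2
  have hti : ∀ n : ℕ, t⁻¹ ^ n ∈ B1 := fun n => B1.pow_mem N.tinv_mem n
  have hp1 : t⁻¹ ^ (k1 + k2) * b1 ∈ B1 := by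
    have : t⁻¹ ^ (k1 + k2) * b1 = t⁻¹ ^ k2 * (t⁻¹ ^ k1 * b1) := by
      rw [← mul_assoc, ← pow_add, add_comm]
    rw [this]
    exact B1.mul_mem (hti _) hk1
  have hq1 : t⁻¹ ^ (k1 + k2) * b2 ∈ B1 := by
    have : t⁻¹ ^ (k1 + k2) * b2 = t⁻¹ ^ k1 * (t⁻¹ ^ k2 * b2) := by
      rw [← mul_assoc, ← pow_add]
    rw [this]
    exact B1.mul_mem (hti _) hk2
  have hpP : (⟨_, hp1⟩ : ↥B1) ∈ P1 :=
    ⟨t⁻¹ ^ (k1 + k2) * c1, O1.mul_mem _ _ (O1.pow_mem N.tinv_mem_O1 _) hc1, by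
      show t⁻¹ ^ (k1 + k2) * b1 = _
      rw [hbc1]; ring⟩
  have hqQ : (⟨_, hq1⟩ : ↥B1) ∈ Q1 :=
    ⟨t⁻¹ ^ (k1 + k2) * c2, O2.mul_mem _ _ (O2.pow_mem N.tinv_mem_O2 _) hc2, by
      show t⁻¹ ^ (k1 + k2) * b2 = _
      rw [hbc2]; ring⟩
  have hpow : t1 ^ (k1 + k2) * 1 ∈ P1 ⊔ Q1 := by
    have : t1 ^ (k1 + k2) * 1 = (⟨_, hp1⟩ : ↥B1) + ⟨_, hq1⟩ := by
      apply Subtype.ext
      show t⁻¹ ^ (k1 + k2) * 1 = t⁻¹ ^ (k1 + k2) * b1 + t⁻¹ ^ (k1 + k2) * b2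
      rw [← mul_add, hsum]
    rw [this]
    exact Ideal.add_mem _ (Ideal.mem_sup_left hpP) (Ideal.mem_sup_right hqQ)
  have h1 : (1 : ↥B1) ∈ P1 ⊔ Q1 :=
    SSPoly.mem_of_pow_mul_mem_of_sup_eq_top hunit (k1 + k2) hpow
  obtain ⟨p, hp, q, hq, hpq⟩ := Submodule.mem_sup.1 h1
  exact hmeet1 p p.2 q q.2 hp hq (congrArg (fun b : ↥B1 => (b : F)) hpq)

/-- **`Hyp` from the regular node coordinates.** -/
theorem Hyp.of_nodeRegAt (N : NodalTwoChartModel R F π t B0 B1 O1 O2)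
    (dvrR : ∀ r : R, r ≠ 0 → ∃ (k : ℕ) (v : Rˣ), r = π ^ k * v)
    (hmeet : NodalCoh30.Meet π B0 O1 O2 ∨ NodalCoh30.Meet π B1 O1 O2)
    (hreg : NodeRegAt π B0 O1 O2)
    (u0 : ∀ x1 : Ideal ↥B0, x1.IsMaximal → ¬ OffBranch π B0 O1 x1 → ¬ OffBranch π B0 O2 x1 →
      (⟨t, N.t_mem⟩ : ↥B0) ∉ x1)
    (u1 : ∀ x1 : Ideal ↥B1, x1.IsMaximal → ¬ OffBranch π B1 O1 x1 → ¬ OffBranch π B1 O2 x1 →
      (⟨t⁻¹, N.tinv_mem⟩ : ↥B1) ∉ x1) : Hyp π t B0 B1 O1 O2 := by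
  have hmeet0 : NodalCoh30.Meet π B0 O1 O2 := by
    rcases hmeet with h | h
    · exact h
    · exact meet0_of_meet1 N h u1
  -- a node of chart `0`
  set P0 : Ideal ↥B0 := vertIdeal π B0 O1 N.le_O1_0 with hP0
  set Q0 : Ideal ↥B0 := vertIdeal π B0 O2 N.le_O2_0 with hQ0
  have hne : P0 ⊔ Q0 ≠ ⊤ := by
    intro htop
    have h1 : (1 : ↥B0) ∈ P0 ⊔ Q0 := by rw [htop]; exact Submodule.mem_top
    obtain ⟨p, hp, q, hq, hpq⟩ := Submodule.mem_sup.1 h1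
    exact hmeet0 p p.2 q q.2 hp hq (congrArg (fun b : ↥B0 => (b : F)) hpq)
  obtain ⟨m, hm, hle⟩ := Ideal.exists_le_maximal _ hne
  have hπm : algebraMap R ↥B0 π ∈ m := hle (Ideal.mem_sup_left algebraMap_mem_vertIdeal)
  have h1m : ¬ OffBranch π B0 O1 m := fun ⟨_, hem, hc⟩ => hem (hle (Ideal.mem_sup_left hc))
  have h2m : ¬ OffBranch π B0 O2 m := fun ⟨_, hem, hc⟩ => hem (hle (Ideal.mem_sup_right hc))
  haveI := hm.isPrime
  obtain ⟨x, y, e', -, -, -, -, -, -, hnxy, hnyx, hx2iff, hy1iff, -⟩ := hreg m hm hπm h1m h2m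
  have hx2 : ∃ c ∈ O2, (x : F) = algebraMap R F π * c :=
    (hx2iff (algebraMap ↥B0 ↥(locSub B0 m) x)).2 dvd_rfl
  have hx1 : ¬ ∃ c ∈ O1, (x : F) = algebraMap R F π * c := fun h =>
    hnyx ((hy1iff (algebraMap ↥B0 ↥(locSub B0 m) x)).1 h)
  have hy1 : ∃ c ∈ O1, (y : F) = algebraMap R F π * c :=
    (hy1iff (algebraMap ↥B0 ↥(locSub B0 m) y)).2 dvd_rfl
  have hy2 : ¬ ∃ c ∈ O2, (y : F) = algebraMap R F π * c := fun h =>
    hnxy ((hx2iff (algebraMap ↥B0 ↥(locSub B0 m) y)).1 h)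
  exact
    { model := N
      dvrR := dvrR
      meet := hmeet0
      w21 := ⟨x, x.2, hx2, hx1⟩
      w12 := ⟨y, y.2, hy1, hy2⟩
      u0 := u0
      u1 := u1 }

end Fermat.Agent.T1B.NodeNF37.ToricBaseInst
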