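/-
T1B / TORIC50 MODEL FACTS (helper37): the hypotheses `ToricBaseInst.Hyp` ON THE CONCRETE NODAL MODEL
of level `M' q` over `AK A K`, `K` a finite INERTIAL number field containing `ζ_{M'}` (`q` odd,
`4 ∣ M'`, Hauptmodul `tq · 4 8`), in the ES vocabulary (`ES/N34/ModelDefs9`: `tN q ht`, `B0 A q ht`,
`B1 A q ht`, `O1 M' q hπ hE`, `O2 M' q hπ hE`).

* `numData_four`   : the `NodalNumData` at given `ht hE π hπ` (`ModelInert4.nodalNumData_four_inertial`);
* `nodeRegAt_four` : R3 (regular nodes of thickness one) on both charts (`EisFinal4.nodeRegItems_four`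
  fed with `RegDone21.twoGenItems_four`);
* `hyp_four`       : `Hyp π (tN q ht) (B0 A q ht) (B1 A q ht) (O1 ..) (O2 ..)`
  (`Hyp.of_nodeRegAt` + `CuspOff30.nodes_in_U01_four` + `NodalCoh30.meet_of_numData`), hence
  `(hyp_four ..).toricBase D hρ0 hρ1 : Toric98.ToricBase D π` for every Čech datum on the charts.
-/
import Mathlib
import Fermat.Agent.ES.P36.EisFinal4
import Fermat.Agent.ES.P36.RegDone21
import Fermat.Agent.ES.P36.RegNode21
import Fermat.Agent.T1B.CuspOff30.NodesU01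
import Fermat.Agent.T1B.NodalCoh30.NumData
import Fermat.Agent.T1B.NodeNF37.ToricBaseReg

set_option autoImplicit false
set_option synthInstance.maxHeartbeats 400000
set_option linter.unusedSectionVars false

noncomputable section

namespace Fermat.Agent.T1B.NodeNF37.ConcreteHyp

open Fermat.Agent.RED.Interface4 Fermat.Agent.RED.PUR.GaussGen8 Fermat.Agent.RED.BASE.EtaQuot12
  Fermat.Agent.ES.N34.ModelDefs9 Fermat.Agent.ES.N34.NumData13 Fermat.Agent.ES.N34.NodalCore13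
  Fermat.Agent.ES.P36.InertField27 Fermat.Agent.ES.P36.NodeRegAt10 Fermat.Agent.X0
  Fermat.Agent.T1B.NodeNF37.ToricBaseInst

variable {q M' : ℕ} [NeZero M'] [NeZero q] {A : ValuationSubring Qbar}
  {K : IntermediateField ℚ Qbar}

/-- the nodal numerical data at given `ht hE π hπ`. -/
theorem numData_four (hq : q.Prime) (hq2 : q ≠ 2) (hqM : ¬ q ∣ M') (hM : 4 ∣ M')
    (hA : A.LiesOverPrime q) [FiniteDimensional ℚ K] (hK : IsInertial A K) (hζ : zetaK M' ∈ K)
    (ht : tq (↥K) 4 8 ∈ FK M' K) (hE : FK (M' * q) K ≤ fracField (AK A K))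
    (π : ↥(AK A K)) (hπ : IsUnif (AK A K) π) :
    NodalNumData ↥(AK A K) ↥K ↥(FK (M' * q) K) π (tN q ht) (B0 A q ht) (B1 A q ht)
      (O1 M' q hπ hE) (O2 M' q hπ hE) := by
  obtain ⟨ht', hE', h⟩ :=
    Fermat.Agent.ES.P36.ModelInert4.nodalNumData_four_inertial hq hq2 hqM hM hA hK hζ
  exact h π hπ

/-- R3: regular nodes of thickness one on both charts. -/
theorem nodeRegAt_four (hq : q.Prime) (hq2 : q ≠ 2) (hqM : ¬ q ∣ M') (hM : 4 ∣ M')
    (hA : A.LiesOverPrime q) [FiniteDimensional ℚ K] (hK : IsInertial A K) (hζ : zetaK M' ∈ K)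
    (ht : tq (↥K) 4 8 ∈ FK M' K) (hE : FK (M' * q) K ≤ fracField (AK A K))
    (π : ↥(AK A K)) (hπ : IsUnif (AK A K) π) :
    NodeRegAt π (B0 A q ht) (O1 M' q hπ hE) (O2 M' q hπ hE) ∧
      NodeRegAt π (B1 A q ht) (O1 M' q hπ hE) (O2 M' q hπ hE) :=
  Fermat.Agent.ES.P36.EisFinal4.nodeRegItems_four hq hq2 hqM hM hA hK hζ
    (Fermat.Agent.ES.P36.RegNode21.twoGenItems10_of
      (Fermat.Agent.ES.P36.RegDone21.twoGenItems_four hq hq2 hqM hM hA hζ
        (Fermat.Agent.ES.P36.ModelInert4.frobInvAt_of_isInertial hK hq hA) hK.inertFixed))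
    ht hE π hπ

/-- **`Hyp` on the concrete nodal model over an inertial `K ∋ ζ_{M'}`.** -/
theorem hyp_four (hq : q.Prime) (hq2 : q ≠ 2) (hqM : ¬ q ∣ M') (hM : 4 ∣ M')
    (hA : A.LiesOverPrime q) [FiniteDimensional ℚ K] (hK : IsInertial A K) (hζ : zetaK M' ∈ K)
    (ht : tq (↥K) 4 8 ∈ FK M' K) (hE : FK (M' * q) K ≤ fracField (AK A K))
    (π : ↥(AK A K)) (hπ : IsUnif (AK A K) π) :
    Hyp π (tN q ht) (B0 A q ht) (B1 A q ht) (O1 M' q hπ hE) (O2 M' q hπ hE) := by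
  have D := numData_four hq hq2 hqM hM hA hK hζ ht hE π hπ
  have U := Fermat.Agent.T1B.CuspOff30.nodes_in_U01_four hq hq2 hqM hM hA hζ
    (Fermat.Agent.ES.P36.ModelInert4.frobInvAt_of_isInertial hK hq hA) ht hE π hπ
  exact Hyp.of_nodeRegAt D.model D.dvrR (Fermat.Agent.T1B.NodalCoh30.meet_of_numData D)
    (nodeRegAt_four hq hq2 hqM hM hA hK hζ ht hE π hπ).1 U.1 U.2

end Fermat.Agent.T1B.NodeNF37.ConcreteHyp
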