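/-
Programme T1B, brick F1d (helper37): TRANSFER of a vertical test element from a REGULAR node of a model
"below" (level change, or base-field change `K ⊂ L` with `π_K = π_L ^ e · unit`) to a node of the model "above".

Below: `(R', F', B', O1', O2', π')`, a point where `x y = π' e'`, `e'` a unit at the point, `x ∉ π' O1'`,
`x ∈ π' O2'` (e.g. `ES/P36/NodeRegAt10.NodeRegAt`: regular node of thickness one over an unramified base).
Above: `(R, F, B, O1, O2, π)`, `φ : F' →+* F` with `φ B' ⊆ B`, `φ O_j' ⊆ O_j`, `φ π' = π ^ e · u`, `u` a unit of `B`.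

* `test_of_regular_below`       : `h := φ x`, `h' := φ y · u⁻¹ / φ e'` is a vertical test element above
  (`h h' = π ^ e`, both regular at `𝔪`, `h ∉ π O1`, `h ∈ π O2`);
* `chart_exists_nodeData_of_below` : hence the strong node normal form on `B_𝔪`, of thickness `k ∣ e`, `k ≤ e`.
  No eta quotient, no divisor computation.
-/
import Mathlib
import Fermat.Agent.T1B.NodeNF37.N34Inst

set_option autoImplicit false
set_option linter.unusedSectionVars false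
set_option linter.unusedVariables false

namespace Fermat.Agent.T1B.NodeNF37.Transfer

open IsLocalRing Fermat.Agent.T1B.NodeNF37.Abstract Fermat.Agent.T1B.NodeNF37.UnifOrd
  Fermat.Agent.T1.Peu37.NodeClassGroup Fermat.Agent.T1B.NodeNF37.Local
  Fermat.Agent.T1B.NodeNF37.N34Inst
  Fermat.Agent.ES.N34.NodalCore13 Fermat.Agent.ES.N34.NumData13

variable {R' F' R F : Type*} [CommRing R'] [Field F'] [Algebra R' F'] [CommRing R] [Field F]
  [Algebra R F]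

/-- **The test element above, from a regular node below.** -/
theorem test_of_regular_below (φ : F' →+* F) (π' : R') (π : R) (B' : Subalgebra R' F')
    (B : Subalgebra R F) (O1' O2' : ValuationSubring F') (O1 O2 : ValuationSubring F)
    (hB : ∀ x ∈ B', φ x ∈ B) (hO1 : ∀ x ∈ O1', φ x ∈ O1) (hO2 : ∀ x ∈ O2', φ x ∈ O2)
    (le1 : ∀ x ∈ B, x ∈ O1) (le2 : ∀ x ∈ B, x ∈ O2)
    (pi_ne : algebraMap R F π ≠ 0)
    (pi_nonunit1 : (algebraMap R F π)⁻¹ ∉ O1)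
    (le1' : ∀ x ∈ B', x ∈ O1')
    (unif1' : ∀ x ∈ O1', x⁻¹ ∉ O1' → ∃ c ∈ O1', x = algebraMap R' F' π' * c)
    {e : ℕ} (he : 1 ≤ e) {u : F} (hu : u ∈ B) (hu' : u⁻¹ ∈ B)
    (hπ : φ (algebraMap R' F' π') = algebraMap R F π ^ e * u)
    (𝔪 : Ideal B) [h𝔪 : 𝔪.IsPrime]
    {x y e' : B'} (hxy : x * y = algebraMap R' B' π' * e')
    (he' : (⟨φ (e' : F'), hB _ e'.2⟩ : B) ∉ 𝔪)
    (hx1 : ¬ ∃ c ∈ O1', (x : F') = algebraMap R' F' π' * c)
    (hx2 : ∃ c ∈ O2', (x : F') = algebraMap R' F' π' * c) :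
    ∃ h h' : F, h = φ (x : F') ∧ h' = φ (y : F') * u⁻¹ * (φ (e' : F'))⁻¹ ∧
      h * h' = algebraMap R F π ^ e ∧
      (∃ d : B, d ∉ 𝔪 ∧ ∃ a : B, (d : F) * h = (a : F)) ∧
      (∃ d : B, d ∉ 𝔪 ∧ ∃ a : B, (d : F) * h' = (a : F)) ∧
      (¬ ∃ c ∈ O1, h = algebraMap R F π * c) ∧ (∃ c ∈ O2, h = algebraMap R F π * c) := by
  have h1𝔪 : (1 : B) ∉ 𝔪 := fun h1 => h𝔪.ne_top ((Ideal.eq_top_iff_one 𝔪).mpr h1)
  have hφe0 : φ (e' : F') ≠ 0 := by
    intro h0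
    apply he'
    have : (⟨φ (e' : F'), hB _ e'.2⟩ : B) = 0 := Subtype.ext h0
    rw [this]
    exact 𝔪.zero_mem
  have hu0 : u ≠ 0 := by
    rintro rfl
    rw [mul_zero] at hπ
    have h0 : algebraMap R' F' π' = 0 := by
      by_contra hne
      exact (map_ne_zero φ).2 hne hπ
    apply hφe0
    have hxy' : (x : F') * (y : F') = algebraMap R' F' π' * (e' : F') := by
      have := congrArg (fun b : B' => (b : F')) hxy
      simpa using this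
    -- `x = π' c = 0`, so `hx1` fails
    exact absurd ⟨0, O1'.zero_mem, by
      obtain ⟨c, -, hc⟩ := hx2
      rw [hc, h0, zero_mul, zero_mul]⟩ hx1
  have hxyF : (x : F') * (y : F') = algebraMap R' F' π' * (e' : F') := by
    have := congrArg (fun b : B' => (b : F')) hxy
    simpa using this
  refine ⟨φ (x : F'), φ (y : F') * u⁻¹ * (φ (e' : F'))⁻¹, rfl, rfl, ?_, ?_, ?_, ?_, ?_⟩
  · -- `h h' = π ^ e`
    have h1 : φ (x : F') * φ (y : F') = algebraMap R F π ^ e * u * φ (e' : F') := by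
      rw [← map_mul, hxyF, map_mul, hπ]
    calc φ (x : F') * (φ (y : F') * u⁻¹ * (φ (e' : F'))⁻¹)
        = (φ (x : F') * φ (y : F')) * u⁻¹ * (φ (e' : F'))⁻¹ := by ring
      _ = algebraMap R F π ^ e * (u * u⁻¹) * (φ (e' : F') * (φ (e' : F'))⁻¹) := by rw [h1]; ring
      _ = algebraMap R F π ^ e := by
          rw [mul_inv_cancel₀ hu0, mul_inv_cancel₀ hφe0, mul_one, mul_one]
  · exact ⟨1, h1𝔪, ⟨φ (x : F'), hB _ x.2⟩, by simp⟩
  · refine ⟨⟨φ (e' : F'), hB _ e'.2⟩, he', ⟨φ (y : F') * u⁻¹, B.mul_mem (hB _ y.2) hu'⟩, ?_⟩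
    show φ (e' : F') * (φ (y : F') * u⁻¹ * (φ (e' : F'))⁻¹) = φ (y : F') * u⁻¹
    calc φ (e' : F') * (φ (y : F') * u⁻¹ * (φ (e' : F'))⁻¹)
        = φ (y : F') * u⁻¹ * (φ (e' : F') * (φ (e' : F'))⁻¹) := by ring
      _ = φ (y : F') * u⁻¹ := by rw [mul_inv_cancel₀ hφe0, mul_one]
  · -- `x` is a unit of `O1'`, hence `φ x` a unit of `O1`
    have hxinv : (x : F')⁻¹ ∈ O1' := by
      by_contra hcon
      exact hx1 (unif1' _ (le1' _ x.2) hcon)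
    rintro ⟨c, hc, hcx⟩
    apply pi_nonunit1
    have hx0 : φ (x : F') ≠ 0 := by
      intro h0
      have hx00 : (x : F') = 0 := by
        by_contra hne
        exact (map_ne_zero φ).2 hne h0
      exact hx1 ⟨0, O1'.zero_mem, by rw [hx00, mul_zero]⟩
    have : (algebraMap R F π)⁻¹ = c * φ ((x : F')⁻¹) := by
      rw [map_inv₀, hcx, mul_inv, mul_comm c, mul_assoc]
      have hc0 : c ≠ 0 := by
        rintro rfl
        rw [mul_zero] at hcx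
        exact hx0 hcx
      rw [inv_mul_cancel₀ hc0, mul_one]
    rw [this]
    exact O1.mul_mem _ _ hc (hO1 _ hxinv)
  · obtain ⟨c, hc, hcx⟩ := hx2
    obtain ⟨k, rfl⟩ : ∃ k, e = k + 1 := ⟨e - 1, by omega⟩
    refine ⟨algebraMap R F π ^ k * u * φ c, ?_, ?_⟩
    · have hπO2 : algebraMap R F π ∈ O2 := le2 _ (B.algebraMap_mem π)
      exact O2.mul_mem _ _ (O2.mul_mem _ _ (O2.pow_mem hπO2 k) (le2 _ hu)) (hO2 _ hc)
    · rw [hcx, map_mul, hπ]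
      ring

/-- **NODE-NF above from a regular node below**: thickness `k ∣ e`, `k ≤ e`, where `φ π' = π ^ e · u`. -/
theorem chart_exists_nodeData_of_below (φ : F' →+* F) (π' : R') (π : R) (B' : Subalgebra R' F')
    (B : Subalgebra R F) (O1' O2' : ValuationSubring F') (O1 O2 : ValuationSubring F)
    [IsNoetherianRing B]
    (hB : ∀ x ∈ B', φ x ∈ B) (hO1 : ∀ x ∈ O1', φ x ∈ O1) (hO2 : ∀ x ∈ O2', φ x ∈ O2)
    (le1' : ∀ x ∈ B', x ∈ O1') (le2' : ∀ x ∈ B', x ∈ O2')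
    (unif1' : ∀ x ∈ O1', x⁻¹ ∉ O1' → ∃ c ∈ O1', x = algebraMap R' F' π' * c)
    (unif2' : ∀ x ∈ O2', x⁻¹ ∉ O2' → ∃ c ∈ O2', x = algebraMap R' F' π' * c)
    (le1 : ∀ x ∈ B, x ∈ O1) (le2 : ∀ x ∈ B, x ∈ O2) (pi_ne : algebraMap R F π ≠ 0)
    (pi_nonunit1 : (algebraMap R F π)⁻¹ ∉ O1) (pi_nonunit2 : (algebraMap R F π)⁻¹ ∉ O2)
    (unif1 : ∀ x ∈ O1, x⁻¹ ∉ O1 → ∃ c ∈ O1, x = algebraMap R F π * c)
    (unif2 : ∀ x ∈ O2, x⁻¹ ∉ O2 → ∃ c ∈ O2, x = algebraMap R F π * c)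
    (arch1 : ∀ x : F, ∃ k : ℕ, algebraMap R F π ^ k * x ∈ O1)
    (arch2 : ∀ x : F, ∃ k : ℕ, algebraMap R F π ^ k * x ∈ O2)
    (sat : ∀ b ∈ B, ∀ c : F, c ∈ O1 → c ∈ O2 → b = algebraMap R F π * c → c ∈ B)
    {e : ℕ} (he : 1 ≤ e) {u : F} (hu : u ∈ B) (hu' : u⁻¹ ∈ B)
    (hπ : φ (algebraMap R' F' π') = algebraMap R F π ^ e * u)
    (𝔪 : Ideal B) [h𝔪 : 𝔪.IsPrime] (hπ𝔪 : algebraMap R B π ∈ 𝔪)
    (hon1 : ¬ OffBranch π B O1 𝔪) (hon2 : ¬ OffBranch π B O2 𝔪) (hN : NodeCoords π B 𝔪)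
    {x y e' : B'} (hxy : x * y = algebraMap R' B' π' * e')
    (he' : (⟨φ (e' : F'), hB _ e'.2⟩ : B) ∉ 𝔪)
    (hx1 : ¬ ∃ c ∈ O1', (x : F') = algebraMap R' F' π' * c)
    (hx2 : ∃ c ∈ O2', (x : F') = algebraMap R' F' π' * c)
    (hy2 : ¬ ∃ c ∈ O2', (y : F') = algebraMap R' F' π' * c)
    (he2 : ¬ ∃ c ∈ O2', (e' : F') = algebraMap R' F' π' * c) :
    ∃ (H₁ : BranchHyp (gB B) 𝔪 O1 (algebraMap R B π))
      (H₂ : BranchHyp (gB B) 𝔪 O2 (algebraMap R B π))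
      (x' y' : Localization.AtPrime 𝔪) (K : ℕ),
      NodeData (Localization.AtPrime 𝔪) (vv (gB B) (gB_injective B) 𝔪 O1 (algebraMap R B π))
        (vv (gB B) (gB_injective B) 𝔪 O2 (algebraMap R B π)) (PP (gB B) (gB_injective B) 𝔪 H₁)
        (PP (gB B) (gB_injective B) 𝔪 H₂)
        (algebraMap B (Localization.AtPrime 𝔪) (algebraMap R B π)) x' y' K ∧
      K ≤ e ∧ K ∣ e := by
  obtain ⟨h, h', hdef, hdef', hh, hloc, hloc', ha1, ha2⟩ :=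
    test_of_regular_below φ π' π B' B O1' O2' O1 O2 hB hO1 hO2 le1 le2 pi_ne pi_nonunit1 le1'
      unif1' he hu hu' hπ 𝔪 hxy he' hx1 hx2
  obtain ⟨H₁, H₂, x', y', K, hD, hK, hdiv⟩ :=
    chart_exists_nodeData π B O1 O2 le1 le2 pi_ne pi_nonunit1 pi_nonunit2 unif1 unif2 arch1 arch2
      sat 𝔪 hπ𝔪 hon1 hon2 hN hh hloc hloc' ha1 ha2
  have U1 : IsUnifFor O1 (algebraMap R F π) := ⟨pi_ne, pi_nonunit1, unif1, arch1⟩
  have U2 : IsUnifFor O2 (algebraMap R F π) := ⟨pi_ne, pi_nonunit2, unif2, arch2⟩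
  have hpe0 : algebraMap R F π ^ e ≠ 0 := pow_ne_zero e pi_ne
  have hh0 : h ≠ 0 := left_ne_zero_of_mul (hh ▸ hpe0)
  have hh'0 : h' ≠ 0 := right_ne_zero_of_mul (hh ▸ hpe0)
  -- `ord₁ h = 0`
  have hhO1 : h ∈ O1 := by rw [hdef]; exact hO1 _ (le1' _ x.2)
  have hhinv1 : h⁻¹ ∈ O1 := by
    by_contra hcon
    exact ha1 (unif1 h hhO1 hcon)
  have ho1 : ord O1 (algebraMap R F π) h = 0 := (U1.ord_eq_zero_iff hhO1 hh0).2 hhinv1
  -- `h'` is a unit of `O2`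
  have hyinv : (y : F')⁻¹ ∈ O2' := by
    by_contra hcon
    exact hy2 (unif2' _ (le2' _ y.2) hcon)
  have heinv : (e' : F')⁻¹ ∈ O2' := by
    by_contra hcon
    exact he2 (unif2' _ (le2' _ e'.2) hcon)
  have hh'O2 : h' ∈ O2 := by
    rw [hdef', ← map_inv₀]
    exact O2.mul_mem _ _ (O2.mul_mem _ _ (hO2 _ (le2' _ y.2)) (le2 _ hu')) (hO2 _ heinv)
  have hh'inv : h'⁻¹ ∈ O2 := by
    rw [hdef', mul_inv, mul_inv, inv_inv, inv_inv, ← map_inv₀]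
    exact O2.mul_mem _ _ (O2.mul_mem _ _ (hO2 _ hyinv) (le2 _ hu)) (hO2 _ (le2' _ e'.2))
  -- `h = π ^ e * h'⁻¹`
  have hrepr : h = algebraMap R F π ^ e * h'⁻¹ := by
    rw [← hh, mul_assoc, mul_inv_cancel₀ hh'0, mul_one]
  have ho2 : ord O2 (algebraMap R F π) h = e := by
    rw [hrepr]
    exact U2.ord_pow_mul_unit hh'inv (by rwa [inv_inv]) (inv_ne_zero hh'0)
  rw [ho1, ho2] at hdiv
  rw [ho2] at hK
  refine ⟨H₁, H₂, x', y', K, hD, hK, ?_⟩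
  have : (K : ℤ) ∣ (e : ℤ) := by simpa using hdiv
  exact Int.natCast_dvd_natCast.1 this

end Fermat.Agent.T1B.NodeNF37.Transfer
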