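/-
Programme T1B, brick Phi3-(C) (helper37): NODE DATA ON THE BASE-CHANGED MODEL WITH EXPLICIT RATIONAL COORDINATES.

Below: `(R', F', B', O1', O2', π')` with a regular node `x y = π' e'` at the contraction of `𝔪`
(`ES/P36/NodeRegAt10.NodeRegAt`: unramified base).  Above: `(R, F, B, O1, O2, π)`, `φ : F' →+* F`, `φ B' ⊆ B`,
`φ O_j' ⊆ O_j`, `φ π' = π ^ e · u` (`u` a unit of `B`), and
  (S)  `B = φ B' + π B`   (totally ramified base change: `ChartPair2.eq_spanOf` + equal residue fields).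
Then `B_𝔪` is a node of thickness EXACTLY `e` with coordinates `φ x`, `φ y`:
  `NodeData B_𝔪 (vv O1) (vv O2) (PP H₁) (PP H₂) π (φ x) (φ y) e`.
No iteration, no test element: `max_eq` comes from (S) and `𝔪' B'_{𝔪'} = (x, y)`.
-/
import Mathlib
import Fermat.Agent.T1B.NodeNF37.N34Inst

set_option autoImplicit false
set_option linter.unusedSectionVars false
set_option linter.unusedVariables false

namespace Fermat.Agent.T1B.NodeNF37.TransferExplicit

open IsLocalRing Fermat.Agent.T1B.NodeNF37.Abstract Fermat.Agent.T1B.NodeNF37.UnifOrd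
  Fermat.Agent.T1.Peu37.NodeClassGroup Fermat.Agent.T1B.NodeNF37.Local
  Fermat.Agent.T1B.NodeNF37.N34Inst
  Fermat.Agent.ES.N34.NodalCore13

variable {R' F' R F : Type*} [CommRing R'] [Field F'] [Algebra R' F'] [CommRing R] [Field F]
  [Algebra R F]

/-- The restriction of `φ` to the charts. -/
def iotaC (φ : F' →+* F) (B' : Subalgebra R' F') (B : Subalgebra R F)
    (hB : ∀ x ∈ B', φ x ∈ B) : B' →+* B where
  toFun b := ⟨φ (b : F'), hB _ b.2⟩
  map_one' := Subtype.ext (by simp)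
  map_mul' a b := Subtype.ext (by simp)
  map_zero' := Subtype.ext (by simp)
  map_add' a b := Subtype.ext (by simp)

theorem coe_iotaC (φ : F' →+* F) (B' : Subalgebra R' F') (B : Subalgebra R F)
    (hB : ∀ x ∈ B', φ x ∈ B) (b : B') : ((iotaC φ B' B hB b : B) : F) = φ (b : F') := rfl

/-- **(Phi3-C) Node data above with explicit coordinates and exact thickness.** -/
theorem nodeData_of_below_explicit (φ : F' →+* F) (π' : R') (π : R) (B' : Subalgebra R' F')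
    (B : Subalgebra R F) (O1' O2' : ValuationSubring F') (O1 O2 : ValuationSubring F)
    (hB : ∀ x ∈ B', φ x ∈ B) (hO1 : ∀ x ∈ O1', φ x ∈ O1) (hO2 : ∀ x ∈ O2', φ x ∈ O2)
    (le1' : ∀ x ∈ B', x ∈ O1') (le2' : ∀ x ∈ B', x ∈ O2')
    (unif1' : ∀ x ∈ O1', x⁻¹ ∉ O1' → ∃ c ∈ O1', x = algebraMap R' F' π' * c)
    (unif2' : ∀ x ∈ O2', x⁻¹ ∉ O2' → ∃ c ∈ O2', x = algebraMap R' F' π' * c)
    (le1 : ∀ x ∈ B, x ∈ O1) (le2 : ∀ x ∈ B, x ∈ O2) (pi_ne : algebraMap R F π ≠ 0)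
    (pi_nonunit1 : (algebraMap R F π)⁻¹ ∉ O1) (pi_nonunit2 : (algebraMap R F π)⁻¹ ∉ O2)
    (unif1 : ∀ x ∈ O1, x⁻¹ ∉ O1 → ∃ c ∈ O1, x = algebraMap R F π * c)
    (unif2 : ∀ x ∈ O2, x⁻¹ ∉ O2 → ∃ c ∈ O2, x = algebraMap R F π * c)
    (arch1 : ∀ x : F, ∃ k : ℕ, algebraMap R F π ^ k * x ∈ O1)
    (arch2 : ∀ x : F, ∃ k : ℕ, algebraMap R F π ^ k * x ∈ O2)
    (sat : ∀ b ∈ B, ∀ c : F, c ∈ O1 → c ∈ O2 → b = algebraMap R F π * c → c ∈ B)
    {e : ℕ} (he : 1 ≤ e) {u : F} (hu : u ∈ B) (hu' : u⁻¹ ∈ B)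
    (hπ : φ (algebraMap R' F' π') = algebraMap R F π ^ e * u)
    (hS : ∀ b ∈ B, ∃ b' ∈ B', ∃ c ∈ B, b = φ b' + algebraMap R F π * c)
    (𝔪 : Ideal B) [h𝔪 : 𝔪.IsPrime] (hπ𝔪 : algebraMap R B π ∈ 𝔪)
    (hon1 : ¬ OffBranch π B O1 𝔪) (hon2 : ¬ OffBranch π B O2 𝔪)
    {x y e' : B'} (hxy : x * y = algebraMap R' B' π' * e')
    (he' : iotaC φ B' B hB e' ∉ 𝔪)
    (hgen' : ∀ f : B', iotaC φ B' B hB f ∈ 𝔪 →
      ∃ d : B', iotaC φ B' B hB d ∉ 𝔪 ∧ d * f ∈ Ideal.span {x, y})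
    (hx1 : ¬ ∃ c ∈ O1', (x : F') = algebraMap R' F' π' * c)
    (hy2 : ¬ ∃ c ∈ O2', (y : F') = algebraMap R' F' π' * c) :
    ∃ (H₁ : BranchHyp (gB B) 𝔪 O1 (algebraMap R B π))
      (H₂ : BranchHyp (gB B) 𝔪 O2 (algebraMap R B π)),
      NodeData (Localization.AtPrime 𝔪) (vv (gB B) (gB_injective B) 𝔪 O1 (algebraMap R B π))
        (vv (gB B) (gB_injective B) 𝔪 O2 (algebraMap R B π)) (PP (gB B) (gB_injective B) 𝔪 H₁)
        (PP (gB B) (gB_injective B) 𝔪 H₂)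
        (algebraMap B (Localization.AtPrime 𝔪) (algebraMap R B π))
        (algebraMap B (Localization.AtPrime 𝔪) (iotaC φ B' B hB x))
        (algebraMap B (Localization.AtPrime 𝔪) (iotaC φ B' B hB y)) e := by
  set ι := iotaC φ B' B hB with hι
  have H₁ := branchHyp π B O1 le1 pi_ne pi_nonunit1 unif1 arch1 𝔪 hon1
  have H₂ := branchHyp π B O2 le2 pi_ne pi_nonunit2 unif2 arch2 𝔪 hon2
  refine ⟨H₁, H₂, ?_⟩
  have sat' : ∀ (b : B) (c : F), c ∈ O1 → c ∈ O2 →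
      gB B b = gB B (algebraMap R B π) * c → ∃ b' : B, gB B b' = c :=
    fun b c hc1 hc2 hbc => ⟨⟨c, sat b b.2 c hc1 hc2 hbc⟩, rfl⟩
  have Fr := frame (gB B) (gB_injective B) 𝔪 H₁ H₂ sat'
  set A := Localization.AtPrime 𝔪 with hA
  set ψ : B →+* A := algebraMap B A with hψ
  have U1 : IsUnifFor O1 (algebraMap R F π) := ⟨pi_ne, pi_nonunit1, unif1, arch1⟩
  have U2 : IsUnifFor O2 (algebraMap R F π) := ⟨pi_ne, pi_nonunit2, unif2, arch2⟩
  -- units
  have hxinv : (x : F')⁻¹ ∈ O1' := by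
    by_contra hcon
    exact hx1 (unif1' _ (le1' _ x.2) hcon)
  have hyinv : (y : F')⁻¹ ∈ O2' := by
    by_contra hcon
    exact hy2 (unif2' _ (le2' _ y.2) hcon)
  have hx0 : (x : F') ≠ 0 := fun h0 => hx1 ⟨0, O1'.zero_mem, by rw [h0, mul_zero]⟩
  have hy0 : (y : F') ≠ 0 := fun h0 => hy2 ⟨0, O2'.zero_mem, by rw [h0, mul_zero]⟩
  have hφx0 : φ (x : F') ≠ 0 := (map_ne_zero φ).2 hx0
  have hφy0 : φ (y : F') ≠ 0 := (map_ne_zero φ).2 hy0
  -- the relation in `B`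
  have hxyF : (x : F') * (y : F') = algebraMap R' F' π' * (e' : F') := by
    have := congrArg (fun b : B' => (b : F')) hxy
    simpa using this
  set uB : B := ⟨u, hu⟩ with huB
  set uB' : B := ⟨u⁻¹, hu'⟩ with huB'
  have hu0 : u ≠ 0 := by
    rintro rfl
    rw [mul_zero] at hπ
    have h0 : algebraMap R' F' π' = 0 := by
      by_contra hne
      exact (map_ne_zero φ).2 hne hπ
    have : (x : F') * (y : F') = 0 := by rw [hxyF, h0, zero_mul]
    rcases mul_eq_zero.1 this with h | h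
    · exact hx0 h
    · exact hy0 h
  have huu : uB * uB' = 1 := Subtype.ext (by
    show u * u⁻¹ = 1
    exact mul_inv_cancel₀ hu0)
  have hrelB : ι x * ι y = algebraMap R B π ^ e * (uB * ι e') := by
    apply Subtype.ext
    show φ (x : F') * φ (y : F') = algebraMap R F π ^ e * (u * φ (e' : F'))
    rw [← map_mul, hxyF, map_mul, hπ]
    ring
  -- `ψ (uB * ι e')` is a unit
  have hunit : IsUnit (ψ (uB * ι e')) := by
    rw [map_mul]
    refine IsUnit.mul ?_ (isUnit_algebraMap 𝔪 he')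
    exact IsUnit.of_mul_eq_one (ψ uB') (by rw [← map_mul, huu, map_one])
  -- the maximal ideal
  have hgen : ∀ b ∈ 𝔪, ∃ d : B, d ∉ 𝔪 ∧ d * b ∈ Ideal.span {algebraMap R B π, ι x, ι y} := by
    intro b hb
    obtain ⟨b', hb', c, hc, hbc⟩ := hS b b.2
    have hιb' : ι ⟨b', hb'⟩ ∈ 𝔪 := by
      have : ι ⟨b', hb'⟩ = b - algebraMap R B π * ⟨c, hc⟩ := by
        apply Subtype.ext
        show φ b' = (b : F) - algebraMap R F π * c
        rw [hbc]; ring
      rw [this]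
      exact 𝔪.sub_mem hb (𝔪.mul_mem_right _ hπ𝔪)
    obtain ⟨d, hd, hdf⟩ := hgen' ⟨b', hb'⟩ hιb'
    obtain ⟨a, a', haa⟩ := Ideal.mem_span_pair.1 hdf
    refine ⟨ι d, hd, ?_⟩
    have : ι d * b = ι d * ⟨c, hc⟩ * algebraMap R B π + (ι a * ι x + ι a' * ι y) := by
      have h1 : ι d * ι ⟨b', hb'⟩ = ι a * ι x + ι a' * ι y := by
        rw [← map_mul, ← map_mul, ← map_mul, ← map_add, haa]
      have h2 : b = ι ⟨b', hb'⟩ + algebraMap R B π * ⟨c, hc⟩ := by
        apply Subtype.ext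
        show (b : F) = φ b' + algebraMap R F π * c
        exact hbc
      rw [← h1]
      conv_lhs => rw [h2]
      ring
    rw [this]
    refine Ideal.add_mem _ (Ideal.mul_mem_left _ _ (Ideal.subset_span (by simp))) ?_
    exact Ideal.add_mem _ (Ideal.mul_mem_left _ _ (Ideal.subset_span (by simp)))
      (Ideal.mul_mem_left _ _ (Ideal.subset_span (by simp)))
  have hrelF : φ (x : F') * φ (y : F') = algebraMap R F π ^ e * (u * φ (e' : F')) := by
    rw [← map_mul, hxyF, map_mul, hπ]; ring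
  -- if `(φ x φ y)⁻¹ ∈ O` then `π⁻¹ ∈ O`
  have aux : ∀ O : ValuationSubring F, (∀ b ∈ B, b ∈ O) →
      (φ (x : F') * φ (y : F'))⁻¹ ∈ O → (algebraMap R F π)⁻¹ ∈ O := by
    intro O leO hprod
    obtain ⟨k, rfl⟩ : ∃ k, e = k + 1 := ⟨e - 1, by omega⟩
    have hπO : algebraMap R F π ∈ O := leO _ (B.algebraMap_mem π)
    have hne : algebraMap R F π ^ (k + 1) * (u * φ (e' : F')) ≠ 0 := by
      rw [← hrelF]; exact mul_ne_zero hφx0 hφy0
    have : (algebraMap R F π)⁻¹ =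
        (φ (x : F') * φ (y : F'))⁻¹ * (algebraMap R F π ^ k * (u * φ (e' : F'))) := by
      rw [hrelF, eq_comm, inv_mul_eq_iff_eq_mul₀ hne, pow_succ]
      have h3 : algebraMap R F π ^ k * algebraMap R F π * (u * φ (e' : F')) *
          (algebraMap R F π)⁻¹ =
          algebraMap R F π ^ k * (u * φ (e' : F')) *
            (algebraMap R F π * (algebraMap R F π)⁻¹) := by ring
      rw [h3, mul_inv_cancel₀ pi_ne, mul_one]
    rw [this]
    exact O.mul_mem _ _ hprod (O.mul_mem _ _ (O.pow_mem hπO k)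
      (O.mul_mem _ _ (leO _ hu) (leO _ (hB _ e'.2))))
  have hxm : ι x ∈ 𝔪 := by
    by_contra hx𝔪
    have hxinv2 : (φ (x : F'))⁻¹ ∈ O2 := inv_g_mem (gB B) (gB_injective B) 𝔪 H₂ hx𝔪
    have hyinv2 : (φ (y : F'))⁻¹ ∈ O2 := by rw [← map_inv₀]; exact hO2 _ hyinv
    exact pi_nonunit2 (aux O2 le2 (by rw [mul_inv]; exact O2.mul_mem _ _ hxinv2 hyinv2))
  have hym : ι y ∈ 𝔪 := by
    by_contra hy𝔪
    have hyinv1 : (φ (y : F'))⁻¹ ∈ O1 := inv_g_mem (gB B) (gB_injective B) 𝔪 H₁ hy𝔪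
    have hxinv1 : (φ (x : F'))⁻¹ ∈ O1 := by rw [← map_inv₀]; exact hO1 _ hxinv
    exact pi_nonunit1 (aux O1 le1 (by rw [mul_inv]; exact O1.mul_mem _ _ hxinv1 hyinv1))
  have hmax : maximalIdeal A = Ideal.span {ψ (algebraMap R B π), ψ (ι x), ψ (ι y)} := by
    rw [← Localization.AtPrime.map_eq_maximalIdeal]
    apply le_antisymm
    · rw [Ideal.map_le_iff_le_comap]
      intro b hb
      obtain ⟨d, hd, hdb⟩ := hgen b hb
      rw [Ideal.mem_comap]
      have h1 : ψ (d * b) ∈ Ideal.map ψ (Ideal.span {algebraMap R B π, ι x, ι y}) :=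
        Ideal.mem_map_of_mem ψ hdb
      rw [Ideal.map_span] at h1
      have himg : (ψ '' {algebraMap R B π, ι x, ι y} : Set A) =
          {ψ (algebraMap R B π), ψ (ι x), ψ (ι y)} := by
        simp [Set.image_insert_eq]
      rw [himg, map_mul] at h1
      obtain ⟨w, hw⟩ := (isUnit_algebraMap 𝔪 hd).exists_left_inv
      have : ψ b = w * (ψ d * ψ b) := by rw [← mul_assoc, hw, one_mul]
      rw [this]
      exact Ideal.mul_mem_left _ _ h1
    · rw [Ideal.span_le, Set.insert_subset_iff, Set.insert_subset_iff, Set.singleton_subset_iff]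
      exact ⟨Ideal.mem_map_of_mem ψ hπ𝔪, Ideal.mem_map_of_mem ψ hxm, Ideal.mem_map_of_mem ψ hym⟩
  -- the valuations of the coordinates
  have hv1x : vv (gB B) (gB_injective B) 𝔪 O1 (algebraMap R B π) (ψ (ι x)) = 0 := by
    unfold vv
    rw [iota_algebraMap]
    show ord O1 (algebraMap R F π) (φ (x : F')) = 0
    refine (U1.ord_eq_zero_iff (hO1 _ (le1' _ x.2)) hφx0).2 ?_
    rw [← map_inv₀]; exact hO1 _ hxinv
  have hv2y : vv (gB B) (gB_injective B) 𝔪 O2 (algebraMap R B π) (ψ (ι y)) = 0 := by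
    unfold vv
    rw [iota_algebraMap]
    show ord O2 (algebraMap R F π) (φ (y : F')) = 0
    refine (U2.ord_eq_zero_iff (hO2 _ (le2' _ y.2)) hφy0).2 ?_
    rw [← map_inv₀]; exact hO2 _ hyinv
  exact
    { v₁_mul := Fr.v₁_mul
      v₂_mul := Fr.v₂_mul
      v₁_pi := Fr.v₁_pi
      v₂_pi := Fr.v₂_pi
      v₁_x := hv1x
      v₂_y := hv2y
      pi_ne := Fr.pi_ne
      rel := ⟨ψ (uB * ι e'), hunit, by rw [← map_mul, hrelB, map_mul, map_pow]⟩
      sat := Fr.sat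
      mem_P₁ := Fr.mem_P₁
      mem_P₂ := Fr.mem_P₂
      prime₁ := Fr.prime₁
      prime₂ := Fr.prime₂
      max_eq := hmax
      K_pos := he }

end Fermat.Agent.T1B.NodeNF37.TransferExplicit
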