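/-
Programme T1B, brick F1d (helper37), part 2: the regular node below is supplied by
`ES/P36/NodeRegAt10.NodeRegAt` (the earlier team's R3: over an UNRAMIFIED base the two-branch closed points of the
nodal charts are regular nodes of thickness one).

`exists_nodeData_of_nodeRegAt` : `(R', F', B', O1', O2', π')` with `NodeRegAt π' B' O1' O2'`, a model above
`(R, F, B, O1, O2, π)`, `φ : F' →+* F` with `φ B' ⊆ B`, `φ O_j' ⊆ O_j`, `φ π' = π ^ e · u` (`u` a unit of `B`).  Then at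
every prime `𝔪 ∋ π` of `B` through which both branches pass and which has weak node coordinates, `B_𝔪` carries the
strong node normal form of thickness `k ∣ e`, `k ≤ e`.

No maximality of the contraction `𝔪 ∩ B'` is needed: `NodeRegAt` is applied at ANY maximal ideal of `B'` containing it
(it is automatically two-branch), and the conclusions used (`x y = π' e'`, `x ∈ π' O2' ∖ π' O1'`, `y ∉ π' O2'`,
`e' ∉ 𝔫' ⊇ 𝔪 ∩ B'`) do not depend on the point.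
-/
import Mathlib
import Fermat.Agent.ES.P36.NodeRegAt10
import Fermat.Agent.T1B.NodeNF37.Transfer
import Fermat.Agent.T1B.NodeNF37.TransferExplicit

set_option autoImplicit false
set_option linter.unusedSectionVars false
set_option linter.unusedVariables false
set_option linter.style.haveILetI false

namespace Fermat.Agent.T1B.NodeNF37.TransferReg

open IsLocalRing Fermat.Agent.T1B.NodeNF37.Abstract Fermat.Agent.T1B.NodeNF37.UnifOrd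
  Fermat.Agent.T1.Peu37.NodeClassGroup Fermat.Agent.T1B.NodeNF37.Local
  Fermat.Agent.T1B.NodeNF37.N34Inst
  Fermat.Agent.ES.N34.NodalCore13 Fermat.Agent.ES.N34.NumData13 Fermat.Agent.ES.N34.NodalSmooth13
  Fermat.Agent.ES.P36.NodeRegAt10 Fermat.Agent.T1B.NodeNF37.TransferExplicit

variable {R' F' R F : Type*} [CommRing R'] [Field F'] [Algebra R' F'] [CommRing R] [Field F]
  [Algebra R F]

/-- **NODE-NF above from `NodeRegAt` below.** -/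
theorem exists_nodeData_of_nodeRegAt (φ : F' →+* F) (π' : R') (π : R) (B' : Subalgebra R' F')
    (B : Subalgebra R F) (O1' O2' : ValuationSubring F') (O1 O2 : ValuationSubring F)
    [IsNoetherianRing B]
    (hreg : NodeRegAt π' B' O1' O2')
    (hB : ∀ x ∈ B', φ x ∈ B) (hO1 : ∀ x ∈ O1', φ x ∈ O1) (hO2 : ∀ x ∈ O2', φ x ∈ O2)
    (le1' : ∀ x ∈ B', x ∈ O1') (le2' : ∀ x ∈ B', x ∈ O2')
    (unif1' : ∀ x ∈ O1', x⁻¹ ∉ O1' → ∃ c ∈ O1', x = algebraMap R' F' π' * c)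
    (unif2' : ∀ x ∈ O2', x⁻¹ ∉ O2' → ∃ c ∈ O2', x = algebraMap R' F' π' * c)
    (le1 : ∀ x ∈ B, x ∈ O1) (le2 : ∀ x ∈ B, x ∈ O2) (pi_ne : algebraMap R F π ≠ 0)
    (pi_nonunit1 : (algebraMap R F π)⁻¹ ∉ O1) (pi_nonunit2 : (algebraMap R F π)⁻¹ ∉ O2)
    (unif1 : ∀ x ∈ O1, x⁻¹ ∉ O1 → ∃ c ∈ O1, x = algebraMap R F π * c)
    (unif2 : ∀ x ∈ O2, x⁻¹ ∉ O2 → ∃ c ∈ O2, x = algebraMap R F π * c)
    (arch1 : ∀ x : F, ∃ k : ℕ, algebraMap R F π ^ k * x ∈ O1)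
    (arch2 : ∀ x : F, ∃ k : ℕ, algebraMap R F π ^ k * x ∈ O2)
    (sat : ∀ b ∈ B, ∀ c : F, c ∈ O1 → c ∈ O2 → b = algebraMap R F π * c → c ∈ B)
    {e : ℕ} (he : 1 ≤ e) {u : F} (hu : u ∈ B) (hu' : u⁻¹ ∈ B)
    (hπ : φ (algebraMap R' F' π') = algebraMap R F π ^ e * u)
    (𝔪 : Ideal B) [h𝔪 : 𝔪.IsPrime] (hπ𝔪 : algebraMap R B π ∈ 𝔪)
    (hon1 : ¬ OffBranch π B O1 𝔪) (hon2 : ¬ OffBranch π B O2 𝔪) (hN : NodeCoords π B 𝔪) :
    ∃ (H₁ : BranchHyp (gB B) 𝔪 O1 (algebraMap R B π))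
      (H₂ : BranchHyp (gB B) 𝔪 O2 (algebraMap R B π))
      (x' y' : Localization.AtPrime 𝔪) (K : ℕ),
      NodeData (Localization.AtPrime 𝔪) (vv (gB B) (gB_injective B) 𝔪 O1 (algebraMap R B π))
        (vv (gB B) (gB_injective B) 𝔪 O2 (algebraMap R B π)) (PP (gB B) (gB_injective B) 𝔪 H₁)
        (PP (gB B) (gB_injective B) 𝔪 H₂)
        (algebraMap B (Localization.AtPrime 𝔪) (algebraMap R B π)) x' y' K ∧
      K ≤ e ∧ K ∣ e := by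
  set ι := iotaC φ B' B hB with hι
  -- the contraction and a maximal ideal above it
  have hcomap_ne : 𝔪.comap ι ≠ ⊤ := (Ideal.comap_isPrime ι 𝔪).ne_top
  obtain ⟨𝔫, h𝔫max, h𝔫le⟩ := Ideal.exists_le_maximal _ hcomap_ne
  have hπO1 : algebraMap R F π ∈ O1 := le1 _ (B.algebraMap_mem π)
  have hπO2 : algebraMap R F π ∈ O2 := le2 _ (B.algebraMap_mem π)
  obtain ⟨k, rfl⟩ : ∃ k, e = k + 1 := ⟨e - 1, by omega⟩
  -- `π' ∈ 𝔫`
  have hπ𝔫 : algebraMap R' B' π' ∈ 𝔫 := by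
    apply h𝔫le
    rw [Ideal.mem_comap]
    have : ι (algebraMap R' B' π') =
        algebraMap R B π * (⟨algebraMap R F π ^ k * u,
          B.mul_mem (B.pow_mem (B.algebraMap_mem π) k) hu⟩ : B) := by
      apply Subtype.ext
      show φ (algebraMap R' F' π') = algebraMap R F π * (algebraMap R F π ^ k * u)
      rw [hπ]; ring
    rw [this]
    exact 𝔪.mul_mem_right _ hπ𝔪
  -- `𝔫` is two-branch
  have hoff : ∀ (Oj' : ValuationSubring F') (Oj : ValuationSubring F),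
      (∀ x ∈ Oj', φ x ∈ Oj) → (∀ x ∈ B, x ∈ Oj) → ¬ OffBranch π B Oj 𝔪 →
      ¬ OffBranch π' B' Oj' 𝔫 := by
    rintro Oj' Oj hOj lej hon ⟨e₀, he₀, c, hc, hec⟩
    apply hon
    refine ⟨ι e₀, fun hmem => he₀ (h𝔫le (Ideal.mem_comap.2 hmem)),
      algebraMap R F π ^ k * u * φ c, ?_, ?_⟩
    · exact Oj.mul_mem _ _ (Oj.mul_mem _ _ (Oj.pow_mem (lej _ (B.algebraMap_mem π)) k)
        (lej _ hu)) (hOj _ hc)
    · show φ (e₀ : F') = _
      rw [hec, map_mul, hπ]; ring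
  have h1𝔫 := hoff O1' O1 hO1 le1 hon1
  have h2𝔫 := hoff O2' O2 hO2 le2 hon2
  haveI := h𝔫max.isPrime
  obtain ⟨x, y, e', hxy, -, -, -, -, -, hnxy, hnyx, hx2iff, hy1iff, he'⟩ :=
    hreg 𝔫 h𝔫max hπ𝔫 h1𝔫 h2𝔫
  -- the four membership facts
  have hx2 : ∃ c ∈ O2', (x : F') = algebraMap R' F' π' * c := by
    exact (hx2iff (algebraMap ↥B' ↥(locSub B' 𝔫) x)).2 dvd_rfl
  have hx1 : ¬ ∃ c ∈ O1', (x : F') = algebraMap R' F' π' * c := by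
    intro h
    exact hnyx ((hy1iff (algebraMap ↥B' ↥(locSub B' 𝔫) x)).1 h)
  have hy2 : ¬ ∃ c ∈ O2', (y : F') = algebraMap R' F' π' * c := by
    intro h
    exact hnxy ((hx2iff (algebraMap ↥B' ↥(locSub B' 𝔫) y)).1 h)
  have he2 : ¬ ∃ c ∈ O2', (e' : F') = algebraMap R' F' π' * c := fun h => h2𝔫 ⟨e', he', h⟩
  have he'𝔪 : (⟨φ (e' : F'), hB _ e'.2⟩ : B) ∉ 𝔪 := fun hmem =>
    he' (h𝔫le (Ideal.mem_comap.2 hmem))
  exact Transfer.chart_exists_nodeData_of_below φ π' π B' B O1' O2' O1 O2 hB hO1 hO2 le1' le2'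
    unif1' unif2' le1 le2 pi_ne pi_nonunit1 pi_nonunit2 unif1 unif2 arch1 arch2 sat
    (Nat.succ_le_succ (Nat.zero_le k)) hu hu' hπ 𝔪 hπ𝔪 hon1 hon2 hN hxy he'𝔪 hx1 hx2 hy2 he2

/-- The contraction of a maximal ideal is maximal when `B = φ B' + π B` (and `π ∈ 𝔪`). -/
theorem comap_isMaximal_of_surj_mod (φ : F' →+* F) (π : R) (B' : Subalgebra R' F')
    (B : Subalgebra R F) (hB : ∀ x ∈ B', φ x ∈ B)
    (hS : ∀ b ∈ B, ∃ b' ∈ B', ∃ c ∈ B, b = φ b' + algebraMap R F π * c)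
    (𝔪 : Ideal B) [h𝔪 : 𝔪.IsMaximal] (hπ𝔪 : algebraMap R B π ∈ 𝔪) :
    (𝔪.comap (iotaC φ B' B hB)).IsMaximal := by
  set ι := iotaC φ B' B hB with hι
  rw [Ideal.isMaximal_iff]
  refine ⟨fun h1 => h𝔪.ne_top ((Ideal.eq_top_iff_one 𝔪).2 (by
    have := Ideal.mem_comap.1 h1
    rwa [map_one] at this)), ?_⟩
  intro J x hle hx hxJ
  have hιx : ι x ∉ 𝔪 := fun h => hx (Ideal.mem_comap.2 h)
  obtain ⟨y', m, hm, hym⟩ := h𝔪.exists_inv hιx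
  obtain ⟨y, hy, c, hc, hyc⟩ := hS y' y'.2
  -- `ι (x * y - 1) ∈ 𝔪`
  have hmem : ι (x * ⟨y, hy⟩ - 1) ∈ 𝔪 := by
    have e1 : ι (x * ⟨y, hy⟩ - 1) =
        -(m + algebraMap R B π * (⟨c, hc⟩ * ι x)) := by
      have hy' : y' = ι ⟨y, hy⟩ + algebraMap R B π * ⟨c, hc⟩ := Subtype.ext hyc
      rw [map_sub, map_mul, map_one]
      have h1 : ι x * ι ⟨y, hy⟩ = 1 - m - algebraMap R B π * (⟨c, hc⟩ * ι x) := by
        have h2 : y' * ι x + m = 1 := hym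
        rw [hy'] at h2
        linear_combination h2
      rw [h1]; ring
    rw [e1]
    exact 𝔪.neg_mem (𝔪.add_mem hm (𝔪.mul_mem_right _ hπ𝔪))
  have h3 : x * ⟨y, hy⟩ - 1 ∈ J := hle (Ideal.mem_comap.2 hmem)
  have h4 : (1 : B') = x * ⟨y, hy⟩ - (x * ⟨y, hy⟩ - 1) := by ring
  rw [h4]
  exact J.sub_mem (J.mul_mem_right _ hxJ) h3

/-- **Node data above with EXPLICIT coordinates from `NodeRegAt` below** (totally ramified base change: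
`B = φ B' + π B`).  The coordinates are the images of regular node coordinates `x y` of the model below at the
contraction of `𝔪`, the thickness is exactly `e` (`φ π' = π ^ e · u`). -/
theorem exists_nodeData_explicit_of_nodeRegAt (φ : F' →+* F) (π' : R') (π : R)
    (B' : Subalgebra R' F') (B : Subalgebra R F) (O1' O2' : ValuationSubring F')
    (O1 O2 : ValuationSubring F)
    (hreg : NodeRegAt π' B' O1' O2')
    (hB : ∀ x ∈ B', φ x ∈ B) (hO1 : ∀ x ∈ O1', φ x ∈ O1) (hO2 : ∀ x ∈ O2', φ x ∈ O2)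
    (le1' : ∀ x ∈ B', x ∈ O1') (le2' : ∀ x ∈ B', x ∈ O2')
    (unif1' : ∀ x ∈ O1', x⁻¹ ∉ O1' → ∃ c ∈ O1', x = algebraMap R' F' π' * c)
    (unif2' : ∀ x ∈ O2', x⁻¹ ∉ O2' → ∃ c ∈ O2', x = algebraMap R' F' π' * c)
    (le1 : ∀ x ∈ B, x ∈ O1) (le2 : ∀ x ∈ B, x ∈ O2) (pi_ne : algebraMap R F π ≠ 0)
    (pi_nonunit1 : (algebraMap R F π)⁻¹ ∉ O1) (pi_nonunit2 : (algebraMap R F π)⁻¹ ∉ O2)
    (unif1 : ∀ x ∈ O1, x⁻¹ ∉ O1 → ∃ c ∈ O1, x = algebraMap R F π * c)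
    (unif2 : ∀ x ∈ O2, x⁻¹ ∉ O2 → ∃ c ∈ O2, x = algebraMap R F π * c)
    (arch1 : ∀ x : F, ∃ k : ℕ, algebraMap R F π ^ k * x ∈ O1)
    (arch2 : ∀ x : F, ∃ k : ℕ, algebraMap R F π ^ k * x ∈ O2)
    (sat : ∀ b ∈ B, ∀ c : F, c ∈ O1 → c ∈ O2 → b = algebraMap R F π * c → c ∈ B)
    {e : ℕ} (he : 1 ≤ e) {u : F} (hu : u ∈ B) (hu' : u⁻¹ ∈ B)
    (hπ : φ (algebraMap R' F' π') = algebraMap R F π ^ e * u)
    (hS : ∀ b ∈ B, ∃ b' ∈ B', ∃ c ∈ B, b = φ b' + algebraMap R F π * c)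
    (𝔪 : Ideal B) [h𝔪 : 𝔪.IsMaximal] (hπ𝔪 : algebraMap R B π ∈ 𝔪)
    (hon1 : ¬ OffBranch π B O1 𝔪) (hon2 : ¬ OffBranch π B O2 𝔪) :
    ∃ (x y e' : B') (H₁ : BranchHyp (gB B) 𝔪 O1 (algebraMap R B π))
      (H₂ : BranchHyp (gB B) 𝔪 O2 (algebraMap R B π)),
      x * y = algebraMap R' B' π' * e' ∧ iotaC φ B' B hB e' ∉ 𝔪 ∧
      (∃ c ∈ O2', (x : F') = algebraMap R' F' π' * c) ∧
      (∃ c ∈ O1', (y : F') = algebraMap R' F' π' * c) ∧
      NodeData (Localization.AtPrime 𝔪) (vv (gB B) (gB_injective B) 𝔪 O1 (algebraMap R B π))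
        (vv (gB B) (gB_injective B) 𝔪 O2 (algebraMap R B π)) (PP (gB B) (gB_injective B) 𝔪 H₁)
        (PP (gB B) (gB_injective B) 𝔪 H₂)
        (algebraMap B (Localization.AtPrime 𝔪) (algebraMap R B π))
        (algebraMap B (Localization.AtPrime 𝔪) (iotaC φ B' B hB x))
        (algebraMap B (Localization.AtPrime 𝔪) (iotaC φ B' B hB y)) e := by
  set ι := iotaC φ B' B hB with hι
  have h𝔫max : (𝔪.comap ι).IsMaximal := comap_isMaximal_of_surj_mod φ π B' B hB hS 𝔪 hπ𝔪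
  set 𝔫 := 𝔪.comap ι with h𝔫
  obtain ⟨k, rfl⟩ : ∃ k, e = k + 1 := ⟨e - 1, by omega⟩
  have hπ𝔫 : algebraMap R' B' π' ∈ 𝔫 := by
    rw [h𝔫, Ideal.mem_comap]
    have : ι (algebraMap R' B' π') =
        algebraMap R B π * (⟨algebraMap R F π ^ k * u,
          B.mul_mem (B.pow_mem (B.algebraMap_mem π) k) hu⟩ : B) := by
      apply Subtype.ext
      show φ (algebraMap R' F' π') = algebraMap R F π * (algebraMap R F π ^ k * u)
      rw [hπ]; ring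
    rw [this]
    exact 𝔪.mul_mem_right _ hπ𝔪
  have hoff : ∀ (Oj' : ValuationSubring F') (Oj : ValuationSubring F),
      (∀ x ∈ Oj', φ x ∈ Oj) → (∀ x ∈ B, x ∈ Oj) → ¬ OffBranch π B Oj 𝔪 →
      ¬ OffBranch π' B' Oj' 𝔫 := by
    rintro Oj' Oj hOj lej hon ⟨e₀, he₀, c, hc, hec⟩
    apply hon
    refine ⟨ι e₀, fun hmem => he₀ (Ideal.mem_comap.2 hmem),
      algebraMap R F π ^ k * u * φ c, ?_, ?_⟩
    · exact Oj.mul_mem _ _ (Oj.mul_mem _ _ (Oj.pow_mem (lej _ (B.algebraMap_mem π)) k)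
        (lej _ hu)) (hOj _ hc)
    · show φ (e₀ : F') = _
      rw [hec, map_mul, hπ]; ring
  have h1𝔫 := hoff O1' O1 hO1 le1 hon1
  have h2𝔫 := hoff O2' O2 hO2 le2 hon2
  haveI := h𝔫max.isPrime
  obtain ⟨x, y, e', hxy, -, -, hmaxloc, -, -, hnxy, hnyx, hx2iff, hy1iff, he'⟩ :=
    hreg 𝔫 h𝔫max hπ𝔫 h1𝔫 h2𝔫
  have hx2 : ∃ c ∈ O2', (x : F') = algebraMap R' F' π' * c := by
    exact (hx2iff (algebraMap ↥B' ↥(locSub B' 𝔫) x)).2 dvd_rfl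
  have hy1 : ∃ c ∈ O1', (y : F') = algebraMap R' F' π' * c := by
    exact (hy1iff (algebraMap ↥B' ↥(locSub B' 𝔫) y)).2 dvd_rfl
  have hx1 : ¬ ∃ c ∈ O1', (x : F') = algebraMap R' F' π' * c := by
    intro h
    exact hnyx ((hy1iff (algebraMap ↥B' ↥(locSub B' 𝔫) x)).1 h)
  have hy2 : ¬ ∃ c ∈ O2', (y : F') = algebraMap R' F' π' * c := by
    intro h
    exact hnxy ((hx2iff (algebraMap ↥B' ↥(locSub B' 𝔫) y)).1 h)
  have he'𝔪 : ι e' ∉ 𝔪 := fun hmem => he' (Ideal.mem_comap.2 hmem)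
  -- two generators, chart form
  have hgen' : ∀ f : B', ι f ∈ 𝔪 → ∃ d : B', ι d ∉ 𝔪 ∧ d * f ∈ Ideal.span {x, y} := by
    intro f hf
    have hf𝔫 : f ∈ 𝔫 := Ideal.mem_comap.2 hf
    have hfmax : algebraMap ↥B' ↥(locSub B' 𝔫) f ∈ maximalIdeal ↥(locSub B' 𝔫) :=
      (IsLocalization.AtPrime.to_map_mem_maximal_iff ↥(locSub B' 𝔫) 𝔫 f).2 hf𝔫
    rw [hmaxloc] at hfmax
    obtain ⟨α, β, hαβ⟩ := Ideal.mem_span_pair.1 hfmax
    obtain ⟨a₁, d₁, hd₁, h₁⟩ := (mem_locSub B' 𝔫).1 α.2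
    obtain ⟨a₂, d₂, hd₂, h₂⟩ := (mem_locSub B' 𝔫).1 β.2
    refine ⟨d₁ * d₂, fun hmem => ?_, ?_⟩
    · rcases (h𝔫max.isPrime).mem_or_mem (Ideal.mem_comap.2 hmem : d₁ * d₂ ∈ 𝔫) with h | h
      · exact hd₁ h
      · exact hd₂ h
    · have hF : ((d₁ * d₂ * f : B') : F') = ((a₁ * d₂ * x + a₂ * d₁ * y : B') : F') := by
        have h0 := congrArg (fun z : ↥(locSub B' 𝔫) => (z : F')) hαβ
        simp only [Subalgebra.coe_add, Subalgebra.coe_mul, coe_algebraMap_loc] at h0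
        push_cast
        rw [← h0, ← h₁, ← h₂]
        ring
      have hB' : d₁ * d₂ * f = a₁ * d₂ * x + a₂ * d₁ * y := Subtype.ext hF
      rw [hB']
      exact Ideal.add_mem _ (Ideal.mul_mem_left _ _ (Ideal.subset_span (by simp)))
        (Ideal.mul_mem_left _ _ (Ideal.subset_span (by simp)))
  obtain ⟨H₁, H₂, hD⟩ := nodeData_of_below_explicit φ π' π B' B O1' O2' O1 O2 hB hO1 hO2 le1' le2'
    unif1' unif2' le1 le2 pi_ne pi_nonunit1 pi_nonunit2 unif1 unif2 arch1 arch2 sat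
    (Nat.succ_le_succ (Nat.zero_le k)) hu hu' hπ hS 𝔪 hπ𝔪 hon1 hon2 hxy he'𝔪 hgen' hx1 hy2
  exact ⟨x, y, e', H₁, H₂, hxy, he'𝔪, hx2, hy1, hD⟩

end Fermat.Agent.T1B.NodeNF37.TransferReg
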