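/-
T1B / NODE (helper37): THICKNESS-ONE node data WITH EXPLICIT COORDINATES on a chart with regular nodes
(`ES.P36.NodeRegAt10.NodeRegAt`), and helper80's bundle `Hol80.NodalChartHyp π O1 O2 1`.

This is `TransferReg.exists_nodeData_explicit_of_nodeRegAt` at `φ = id`, `e = 1`, `u = 1`: the SOURCE FACT (b) of
helper45's LEVEL-MODEL (thickness-one `NodeData` with coordinates `x y ∈ B` at every two-branch maximal ideal of the
chart over an INERTIAL base), to be base-changed by `Node45.NodeBC`.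

* `exists_nodeData_one` : generic chart `B ⊂ F` (elementary model hypotheses + `NodeRegAt π B O1 O2`);
* `chartHyp`, `nodalChartHyp_one` : `Hol80.ChartHyp`, `Hol80.NodalChartHyp (algebraMap R B π) O1 O2 1`;
* `exists_nodeData_one0/1`, `nodalChartHyp_one0/1` : for the two charts of a `NodalTwoChartModel`.
-/
import Mathlib
import Fermat.Agent.T1B.NodeNF37.TransferReg
import Fermat.Agent.T1B.Hol80.NodalChartHyp

set_option autoImplicit false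
set_option linter.unusedSectionVars false
set_option linter.unusedVariables false
set_option linter.style.haveILetI false

namespace Fermat.Agent.T1B.NodeNF37.ThickOne

open IsLocalRing Fermat.Agent.T1B.NodeNF37.Abstract Fermat.Agent.T1B.NodeNF37.UnifOrd
  Fermat.Agent.T1.Peu37.NodeClassGroup Fermat.Agent.T1B.NodeNF37.Local
  Fermat.Agent.T1B.NodeNF37.N34Inst
  Fermat.Agent.ES.N34.NodalCore13 Fermat.Agent.ES.N34.NodalSmooth13
  Fermat.Agent.ES.P36.NodeRegAt10 Fermat.Agent.T1B.NodeNF37.TransferExplicit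

variable {R F : Type*} [CommRing R] [Field F] [Algebra R F]

/-- **Thickness-one node data with explicit coordinates** at the two-branch maximal ideals of a chart whose nodes are
regular (`NodeRegAt`). -/
theorem exists_nodeData_one (π : R) (B : Subalgebra R F) (O1 O2 : ValuationSubring F)
    (hreg : NodeRegAt π B O1 O2)
    (le1 : ∀ x ∈ B, x ∈ O1) (le2 : ∀ x ∈ B, x ∈ O2) (pi_ne : algebraMap R F π ≠ 0)
    (pi_nonunit1 : (algebraMap R F π)⁻¹ ∉ O1) (pi_nonunit2 : (algebraMap R F π)⁻¹ ∉ O2)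
    (unif1 : ∀ x ∈ O1, x⁻¹ ∉ O1 → ∃ c ∈ O1, x = algebraMap R F π * c)
    (unif2 : ∀ x ∈ O2, x⁻¹ ∉ O2 → ∃ c ∈ O2, x = algebraMap R F π * c)
    (arch1 : ∀ x : F, ∃ k : ℕ, algebraMap R F π ^ k * x ∈ O1)
    (arch2 : ∀ x : F, ∃ k : ℕ, algebraMap R F π ^ k * x ∈ O2)
    (sat : ∀ b ∈ B, ∀ c : F, c ∈ O1 → c ∈ O2 → b = algebraMap R F π * c → c ∈ B)
    (𝔪 : Ideal B) [h𝔪 : 𝔪.IsMaximal] (hπ𝔪 : algebraMap R B π ∈ 𝔪)
    (hon1 : ¬ OffBranch π B O1 𝔪) (hon2 : ¬ OffBranch π B O2 𝔪) :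
    ∃ (x y e' : B) (H₁ : BranchHyp (gB B) 𝔪 O1 (algebraMap R B π))
      (H₂ : BranchHyp (gB B) 𝔪 O2 (algebraMap R B π)),
      x * y = algebraMap R B π * e' ∧ e' ∉ 𝔪 ∧
      (∃ c ∈ O2, (x : F) = algebraMap R F π * c) ∧
      (∃ c ∈ O1, (y : F) = algebraMap R F π * c) ∧
      NodeData (Localization.AtPrime 𝔪) (vv (gB B) (gB_injective B) 𝔪 O1 (algebraMap R B π))
        (vv (gB B) (gB_injective B) 𝔪 O2 (algebraMap R B π)) (PP (gB B) (gB_injective B) 𝔪 H₁)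
        (PP (gB B) (gB_injective B) 𝔪 H₂)
        (algebraMap B (Localization.AtPrime 𝔪) (algebraMap R B π))
        (algebraMap B (Localization.AtPrime 𝔪) x)
        (algebraMap B (Localization.AtPrime 𝔪) y) 1 := by
  have hB : ∀ x ∈ B, (RingHom.id F) x ∈ B := fun x hx => hx
  obtain ⟨x, y, e', H₁, H₂, hxy, he', hx2, hy1, hD⟩ :=
    TransferReg.exists_nodeData_explicit_of_nodeRegAt (RingHom.id F) π π B B O1 O2 O1 O2 hreg hB
      (fun x hx => hx) (fun x hx => hx) le1 le2 unif1 unif2 le1 le2 pi_ne pi_nonunit1 pi_nonunit2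
      unif1 unif2 arch1 arch2 sat (e := 1) le_rfl (u := 1) B.one_mem
      (by rw [inv_one]; exact B.one_mem) (by rw [pow_one, mul_one]; rfl)
      (fun b hb => ⟨b, hb, 0, B.zero_mem, by rw [mul_zero, add_zero]; rfl⟩) 𝔪 hπ𝔪 hon1 hon2
  have hid : ∀ z : B, iotaC (RingHom.id F) B B hB z = z := fun z => Subtype.ext rfl
  rw [hid] at he'
  rw [hid x, hid y] at hD
  exact ⟨x, y, e', H₁, H₂, hxy, he', hx2, hy1, hD⟩

/-- helper80's `ChartHyp` for a `Subalgebra` chart. -/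
theorem chartHyp (π : R) (B : Subalgebra R F) (O1 O2 : ValuationSubring F)
    (le1 : ∀ x ∈ B, x ∈ O1) (le2 : ∀ x ∈ B, x ∈ O2) (pi_ne : algebraMap R F π ≠ 0)
    (pi_nonunit1 : (algebraMap R F π)⁻¹ ∉ O1) (pi_nonunit2 : (algebraMap R F π)⁻¹ ∉ O2)
    (unif1 : ∀ x ∈ O1, x⁻¹ ∉ O1 → ∃ c ∈ O1, x = algebraMap R F π * c)
    (unif2 : ∀ x ∈ O2, x⁻¹ ∉ O2 → ∃ c ∈ O2, x = algebraMap R F π * c)
    (arch1 : ∀ x : F, ∃ k : ℕ, algebraMap R F π ^ k * x ∈ O1)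
    (arch2 : ∀ x : F, ∃ k : ℕ, algebraMap R F π ^ k * x ∈ O2)
    (sat : ∀ b ∈ B, ∀ c : F, c ∈ O1 → c ∈ O2 → b = algebraMap R F π * c → c ∈ B) :
    Fermat.Agent.T1B.Hol80.ChartHyp (algebraMap R ↥B π) O1 O2 where
  inj := gB_injective B
  le₁ := fun b => le1 _ b.2
  le₂ := fun b => le2 _ b.2
  unif₁ := ⟨pi_ne, pi_nonunit1, unif1, arch1⟩
  unif₂ := ⟨pi_ne, pi_nonunit2, unif2, arch2⟩
  sat := fun b z h1 h2 h => ⟨⟨z, sat b b.2 z h1 h2 h⟩, rfl⟩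

/-- `Hol80.Off` is `OffBranch` on a `Subalgebra` chart. -/
theorem off_iff_offBranch (π : R) (B : Subalgebra R F) (O : ValuationSubring F) (𝔪 : Ideal B) :
    Fermat.Agent.T1B.Hol80.Off (algebraMap R ↥B π) O 𝔪 ↔ OffBranch π B O 𝔪 := Iff.rfl

/-- **helper80's `NodalChartHyp` of thickness one** for a `Subalgebra` chart with regular nodes. -/
theorem nodalChartHyp_one (π : R) (B : Subalgebra R F) (O1 O2 : ValuationSubring F)
    (hreg : NodeRegAt π B O1 O2)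
    (le1 : ∀ x ∈ B, x ∈ O1) (le2 : ∀ x ∈ B, x ∈ O2) (pi_ne : algebraMap R F π ≠ 0)
    (pi_nonunit1 : (algebraMap R F π)⁻¹ ∉ O1) (pi_nonunit2 : (algebraMap R F π)⁻¹ ∉ O2)
    (unif1 : ∀ x ∈ O1, x⁻¹ ∉ O1 → ∃ c ∈ O1, x = algebraMap R F π * c)
    (unif2 : ∀ x ∈ O2, x⁻¹ ∉ O2 → ∃ c ∈ O2, x = algebraMap R F π * c)
    (arch1 : ∀ x : F, ∃ k : ℕ, algebraMap R F π ^ k * x ∈ O1)
    (arch2 : ∀ x : F, ∃ k : ℕ, algebraMap R F π ^ k * x ∈ O2)
    (sat : ∀ b ∈ B, ∀ c : F, c ∈ O1 → c ∈ O2 → b = algebraMap R F π * c → c ∈ B) :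
    Fermat.Agent.T1B.Hol80.NodalChartHyp (algebraMap R ↥B π) O1 O2 1 where
  chart := chartHyp π B O1 O2 le1 le2 pi_ne pi_nonunit1 pi_nonunit2 unif1 unif2 arch1 arch2 sat
  node := by
    intro 𝔫 h𝔫 hoff1 hoff2
    have hon1 : ¬ OffBranch π B O1 𝔫 := hoff1
    have hon2 : ¬ OffBranch π B O2 𝔫 := hoff2
    have hπ𝔫 : algebraMap R B π ∈ 𝔫 := by
      by_contra hn
      exact hon1 ⟨algebraMap R B π, hn, 1, O1.one_mem, by rw [mul_one]; rfl⟩
    obtain ⟨x, y, e', H₁, H₂, -, -, -, -, hD⟩ :=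
      exists_nodeData_one π B O1 O2 hreg le1 le2 pi_ne pi_nonunit1 pi_nonunit2 unif1 unif2
        arch1 arch2 sat 𝔫 hπ𝔫 hon1 hon2
    exact ⟨H₁, H₂, _, _, hD⟩

section Model

variable {π : R} {t : F} {B0 B1 : Subalgebra R F} {O1 O2 : ValuationSubring F}

/-- thickness-one node data on chart `0` of a nodal two-chart model with regular nodes. -/
theorem exists_nodeData_one0 (N : NodalTwoChartModel R F π t B0 B1 O1 O2)
    (hreg : NodeRegAt π B0 O1 O2)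
    (𝔪 : Ideal B0) [h𝔪 : 𝔪.IsMaximal] (hπ𝔪 : algebraMap R B0 π ∈ 𝔪)
    (hon1 : ¬ OffBranch π B0 O1 𝔪) (hon2 : ¬ OffBranch π B0 O2 𝔪) :
    ∃ (x y e' : B0) (H₁ : BranchHyp (gB B0) 𝔪 O1 (algebraMap R B0 π))
      (H₂ : BranchHyp (gB B0) 𝔪 O2 (algebraMap R B0 π)),
      x * y = algebraMap R B0 π * e' ∧ e' ∉ 𝔪 ∧
      (∃ c ∈ O2, (x : F) = algebraMap R F π * c) ∧
      (∃ c ∈ O1, (y : F) = algebraMap R F π * c) ∧
      NodeData (Localization.AtPrime 𝔪) (vv (gB B0) (gB_injective B0) 𝔪 O1 (algebraMap R B0 π))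
        (vv (gB B0) (gB_injective B0) 𝔪 O2 (algebraMap R B0 π)) (PP (gB B0) (gB_injective B0) 𝔪 H₁)
        (PP (gB B0) (gB_injective B0) 𝔪 H₂)
        (algebraMap B0 (Localization.AtPrime 𝔪) (algebraMap R B0 π))
        (algebraMap B0 (Localization.AtPrime 𝔪) x)
        (algebraMap B0 (Localization.AtPrime 𝔪) y) 1 :=
  exists_nodeData_one π B0 O1 O2 hreg N.le_O1_0 N.le_O2_0 N.pi_ne N.pi_nonunit1 N.pi_nonunit2
    N.unif1 N.unif2 N.arch1 N.arch2 N.sat0 𝔪 hπ𝔪 hon1 hon2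

/-- thickness-one node data on chart `1` of a nodal two-chart model with regular nodes. -/
theorem exists_nodeData_one1 (N : NodalTwoChartModel R F π t B0 B1 O1 O2)
    (hreg : NodeRegAt π B1 O1 O2)
    (𝔪 : Ideal B1) [h𝔪 : 𝔪.IsMaximal] (hπ𝔪 : algebraMap R B1 π ∈ 𝔪)
    (hon1 : ¬ OffBranch π B1 O1 𝔪) (hon2 : ¬ OffBranch π B1 O2 𝔪) :
    ∃ (x y e' : B1) (H₁ : BranchHyp (gB B1) 𝔪 O1 (algebraMap R B1 π))
      (H₂ : BranchHyp (gB B1) 𝔪 O2 (algebraMap R B1 π)),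
      x * y = algebraMap R B1 π * e' ∧ e' ∉ 𝔪 ∧
      (∃ c ∈ O2, (x : F) = algebraMap R F π * c) ∧
      (∃ c ∈ O1, (y : F) = algebraMap R F π * c) ∧
      NodeData (Localization.AtPrime 𝔪) (vv (gB B1) (gB_injective B1) 𝔪 O1 (algebraMap R B1 π))
        (vv (gB B1) (gB_injective B1) 𝔪 O2 (algebraMap R B1 π)) (PP (gB B1) (gB_injective B1) 𝔪 H₁)
        (PP (gB B1) (gB_injective B1) 𝔪 H₂)
        (algebraMap B1 (Localization.AtPrime 𝔪) (algebraMap R B1 π))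
        (algebraMap B1 (Localization.AtPrime 𝔪) x)
        (algebraMap B1 (Localization.AtPrime 𝔪) y) 1 :=
  exists_nodeData_one π B1 O1 O2 hreg N.le_O1_1 N.le_O2_1 N.pi_ne N.pi_nonunit1 N.pi_nonunit2
    N.unif1 N.unif2 N.arch1 N.arch2 N.sat1 𝔪 hπ𝔪 hon1 hon2

/-- `NodalChartHyp` of thickness one on chart `0`. -/
theorem nodalChartHyp_one0 (N : NodalTwoChartModel R F π t B0 B1 O1 O2)
    (hreg : NodeRegAt π B0 O1 O2) :
    Fermat.Agent.T1B.Hol80.NodalChartHyp (algebraMap R ↥B0 π) O1 O2 1 :=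
  nodalChartHyp_one π B0 O1 O2 hreg N.le_O1_0 N.le_O2_0 N.pi_ne N.pi_nonunit1 N.pi_nonunit2
    N.unif1 N.unif2 N.arch1 N.arch2 N.sat0

/-- `NodalChartHyp` of thickness one on chart `1`. -/
theorem nodalChartHyp_one1 (N : NodalTwoChartModel R F π t B0 B1 O1 O2)
    (hreg : NodeRegAt π B1 O1 O2) :
    Fermat.Agent.T1B.Hol80.NodalChartHyp (algebraMap R ↥B1 π) O1 O2 1 :=
  nodalChartHyp_one π B1 O1 O2 hreg N.le_O1_1 N.le_O2_1 N.pi_ne N.pi_nonunit1 N.pi_nonunit2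
    N.unif1 N.unif2 N.arch1 N.arch2 N.sat1

end Model

end Fermat.Agent.T1B.NodeNF37.ThickOne
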