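/-
T1B / TORIC50 on the CONCRETE HUB (helper37, agreed with helper98 / helper9): the hypotheses
`NodeNF37.ToricBaseInst.Hyp` on helper9's hub `Hub9` (`HubParams p M' K`, `W = Wb p K`, `piW p K`, `tS H`, `B0S H`,
`B1S H`, `O1S p M' K`, `O2S p M' K`), and the regular nodes.

* `HyS H : Hyp (piW p K) (tS H) (B0S H) (B1S H) (O1S p M' K) (O2S p M' K)`   [NOT bundled with `toricBase`; helper98 takes
  `(HyS H).toricBase (DS H) rfl rfl`];
* `nodeRegS H : NodeRegAt (piW p K) (B0S H) .. ∧ NodeRegAt (piW p K) (B1S H) ..`  (R3 on the hub);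
* `nodalChartHypS0 H`, `nodalChartHypS1 H : Hol80.NodalChartHyp (algebraMap (Wb p K) ↥(B_jS H) (piW p K)) (O1S ..) (O2S ..) 1`;
(RAT-NODES on the hub: `NodeNF37/HubRat37.lean`, `exists_rational_hub`, `exists_hubParams_hrat`.)
-/
import Mathlib
import Fermat.Agent.T1B.Hub9.Base
import Fermat.Agent.T1B.NodeNF37.ConcreteHyp
import Fermat.Agent.T1B.NodeNF37.ThickOne

set_option autoImplicit false
set_option synthInstance.maxHeartbeats 400000
set_option maxHeartbeats 1000000
set_option linter.unusedSectionVars false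
set_option linter.style.haveILetI false

noncomputable section

namespace Fermat.Agent.T1B.NodeNF37.HubHyp

open Fermat.Agent.RED.Interface4 Fermat.Agent.RED.PUR.GaussGen8
open Fermat.Agent.T1.Assembly41.Concrete
open Fermat.Agent.T1B.Local66.LocalBase
open Fermat.Agent.T1B.Hub9
open Fermat.Agent.ES.N34.ModelDefs9 Fermat.Agent.ES.N34.NumData13 Fermat.Agent.ES.N34.NodalCore13
open Fermat.Agent.ES.P36.InertField27 Fermat.Agent.ES.P36.NodeRegAt10
open Fermat.Agent.T1B.NodeNF37.ToricBaseInst Fermat.Agent.T1B.NodeNF37.ConcreteHyp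
open scoped Fermat.Agent.T1.Assembly41.FastInst

variable {p M' : ℕ} [Fact p.Prime] [NeZero p] [NeZero M'] {K : IntermediateField ℚ Qbar}
  [FiniteDimensional ℚ K]

/-- **`Hyp` on the hub.** -/
theorem HyS (H : HubParams p M' K) :
    Hyp (piW p K) (tS H) (B0S H) (B1S H) (O1S p M' K) (O2S p M' K) :=
  hyp_four H.hp H.hp2 H.hpM H.h4 (hA p) H.hK H.hζ H.htq (hES p M' K) (piW p K) (isUnif_piW p K)

/-- **R3 on the hub**: the nodes of both charts are regular of thickness one. -/
theorem nodeRegS (H : HubParams p M' K) :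
    NodeRegAt (piW p K) (B0S H) (O1S p M' K) (O2S p M' K) ∧
      NodeRegAt (piW p K) (B1S H) (O1S p M' K) (O2S p M' K) :=
  nodeRegAt_four H.hp H.hp2 H.hpM H.h4 (hA p) H.hK H.hζ H.htq (hES p M' K) (piW p K)
    (isUnif_piW p K)

/-- helper80's `NodalChartHyp` of thickness one on chart `0` of the hub. -/
theorem nodalChartHypS0 (H : HubParams p M' K) :
    Fermat.Agent.T1B.Hol80.NodalChartHyp (algebraMap (Wb p K) ↥(B0S H) (piW p K))
      (O1S p M' K) (O2S p M' K) 1 :=
  ThickOne.nodalChartHyp_one0 (HyS H).model (nodeRegS H).1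

/-- helper80's `NodalChartHyp` of thickness one on chart `1` of the hub. -/
theorem nodalChartHypS1 (H : HubParams p M' K) :
    Fermat.Agent.T1B.Hol80.NodalChartHyp (algebraMap (Wb p K) ↥(B1S H) (piW p K))
      (O1S p M' K) (O2S p M' K) 1 :=
  ThickOne.nodalChartHyp_one1 (HyS H).model (nodeRegS H).2

end Fermat.Agent.T1B.NodeNF37.HubHyp
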