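/-
T1B / TORIC50, brick RAT-NODES (concrete, ES side; helper37 — split with helper23):

(a) `isPrimitiveRoot_residue_AK` : `A | q`, `K'` a subfield of `ℚ̄` containing a primitive `N`-th root of unity `ζ`,
    `q ∤ N`.  Then `ζ ∈ A ∩ K'` and its residue class is a primitive `N`-th root of unity of the residue field of
    `A ∩ K'` (roots of unity of order prime to `q` stay distinct modulo `𝔪_A`: `CycloChar8`).
    `exists_primitiveRoot_residue_AK` : the existential form.
(a') `inertFixed_adjoin_zeta` / `exists_isInertial_zeta` : for `q ∤ N` there is, above every finite inertial `K₀`, a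
    finite inertial `K ∋ ζ_N` (`ZetaUnr26.inertia_fixes_rootOfUnity` + `InertField27`).
-/
import Mathlib
import Fermat.Agent.ES.J.CycloChar8
import Fermat.Agent.ES.P36.ZetaUnr26
import Fermat.Agent.ES.P36.InertField27
import Fermat.Agent.RED.DESC.NumberFieldDVR27

set_option autoImplicit false
set_option linter.unusedSectionVars false
set_option linter.style.haveILetI false

noncomputable section

namespace Fermat.Agent.T1B.NodeNF37.RatNodes37

open IsLocalRing Fermat.Agent.RED.Interface4 Fermat.Agent.RED.DESC.NumberFieldDVR27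
  Fermat.Agent.ES.J.CycloChar8 Fermat.Agent.ES.P36.InertField27

variable {A : ValuationSubring Qbar} {q : ℕ}

/-- the residue class in `κ(A)` of a primitive `N`-th root of unity, `q ∤ N`, is primitive. -/
theorem isPrimitiveRoot_residue (hq : q.Prime) (hA : A.LiesOverPrime q) {N : ℕ} (hqN : ¬ q ∣ N)
    {ζ : Qbar} (hζ : IsPrimitiveRoot ζ N) (hζA : ζ ∈ A) :
    IsPrimitiveRoot (residue ↥A ⟨ζ, hζA⟩) N := by
  rw [IsPrimitiveRoot.iff_def]
  constructor
  · rw [← map_pow]
    have : (⟨ζ, hζA⟩ : ↥A) ^ N = 1 := Subtype.ext (by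
      rw [SubmonoidClass.coe_pow]; exact hζ.pow_eq_one)
    rw [this, map_one]
  · intro l hl
    rw [← map_pow, ← sub_eq_zero, ← map_one (residue ↥A), ← map_sub, residue_eq_zero_iff] at hl
    have hnon : ζ ^ l - 1 ∈ A.nonunits := by
      have h2 := (ValuationSubring.coe_mem_nonunits_iff (A := A)).2 hl
      have h3 : (((⟨ζ, hζA⟩ : ↥A) ^ l - 1 : ↥A) : Qbar) = ζ ^ l - 1 := rfl
      rwa [h3] at h2
    have hη : (ζ ^ l) ^ N = 1 := by rw [← pow_mul, mul_comm, pow_mul, hζ.pow_eq_one, one_pow]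
    have h1 := eq_one_of_sub_one_mem_nonunits hq hA hqN hη hnon
    exact hζ.dvd_of_pow_eq_one l h1

/-- **(a)** the residue field of `A ∩ K'` contains a primitive `N`-th root of unity as soon as `K'` does
(`q ∤ N`). -/
theorem isPrimitiveRoot_residue_AK (hq : q.Prime) (hA : A.LiesOverPrime q)
    (K' : IntermediateField ℚ Qbar) {N : ℕ} (hqN : ¬ q ∣ N)
    {ζ : Qbar} (hζ : IsPrimitiveRoot ζ N) (hζK : ζ ∈ K') :
    ∃ hmem : (⟨ζ, hζK⟩ : ↥K') ∈ AK A K',
      IsPrimitiveRoot (residue ↥(AK A K') ⟨⟨ζ, hζK⟩, hmem⟩) N := by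
  have hN0 : N ≠ 0 := fun h0 => hqN (h0 ▸ dvd_zero q)
  have hζA : ζ ∈ A := mem_of_pow_eq_one hN0 hζ.pow_eq_one
  have hmem : (⟨ζ, hζK⟩ : ↥K') ∈ AK A K' := (mem_AK_iff A K' _).2 hζA
  refine ⟨hmem, ?_⟩
  have h1 := isPrimitiveRoot_residue hq hA hqN hζ hζA
  have h2 : resMap A K' (residue ↥(AK A K') ⟨⟨ζ, hζK⟩, hmem⟩) = residue ↥A ⟨ζ, hζA⟩ :=
    resMap_residue A K' _
  rw [← h2] at h1
  exact IsPrimitiveRoot.of_map_of_injective h1 (resMap_injective A K')

/-- **(a)**, existential form. -/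
theorem exists_primitiveRoot_residue_AK (hq : q.Prime) (hA : A.LiesOverPrime q)
    (K' : IntermediateField ℚ Qbar) {N : ℕ} (hqN : ¬ q ∣ N)
    {ζ : Qbar} (hζ : IsPrimitiveRoot ζ N) (hζK : ζ ∈ K') :
    ∃ z : ResidueField ↥(AK A K'), IsPrimitiveRoot z N := by
  obtain ⟨hmem, h⟩ := isPrimitiveRoot_residue_AK hq hA K' hqN hζ hζK
  exact ⟨_, h⟩

/-- `ℚ̄` contains primitive `N`-th roots of unity. -/
theorem exists_primitiveRoot_Qbar {N : ℕ} (hN : N ≠ 0) : ∃ ζ : Qbar, IsPrimitiveRoot ζ N := by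
  haveI : NeZero N := ⟨hN⟩
  haveI : NeZero (N : Qbar) := ⟨by exact_mod_cast hN⟩
  exact HasEnoughRootsOfUnity.exists_primitiveRoot Qbar N

/-- **(a')** above every finite subfield fixed by inertia there is a finite INERTIAL field containing a given root of
unity of order prime to `q`. -/
theorem exists_isInertial_zeta (hq : q.Prime) (hA : A.LiesOverPrime q)
    (K₀ : IntermediateField ℚ Qbar) [FiniteDimensional ℚ ↥K₀]
    (hK₀ : ∀ τ ∈ A.inertiaSubgroupIn ℚ, ∀ x ∈ K₀, τ x = x) {N : ℕ} (hqN : ¬ q ∣ N)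
    {ζ : Qbar} (hζ : ζ ^ N = 1) :
    ∃ K : IntermediateField ℚ Qbar, FiniteDimensional ℚ ↥K ∧ K₀ ≤ K ∧ ζ ∈ K ∧ IsInertial A K := by
  have hN0 : N ≠ 0 := fun h0 => hqN (h0 ▸ dvd_zero q)
  have hint : IsIntegral ℚ ζ := Algebra.IsIntegral.isIntegral ζ
  haveI : FiniteDimensional ℚ ↥(IntermediateField.adjoin ℚ {ζ}) :=
    IntermediateField.adjoin.finiteDimensional hint
  haveI : FiniteDimensional ℚ ↥(K₀ ⊔ IntermediateField.adjoin ℚ {ζ}) := inferInstance
  have hfix : ∀ τ ∈ A.inertiaSubgroupIn ℚ, ∀ x ∈ K₀ ⊔ IntermediateField.adjoin ℚ {ζ}, τ x = x := by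
    intro τ hτ x hx
    have hle : K₀ ⊔ IntermediateField.adjoin ℚ {ζ} ≤
        IntermediateField.fixedField (A.inertiaSubgroupIn ℚ) := by
      refine sup_le (fun y hy => ?_) ?_
      · exact (IntermediateField.mem_fixedField_iff _ _).mpr fun τ hτ => hK₀ τ hτ y hy
      · rw [IntermediateField.adjoin_le_iff]
        rintro y rfl
        exact (IntermediateField.mem_fixedField_iff _ _).mpr fun τ hτ =>
          Fermat.Agent.ES.P36.ZetaUnr26.inertia_fixes_rootOfUnity hq hA hqN hζ hτ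
    exact (IntermediateField.mem_fixedField_iff _ _).mp (hle hx) τ hτ
  obtain ⟨K, hfin, hle, hK⟩ := exists_isInertial_ge (A := A) _ hfix
  exact ⟨K, hfin, le_trans le_sup_left hle,
    hle ((le_sup_right : IntermediateField.adjoin ℚ {ζ} ≤ K₀ ⊔ IntermediateField.adjoin ℚ {ζ})
      (IntermediateField.mem_adjoin_simple_self ℚ ζ)), hK⟩

end Fermat.Agent.T1B.NodeNF37.RatNodes37
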