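/-
T1B / TORIC50 MODEL FACTS (helper37): exports around `ToricBaseInst.Hyp.toricBase` asked by the
consumers (helper50 msg 9865, helper98 (O4)):

* `satP`, `satQ` : `s01` is regular modulo `P`, modulo `Q` (and the chart versions `sat_P0`, ...);
* `Algebra.FiniteType R ↥B0`, `Algebra.FiniteType R ↥(B0 ⊔ B1)` from the model, and
  `Algebra.FiniteType R ↥B1` from `fin1` (chart `1` finite over `R[t⁻¹]`, not a field of the model);
* `ker_algebraMap_quotient` : `RingHom.ker (algebraMap R (R ⧸ span {π})) = span {π}`.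
-/
import Mathlib
import Fermat.Agent.T1B.NodeNF37.ToricBaseInst

set_option autoImplicit false
set_option linter.unusedSectionVars false
set_option linter.style.haveILetI false

universe u

namespace Fermat.Agent.T1B.NodeNF37.ToricBaseInst

open Polynomial Fermat.Agent.ES.N34.NodalCore13 Fermat.Agent.T1.CechFormal70
open Fermat.Agent.T1.ModelCoh30 (ρ0 ρ1)
open Fermat.Agent.T1B

variable {R F : Type u} [CommRing R] [Field F] [Algebra R F]
variable {π : R} {t : F} {B0 B1 : Subalgebra R F} {O1 O2 : ValuationSubring F}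

namespace Hyp

/-! ### saturation -/

theorem satP (H : Hyp π t B0 B1 O1 O2) (x : ↥(B0 ⊔ B1)) (h : H.s01 * x ∈ H.P) : x ∈ H.P :=
  (Ideal.IsPrime.mem_or_mem inferInstance h).resolve_left H.s01_notMem_P

theorem satQ (H : Hyp π t B0 B1 O1 O2) (x : ↥(B0 ⊔ B1)) (h : H.s01 * x ∈ H.Q) : x ∈ H.Q :=
  (Ideal.IsPrime.mem_or_mem inferInstance h).resolve_left H.s01_notMem_Q

theorem sat_P0 (H : Hyp π t B0 B1 O1 O2) (x : ↥B0) (h : H.s0 * x ∈ H.P0) : x ∈ H.P0 :=
  (Ideal.IsPrime.mem_or_mem inferInstance h).resolve_left H.ssPoly_notMem_P0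

theorem sat_Q0 (H : Hyp π t B0 B1 O1 O2) (x : ↥B0) (h : H.s0 * x ∈ H.Q0) : x ∈ H.Q0 :=
  (Ideal.IsPrime.mem_or_mem inferInstance h).resolve_left H.ssPoly_notMem_Q0

instance (H : Hyp π t B0 B1 O1 O2) : H.P1.IsPrime :=
  NodalFacts23.vertIdeal_isPrime _ H.model.pi_ne H.model.pi_nonunit1 H.model.unif1
instance (H : Hyp π t B0 B1 O1 O2) : H.Q1.IsPrime :=
  NodalFacts23.vertIdeal_isPrime _ H.model.pi_ne H.model.pi_nonunit2 H.model.unif2

theorem s1_notMem_P1 (H : Hyp π t B0 B1 O1 O2) : H.s1 ∉ H.P1 := by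
  intro h
  obtain ⟨v, hv⟩ := H.hs1
  have h1 : ρ1 B0 B1 H.s1 ∈ H.P := h
  rw [hv] at h1
  have h2 : H.s01 ∈ H.P := by
    have : H.s01 = ((v⁻¹ : (↥(B0 ⊔ B1))ˣ) : ↥(B0 ⊔ B1)) * ((v : ↥(B0 ⊔ B1)) * H.s01) := by
      rw [← mul_assoc, Units.inv_mul, one_mul]
    rw [this]
    exact Ideal.mul_mem_left _ _ h1
  exact H.s01_notMem_P h2

theorem s1_notMem_Q1 (H : Hyp π t B0 B1 O1 O2) : H.s1 ∉ H.Q1 := by
  intro h
  obtain ⟨v, hv⟩ := H.hs1
  have h1 : ρ1 B0 B1 H.s1 ∈ H.Q := h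
  rw [hv] at h1
  have h2 : H.s01 ∈ H.Q := by
    have : H.s01 = ((v⁻¹ : (↥(B0 ⊔ B1))ˣ) : ↥(B0 ⊔ B1)) * ((v : ↥(B0 ⊔ B1)) * H.s01) := by
      rw [← mul_assoc, Units.inv_mul, one_mul]
    rw [this]
    exact Ideal.mul_mem_left _ _ h1
  exact H.s01_notMem_Q h2

theorem sat_P1 (H : Hyp π t B0 B1 O1 O2) (x : ↥B1) (h : H.s1 * x ∈ H.P1) : x ∈ H.P1 :=
  (Ideal.IsPrime.mem_or_mem inferInstance h).resolve_left H.s1_notMem_P1

theorem sat_Q1 (H : Hyp π t B0 B1 O1 O2) (x : ↥B1) (h : H.s1 * x ∈ H.Q1) : x ∈ H.Q1 :=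
  (Ideal.IsPrime.mem_or_mem inferInstance h).resolve_left H.s1_notMem_Q1

/-! ### the residue field of the base -/

theorem ker_algebraMap_quotient (π : R) :
    RingHom.ker (algebraMap R (R ⧸ Ideal.span {π})) = Ideal.span {π} := by
  ext x
  rw [RingHom.mem_ker, Ideal.Quotient.algebraMap_eq, Ideal.Quotient.eq_zero_iff_mem]

theorem surjective_algebraMap_quotient (π : R) :
    Function.Surjective (algebraMap R (R ⧸ Ideal.span {π})) :=
  Ideal.Quotient.mk_surjective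

end Hyp

/-! ### finite type -/

/-- a chart which is finite over `R[t]` (explicit generators) is a finitely generated algebra. -/
theorem fg_of_fin {B : Subalgebra R F} {t : F} (ht : t ∈ B)
    (hfin : ∃ (r : ℕ) (e : Fin r → F), (∀ i, e i ∈ B) ∧
      ∀ x ∈ B, ∃ P : Fin r → R[X], x = ∑ i, aeval t (P i) * e i) : B.FG := by
  obtain ⟨r, e, he, hgen⟩ := hfin
  rw [Subalgebra.fg_def]
  refine ⟨{t} ∪ Set.range e, (Set.finite_singleton t).union (Set.finite_range e), ?_⟩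
  apply le_antisymm
  · rw [Algebra.adjoin_le_iff]
    rintro x (hx | ⟨i, rfl⟩)
    · rw [Set.mem_singleton_iff] at hx
      rw [hx]; exact ht
    · exact he i
  · intro x hx
    obtain ⟨P, rfl⟩ := hgen x hx
    apply Subalgebra.sum_mem
    intro i _
    apply Subalgebra.mul_mem
    · rw [← Polynomial.aeval_subalgebra_coe (P i) (Algebra.adjoin R ({t} ∪ Set.range e))
        ⟨t, Algebra.subset_adjoin (Or.inl rfl)⟩]
      exact Subtype.property _
    · exact Algebra.subset_adjoin (Or.inr ⟨i, rfl⟩)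

theorem finiteType_of_fin {B : Subalgebra R F} {t : F} (ht : t ∈ B)
    (hfin : ∃ (r : ℕ) (e : Fin r → F), (∀ i, e i ∈ B) ∧
      ∀ x ∈ B, ∃ P : Fin r → R[X], x = ∑ i, aeval t (P i) * e i) : Algebra.FiniteType R ↥B :=
  ⟨(Subalgebra.fg_top B).2 (fg_of_fin ht hfin)⟩

theorem finiteType0 (N : NodalTwoChartModel R F π t B0 B1 O1 O2) : Algebra.FiniteType R ↥B0 :=
  finiteType_of_fin N.t_mem N.fin0

/-- the overlap `B0 ⊔ B1 = B0[t⁻¹]` is finitely generated. -/
theorem fg_sup (N : NodalTwoChartModel R F π t B0 B1 O1 O2) : (B0 ⊔ B1).FG := by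
  obtain ⟨s, hs, hs0⟩ := Subalgebra.fg_def.1 (fg_of_fin N.t_mem N.fin0)
  rw [Subalgebra.fg_def]
  refine ⟨s ∪ {t⁻¹}, hs.union (Set.finite_singleton _), ?_⟩
  apply le_antisymm
  · rw [Algebra.adjoin_le_iff]
    rintro x (hx | hx)
    · have hx0 : x ∈ Algebra.adjoin R s := Algebra.subset_adjoin hx
      rw [hs0] at hx0
      exact (le_sup_left : B0 ≤ B0 ⊔ B1) hx0
    · rw [Set.mem_singleton_iff] at hx
      rw [hx]
      exact (le_sup_right : B1 ≤ B0 ⊔ B1) N.tinv_mem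
  · intro y hy
    obtain ⟨k, hk⟩ := (NodalFacts23.mem_sup_iff0 N).1 hy
    have hy' : y = t⁻¹ ^ k * (t ^ k * y) := by
      rw [← mul_assoc, NodalFacts23.tinv_pow_mul_t_pow N, one_mul]
    rw [hy']
    apply Subalgebra.mul_mem
    · exact Subalgebra.pow_mem _
        (Algebra.subset_adjoin (Set.mem_union_right _ (Set.mem_singleton _))) k
    · have : t ^ k * y ∈ Algebra.adjoin R s := by rw [hs0]; exact hk
      exact Algebra.adjoin_mono Set.subset_union_left this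

theorem finiteType01 (N : NodalTwoChartModel R F π t B0 B1 O1 O2) :
    Algebra.FiniteType R ↥(B0 ⊔ B1) :=
  ⟨(Subalgebra.fg_top (B0 ⊔ B1)).2 (fg_sup N)⟩

/-- chart `1`, from the extra hypothesis `fin1` (for `chart R t⁻¹`: `ChartGeneric22.chart_facts`). -/
theorem finiteType1 (N : NodalTwoChartModel R F π t B0 B1 O1 O2)
    (fin1 : ∃ (r : ℕ) (e : Fin r → F), (∀ i, e i ∈ B1) ∧
      ∀ x ∈ B1, ∃ P : Fin r → R[X], x = ∑ i, aeval t⁻¹ (P i) * e i) :
    Algebra.FiniteType R ↥B1 :=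
  finiteType_of_fin N.tinv_mem fin1

end Fermat.Agent.T1B.NodeNF37.ToricBaseInst
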