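/-
T1B / TORIC50, brick RAT-NODES, FINAL EXISTENCE THEOREM (helper37; built on helper23's
`NodalBC23.RatNodesNF.rational_numField` / `exists_level_numField`, helper98's
`Toric98.NodalModel.finite_nodes01`, and `NodeNF37.{ConcreteHyp, RatNodes37}`).

`A | q` (`q` odd, `4 ∣ M'`, `q ∤ M'`), `K₀` a finite INERTIAL number field containing `ζ_{M'}`.  Then there is a finite
inertial `K ⊇ K₀` such that for EVERY finite inertial `K' ⊇ K` all the nodes of the nodal model of level `M' q` over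
`A ∩ K'` are rational:
`∀ m' ∈ nodeSet π' (B0 ⊔ B1) O1 O2 le1' le2', Function.Surjective (algebraMap ↥(AK A K') (↥(B0 ⊔ B1) ⧸ m'))`
(= `hrat` of `Toric98.NodalModel.nodalFD(Fin)`).

Proof: the node set over `K₀` is finite (`finite_nodes01 (hyp_four ..)`); `N := ∏ (#κ(m) - 1)` is prime to `q`;
`K :=` an inertial field `⊇ K₀(ζ_N)`; over `K' ⊇ K` the residue field contains a primitive `N`-th root of unity, so the
residue field of the contraction of a node embeds in it, and the node is rational.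
-/
import Mathlib
import Fermat.Agent.T1B.NodeNF37.ConcreteHyp
import Fermat.Agent.T1B.NodeNF37.RatNodes37
import Fermat.Agent.T1B.NodalBC23.RatNodesNF
import Fermat.Agent.T1B.Toric98.ModelFibre

set_option autoImplicit false
set_option synthInstance.maxHeartbeats 400000
set_option linter.unusedSectionVars false
set_option linter.style.haveILetI false

noncomputable section

namespace Fermat.Agent.T1B.NodeNF37.RatNodesFinal

open Fermat.Agent.RED.Interface4 Fermat.Agent.RED.PUR.GaussGen8 Fermat.Agent.RED.BASE.EtaQuot12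
  Fermat.Agent.ES.N34.ModelDefs9 Fermat.Agent.ES.N34.NumData13 Fermat.Agent.ES.N34.NodalCore13
  Fermat.Agent.ES.P36.InertField27 Fermat.Agent.X0
  Fermat.Agent.RED.DESC.NumberFieldDVR27
  Fermat.Agent.T1B.NodeNF37.ToricBaseInst Fermat.Agent.T1B.NodeNF37.ConcreteHyp
  Fermat.Agent.T1B.NodeNF37.RatNodes37
open Fermat.Agent.T1B.Toric98 (nodeSet)

/-! ### Local shortcut instances (instance search at `↥(AK A K)`, `↥(FK N K)` is slow) -/

local instance (priority := high) scAlgKF (K : IntermediateField ℚ Qbar) (N : ℕ) [NeZero N] :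
    Algebra ↥K ↥(FK N K) := inferInstance

local instance (priority := high) scAlgAK (A : ValuationSubring Qbar)
    (K : IntermediateField ℚ Qbar) : Algebra ↥(AK A K) ↥K := inferInstance

local instance (priority := high) scAlgAF (A : ValuationSubring Qbar)
    (K : IntermediateField ℚ Qbar) (N : ℕ) [NeZero N] : Algebra ↥(AK A K) ↥(FK N K) :=
  inferInstance

local instance (priority := high) scTower (A : ValuationSubring Qbar)
    (K : IntermediateField ℚ Qbar) (N : ℕ) [NeZero N] :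
    IsScalarTower ↥(AK A K) ↥K ↥(FK N K) := inferInstance

variable {q M' : ℕ} [NeZero M'] [NeZero q] {A : ValuationSubring Qbar}

/-- **RAT-NODES**: after enlarging the inertial base field, all nodes of the nodal model are rational. -/
theorem exists_rational_four (hq : q.Prime) (hq2 : q ≠ 2) (hqM : ¬ q ∣ M') (hM : 4 ∣ M')
    (hA : A.LiesOverPrime q) (K₀ : IntermediateField ℚ Qbar) [FiniteDimensional ℚ ↥K₀]
    (hK₀ : IsInertial A K₀) (hζ₀ : zetaK M' ∈ K₀) :
    ∃ K : IntermediateField ℚ Qbar, FiniteDimensional ℚ ↥K ∧ K₀ ≤ K ∧ IsInertial A K ∧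
      ∀ (K' : IntermediateField ℚ Qbar) [FiniteDimensional ℚ ↥K'], K ≤ K' → IsInertial A K' →
        ∀ (ht' : tq (↥K') 4 8 ∈ FK M' K') (hE' : FK (M' * q) K' ≤ fracField (AK A K'))
          (π' : ↥(AK A K')) (hπ' : IsUnif (AK A K') π')
          (le1' : ∀ x ∈ B0 A q ht' ⊔ B1 A q ht', x ∈ O1 M' q hπ' hE')
          (le2' : ∀ x ∈ B0 A q ht' ⊔ B1 A q ht', x ∈ O2 M' q hπ' hE'),
          ∀ m' ∈ nodeSet π' (B0 A q ht' ⊔ B1 A q ht') (O1 M' q hπ' hE') (O2 M' q hπ' hE')
              le1' le2',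
            Function.Surjective (algebraMap ↥(AK A K') (↥(B0 A q ht' ⊔ B1 A q ht') ⧸ m')) := by
  classical
  obtain ⟨ht₀, hE₀, hD₀⟩ :=
    Fermat.Agent.ES.P36.ModelInert4.nodalNumData_four_inertial hq hq2 hqM hM hA hK₀ hζ₀
  haveI := isDiscreteValuationRing_AK A K₀ hq.ne_zero hA
  obtain ⟨π₀, hπ₀irr⟩ := IsDiscreteValuationRing.exists_irreducible ↥(AK A K₀)
  have hπ₀ : IsUnif (AK A K₀) π₀ := isUnif_of_irreducible (AK A K₀) hπ₀irr
  have Hy₀ := hyp_four hq hq2 hqM hM hA hK₀ hζ₀ ht₀ hE₀ π₀ hπ₀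
  have hfin := Fermat.Agent.T1B.Toric98.NodalModel.finite_nodes01 Hy₀
  obtain ⟨N, hN0, hcop, hdvd⟩ :=
    Fermat.Agent.T1B.NodalBC23.RatNodesNF.exists_level_numField A M' q hq hA hπ₀ hE₀ ht₀
      Hy₀.le01_1 Hy₀.le01_2 hfin
  have hqN : ¬ q ∣ N := (Nat.Prime.coprime_iff_not_dvd hq).1 hcop.symm
  obtain ⟨ζ, hζ⟩ := exists_primitiveRoot_Qbar hN0
  obtain ⟨K, hKfin, hle, hζK, hK⟩ :=
    exists_isInertial_zeta hq hA K₀ hK₀.1 hqN hζ.pow_eq_one
  refine ⟨K, hKfin, hle, hK, ?_⟩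
  intro K' _ hle' hK' ht' hE' π' hπ' le1' le2' m' hm'
  have hζ' : zetaK M' ∈ K' := hle' (hle hζ₀)
  have hL := numData_four hq hq2 hqM hM hA hK' hζ' ht' hE' π' hπ'
  obtain ⟨z, hz⟩ := exists_primitiveRoot_residue_AK hq hA K' hqN hζ (hle' hζK)
  exact Fermat.Agent.T1B.NodalBC23.RatNodesNF.rational_numField A (le_trans hle hle') M' q hq hA
    hπ₀ hπ' hE₀ hE' ht₀ ht' (hD₀ π₀ hπ₀) hL Hy₀.le01_1 Hy₀.le01_2 le1' le2' hN0 hz hdvd hm'

end Fermat.Agent.T1B.NodeNF37.RatNodesFinal
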