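/-
T1B / TORIC50, brick RAT-NODES ON THE HUB (helper37; ruling helper50 15:00Z): the choice of the hub field `K` with
RATIONAL NODES, in helper9's `Hub9` vocabulary.

* `exists_rational_hub (H₀ : HubParams p M' K₀)` : there is a finite `K ⊇ K₀` with `HubParams p M' K` such that over EVERY
  finite `K' ⊇ K` with `H' : HubParams p M' K'` all nodes of `B0S H' ⊔ B1S H'` are `Wb p K'`-rational
  (`hrat` of `Toric98.NodalModel.nodalFD(Fin)`; stable under further enlargement of the field);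
* `exists_hubParams_hrat hp2 h4 hpM` : `∃ K (_ : FiniteDimensional ℚ ↥K) (H : HubParams p M' K), hrat` (the statement that
  replaces the plain existence of hub parameters in `Local66`).

The `le1 le2` arguments of `Toric98.nodeSet` are universally quantified (any proofs, e.g. `(HyS H).le01_1/le01_2`).
-/
import Mathlib
import Fermat.Agent.T1B.Hub9.Base
import Fermat.Agent.T1B.Hub46.ExistsField
import Fermat.Agent.T1B.NodeNF37.RatNodesFinal

set_option autoImplicit false
set_option synthInstance.maxHeartbeats 400000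
set_option maxHeartbeats 1000000
set_option linter.unusedSectionVars false
set_option linter.style.haveILetI false

noncomputable section

namespace Fermat.Agent.T1B.NodeNF37.HubRat37

open Fermat.Agent.RED.Interface4 Fermat.Agent.RED.PUR.GaussGen8
open Fermat.Agent.T1.Assembly41.Concrete
open Fermat.Agent.T1B.Local66.LocalBase
open Fermat.Agent.T1B.Hub9
open Fermat.Agent.ES.N34.ModelDefs9 Fermat.Agent.ES.N34.NumData13 Fermat.Agent.ES.N34.NodalCore13
open Fermat.Agent.ES.P36.InertField27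
open Fermat.Agent.T1B.Toric98 (nodeSet)
open scoped Fermat.Agent.T1.Assembly41.FastInst

variable {p M' : ℕ} [Fact p.Prime] [NeZero p] [NeZero M']

/-- **RAT-NODES on the hub**, stable under enlargement of the field. -/
theorem exists_rational_hub {K₀ : IntermediateField ℚ Qbar} [FiniteDimensional ℚ K₀]
    (H₀ : HubParams p M' K₀) :
    ∃ K : IntermediateField ℚ Qbar, FiniteDimensional ℚ ↥K ∧ K₀ ≤ K ∧ HubParams p M' K ∧
      ∀ (K' : IntermediateField ℚ Qbar) [FiniteDimensional ℚ ↥K'], K ≤ K' →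
        ∀ (H' : HubParams p M' K')
          (le1 : ∀ x ∈ B0S H' ⊔ B1S H', x ∈ O1S p M' K')
          (le2 : ∀ x ∈ B0S H' ⊔ B1S H', x ∈ O2S p M' K'),
          ∀ m ∈ nodeSet (piW p K') (B0S H' ⊔ B1S H') (O1S p M' K') (O2S p M' K') le1 le2,
            Function.Surjective (algebraMap (Wb p K') (↥(B0S H' ⊔ B1S H') ⧸ m)) := by
  obtain ⟨K, hfin, hle, hK, h⟩ :=
    RatNodesFinal.exists_rational_four H₀.hp H₀.hp2 H₀.hpM H₀.h4 (hA p) K₀ H₀.hK H₀.hζ
  refine ⟨K, hfin, hle, ⟨H₀.hp2, H₀.h4, H₀.hpM, hle H₀.hζ, hK⟩, ?_⟩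
  intro K' _ hle' H' le1 le2 m hm
  exact h K' hle' H'.hK H'.htq (hES p M' K') (piW p K') (isUnif_piW p K') le1 le2 m hm

/-- **The hub field with rational nodes.** -/
theorem exists_hubParams_hrat (hp2 : p ≠ 2) (h4 : 4 ∣ M') (hpM : ¬ p ∣ M') :
    ∃ (K : IntermediateField ℚ Qbar) (_ : FiniteDimensional ℚ ↥K) (H : HubParams p M' K),
      ∀ (le1 : ∀ x ∈ B0S H ⊔ B1S H, x ∈ O1S p M' K) (le2 : ∀ x ∈ B0S H ⊔ B1S H, x ∈ O2S p M' K),
        ∀ m ∈ nodeSet (piW p K) (B0S H ⊔ B1S H) (O1S p M' K) (O2S p M' K) le1 le2,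
          Function.Surjective (algebraMap (Wb p K) (↥(B0S H ⊔ B1S H) ⧸ m)) := by
  obtain ⟨K₀, hfin₀, hζ₀, hK₀, -⟩ := Fermat.Agent.T1B.Hub46.exists_inertial_zeta_field p M' hpM
  haveI := hfin₀
  have H₀ : HubParams p M' K₀ := ⟨hp2, h4, hpM, hζ₀, hK₀⟩
  obtain ⟨K, hfin, -, HK, h⟩ := exists_rational_hub H₀
  haveI := hfin
  exact ⟨K, hfin, HK, fun le1 le2 m hm => h K le_rfl HK le1 le2 m hm⟩

end Fermat.Agent.T1B.NodeNF37.HubRat37
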