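/-
Programme T1B, brick Phi3-(C) (helper37), wrapper in the vocabulary of helper51's `ModelBC51.Abstract.BCData` and
helper23's `NodalBC23.Abstract` (`K` below, `L` above; unprimed = below, primed = above):

* `surj_mod_pi`      : `B' = R' · B` (`ChartPair2.mem_spanOf_of_mem`) + equal residue fields
                       (`∀ r' : R', ∃ r s, r' = iR r + π' s`)  ⇒  (S) `B' = iF B + π' B'`;
* `nodeData_baseChange` : for `D : BCData K L π π' O1 O1'`, `NodeRegAt π B O1 O2` below (unramified base, regular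
  nodes of thickness one) and a two-branch maximal ideal `𝔪` of the chart `B'` above:
  `NodeData (B'_𝔪) (vv O1') (vv O2') (PP) (PP) π' (iF x) (iF y) e` with `x y = π e₀` regular node coordinates of `B` at
  `𝔪 ∩ B`, and `e` the ramification index (`iR π = π' ^ e · unit`).
-/
import Mathlib
import Fermat.Agent.T1B.NodalBC23.Abstract
import Fermat.Agent.T1B.NodeNF37.TransferReg

set_option autoImplicit false
set_option linter.unusedSectionVars false
set_option linter.unusedVariables false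
set_option linter.style.haveILetI false

namespace Fermat.Agent.T1B.NodeNF37.TransferBC

open IsLocalRing Fermat.Agent.T1B.NodeNF37.Abstract Fermat.Agent.T1B.NodeNF37.UnifOrd
  Fermat.Agent.T1.Peu37.NodeClassGroup Fermat.Agent.T1B.NodeNF37.Local
  Fermat.Agent.T1B.NodeNF37.N34Inst Fermat.Agent.T1B.NodeNF37.TransferExplicit
  Fermat.Agent.ES.N34.NodalCore13 Fermat.Agent.ES.N34.NumData13
  Fermat.Agent.ES.P36.NodeRegAt10
  Fermat.Agent.T1.ModelBC51.Abstract Fermat.Agent.T1B.NodalBC23.Abstract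

variable {R K F : Type*} [CommRing R] [Field K] [Field F] [Algebra R K] [Algebra K F]
  [Algebra R F] [IsScalarTower R K F]
variable {R' L F' : Type*} [CommRing R'] [Field L] [Field F'] [Algebra R' L] [Algebra L F']
  [Algebra R' F'] [IsScalarTower R' L F']
variable {π : R} {π' : R'} {O1 : ValuationSubring F} {O1' : ValuationSubring F'}
  (D : BCData K L π π' O1 O1')

/-- **(S)** `B' = iF B + π' B'` from `B' ⊆ R' · B` and equal residue fields. -/
theorem surj_mod_pi {B : Subalgebra R F} {B' : Subalgebra R' F'}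
    (hmap : ∀ x ∈ B, D.iF x ∈ B') (hspan : ∀ x ∈ B', x ∈ D.spanOf B)
    (hres : ∀ r' : R', ∃ r : R, ∃ s : R', r' = D.iR r + π' * s) :
    ∀ b' ∈ B', ∃ b ∈ B, ∃ c ∈ B', b' = D.iF b + algebraMap R' F' π' * c := by
  intro b' hb'
  have key : ∀ z ∈ D.spanOf B, ∃ b ∈ B, ∃ c ∈ B', z = D.iF b + algebraMap R' F' π' * c := by
    intro z hz
    unfold BCData.spanOf at hz
    induction hz using Submodule.span_induction with
    | mem z hz =>
      obtain ⟨b, hb, rfl⟩ := hz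
      exact ⟨b, hb, 0, B'.zero_mem, by rw [mul_zero, add_zero]⟩
    | zero => exact ⟨0, B.zero_mem, 0, B'.zero_mem, by rw [map_zero, mul_zero, add_zero]⟩
    | add z w _ _ hz hw =>
      obtain ⟨b₁, hb₁, c₁, hc₁, rfl⟩ := hz
      obtain ⟨b₂, hb₂, c₂, hc₂, rfl⟩ := hw
      exact ⟨b₁ + b₂, B.add_mem hb₁ hb₂, c₁ + c₂, B'.add_mem hc₁ hc₂, by rw [map_add]; ring⟩
    | smul r' z _ hz =>
      obtain ⟨b, hb, c, hc, rfl⟩ := hz
      obtain ⟨r, s, rfl⟩ := hres r'
      refine ⟨r • b, B.smul_mem hb r, s • D.iF b + (D.iR r + π' * s) • c,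
        B'.add_mem (B'.smul_mem (hmap b hb) s) (B'.smul_mem hc _), ?_⟩
      rw [Algebra.smul_def, Algebra.smul_def, Algebra.smul_def, Algebra.smul_def, map_mul,
        ← D.hRF, map_add, map_mul]
      ring
  exact key b' (hspan b' hb')

variable {O2 : ValuationSubring F} {O2' : ValuationSubring F'}

/-- **(Phi3-C) node data on the base-changed chart**, `BCData` form. -/
theorem nodeData_baseChange {B : Subalgebra R F} {B' : Subalgebra R' F'}
    (hreg : NodeRegAt π B O1 O2)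
    (hmap : ∀ x ∈ B, D.iF x ∈ B') (hspan : ∀ x ∈ B', x ∈ D.spanOf B)
    (hres : ∀ r' : R', ∃ r : R, ∃ s : R', r' = D.iR r + π' * s)
    (hO1 : ∀ x ∈ O1, D.iF x ∈ O1') (hO2 : ∀ x ∈ O2, D.iF x ∈ O2')
    (le1 : ∀ x ∈ B, x ∈ O1) (le2 : ∀ x ∈ B, x ∈ O2)
    (unif1 : ∀ x ∈ O1, x⁻¹ ∉ O1 → ∃ c ∈ O1, x = algebraMap R F π * c)
    (unif2 : ∀ x ∈ O2, x⁻¹ ∉ O2 → ∃ c ∈ O2, x = algebraMap R F π * c)
    (le1' : ∀ x ∈ B', x ∈ O1') (le2' : ∀ x ∈ B', x ∈ O2')
    (pi_ne' : algebraMap R' F' π' ≠ 0)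
    (pi_nonunit1' : (algebraMap R' F' π')⁻¹ ∉ O1') (pi_nonunit2' : (algebraMap R' F' π')⁻¹ ∉ O2')
    (unif1' : ∀ x ∈ O1', x⁻¹ ∉ O1' → ∃ c ∈ O1', x = algebraMap R' F' π' * c)
    (unif2' : ∀ x ∈ O2', x⁻¹ ∉ O2' → ∃ c ∈ O2', x = algebraMap R' F' π' * c)
    (arch1' : ∀ x : F', ∃ k : ℕ, algebraMap R' F' π' ^ k * x ∈ O1')
    (arch2' : ∀ x : F', ∃ k : ℕ, algebraMap R' F' π' ^ k * x ∈ O2')
    (sat' : ∀ b ∈ B', ∀ c : F', c ∈ O1' → c ∈ O2' → b = algebraMap R' F' π' * c → c ∈ B')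
    {e : ℕ} (he : 1 ≤ e) {v : R'ˣ} (hπ : D.iR π = π' ^ e * v)
    (𝔪 : Ideal B') [h𝔪 : 𝔪.IsMaximal] (hπ𝔪 : algebraMap R' B' π' ∈ 𝔪)
    (hon1 : ¬ OffBranch π' B' O1' 𝔪) (hon2 : ¬ OffBranch π' B' O2' 𝔪) :
    ∃ (x y e₀ : B) (H₁ : BranchHyp (gB B') 𝔪 O1' (algebraMap R' B' π'))
      (H₂ : BranchHyp (gB B') 𝔪 O2' (algebraMap R' B' π')),
      x * y = algebraMap R B π * e₀ ∧ iotaC D.iF B B' hmap e₀ ∉ 𝔪 ∧
      (∃ c ∈ O2, (x : F) = algebraMap R F π * c) ∧
      (∃ c ∈ O1, (y : F) = algebraMap R F π * c) ∧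
      NodeData (Localization.AtPrime 𝔪)
        (vv (gB B') (gB_injective B') 𝔪 O1' (algebraMap R' B' π'))
        (vv (gB B') (gB_injective B') 𝔪 O2' (algebraMap R' B' π'))
        (PP (gB B') (gB_injective B') 𝔪 H₁) (PP (gB B') (gB_injective B') 𝔪 H₂)
        (algebraMap B' (Localization.AtPrime 𝔪) (algebraMap R' B' π'))
        (algebraMap B' (Localization.AtPrime 𝔪) (iotaC D.iF B B' hmap x))
        (algebraMap B' (Localization.AtPrime 𝔪) (iotaC D.iF B B' hmap y)) e := by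
  have hS := surj_mod_pi D hmap hspan hres
  have hu : algebraMap R' F' (v : R') ∈ B' := B'.algebraMap_mem _
  have hu' : (algebraMap R' F' (v : R'))⁻¹ ∈ B' := by
    have h1 : algebraMap R' F' (v : R') * algebraMap R' F' ((v⁻¹ : R'ˣ) : R') = 1 := by
      rw [← map_mul, Units.mul_inv, map_one]
    have : (algebraMap R' F' (v : R'))⁻¹ = algebraMap R' F' ((v⁻¹ : R'ˣ) : R') :=
      (eq_inv_of_mul_eq_one_right h1).symm
    rw [this]
    exact B'.algebraMap_mem _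
  have hπF : D.iF (algebraMap R F π) = algebraMap R' F' π' ^ e * algebraMap R' F' (v : R') := by
    rw [← D.hRF, hπ, map_mul, map_pow]
  exact TransferReg.exists_nodeData_explicit_of_nodeRegAt D.iF π π' B B' O1 O2 O1' O2' hreg hmap
    hO1 hO2 le1 le2 unif1 unif2 le1' le2' pi_ne' pi_nonunit1' pi_nonunit2' unif1' unif2' arch1'
    arch2' sat' he hu hu' hπF hS 𝔪 hπ𝔪 hon1 hon2

end Fermat.Agent.T1B.NodeNF37.TransferBC
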